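import Fermat.Agent.CFT.First

/-!
# Auxiliary primes

Primes at which given elements are local `p`-th powers and another is not, and finite sets of
auxiliary primes making the `S`-units surject onto units modulo local powers.
-/

noncomputable section

namespace Fermat.Agent.CFT

open NumberField IsDedekindDomain WithZero

variable {p : ℕ} [hp : Fact p.Prime]

/-- `exists_aux_prime` by induction on the number of given elements. -/
theorem exists_aux_prime_aux (n : ℕ) : ∀ (K : Type) [Field K] [NumberField K] [IsTotallyComplex K]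
    (ζ : K), IsPrimitiveRoot ζ p → ∀ (T : List Kˣ), T.length = n → ∀ (x : Kˣ),
    x ∉ Subgroup.closure {t | t ∈ T} ⊔ (powMonoidHom p : Kˣ →* Kˣ).range →
    ∀ B : Finset (HeightOneSpectrum (𝓞 K)),
      ∃ v ∉ B, (∀ t ∈ T, t ∈ locPow v p) ∧ x ∉ locPow v p := by
  induction n with
  | zero =>
    intro K _ _ _ ζ hζ T hT x hx B
    have hnp : ∀ y : Kˣ, y ^ p ≠ x := fun y hy => hx (Subgroup.mem_sup_right ⟨y, hy⟩)
    have := isGalois_radField hζ hnp
    have hR := isRad_radField hζ hnp
    obtain ⟨v, hv, hns⟩ := exists_not_split (L := RadField K p x) hζ hR.deg B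
    exact ⟨v, hv, by simp [List.length_eq_zero_iff.1 hT],
      fun h => hns (hR.split_of_mem_locPow hζ h)⟩
  | succ n ih =>
    intro K _ _ _ ζ hζ T hT x hx B
    classical
    obtain ⟨a, T, rfl⟩ : ∃ a T', T = a :: T' := by
      cases T with
      | nil => simp at hT
      | cons a T => exact ⟨a, T, rfl⟩
    have hlen : T.length = n := by simpa using hT
    have hsub : Subgroup.closure {t : Kˣ | t ∈ T} ≤ Subgroup.closure {t | t ∈ a :: T} :=
      Subgroup.closure_mono fun t ht => List.mem_cons_of_mem a ht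
    by_cases haT : a ∈ Subgroup.closure {t | t ∈ T} ⊔ (powMonoidHom p : Kˣ →* Kˣ).range
    · obtain ⟨v, hv, hvT, hvx⟩ := ih K ζ hζ T hlen x (fun h => hx ((sup_le_sup_right hsub _) h)) B
      refine ⟨v, hv, fun t ht => ?_, hvx⟩
      rcases List.mem_cons.1 ht with rfl | ht
      · refine (sup_le ((Subgroup.closure_le _).2 fun s hs => hvT s hs) ?_) haT
        rintro _ ⟨y, rfl⟩
        exact pow_mem_locPow v p y
      · exact hvT t ht
    have hnp : ∀ y : Kˣ, y ^ p ≠ a := fun y hy => haT (Subgroup.mem_sup_right ⟨y, hy⟩)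
    have := isGalois_radField hζ hnp
    have hR := isRad_radField hζ hnp
    set L := RadField K p a
    have : IsTotallyComplex L := isTotallyComplex_of_algebra K L
    have hx' : baseU K L x ∉ Subgroup.closure {t | t ∈ T.map (baseU K L)} ⊔
        (powMonoidHom p : Lˣ →* Lˣ).range := by
      intro h
      obtain ⟨t', ht', _, ⟨s, rfl⟩, hts⟩ := Subgroup.mem_sup.1 h
      rw [show {t | t ∈ T.map (baseU K L)} = baseU K L '' {t | t ∈ T} by ext; simp,
        ← MonoidHom.map_closure] at ht'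
      obtain ⟨t, ht, rfl⟩ := ht'
      have hs : (s : L) ^ p = algebraMap K L ((x / t : Kˣ) : K) := by
        have e : (s : Lˣ) ^ p = baseU K L (x / t) := by
          rw [map_div, eq_div_iff_mul_eq', mul_comm]; exact hts
        simpa [coe_baseU] using congrArg Units.val e
      obtain ⟨i, y, hiy⟩ := hR.exists_eq_pow_mul hs
      refine hx ?_
      rw [← div_mul_cancel x t, hiy]
      refine mul_mem (mul_mem (Subgroup.mem_sup_left (pow_mem (Subgroup.subset_closure ?_) i))
        (Subgroup.mem_sup_right ⟨y, rfl⟩)) (Subgroup.mem_sup_left (hsub ht))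
      exact List.mem_cons_self
    set B₀ := B ∪ (finite_dvd K p).toFinset ∪ (finite_ord_ne_zero a).toFinset ∪
      (finite_ord_ne_zero x).toFinset with hB₀
    obtain ⟨w, hw, hwT, hwx⟩ := ih L (algebraMap K L ζ)
      (hζ.map_of_injective (algebraMap K L).injective) (T.map (baseU K L)) (by simpa using hlen)
      (baseU K L x) hx' (finite_above L B₀).toFinset
    have hv : below K w ∉ B₀ := fun h => hw ((finite_above L B₀).mem_toFinset.2 h)
    simp only [hB₀, Finset.mem_union, Set.Finite.mem_toFinset, Set.mem_ofPred_eq, not_or,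
      not_not] at hv
    obtain ⟨⟨⟨hvB, hvp⟩, hva⟩, hvx⟩ := hv
    have hnx : x ∉ locPow (below K w) p := fun h => hwx (baseU_mem_locPow rfl h)
    refine ⟨below K w, hvB, ?_, hnx⟩
    have hsp : IsSplit L (below K w) := by
      by_contra hns
      obtain ⟨i, hi⟩ := exists_div_pow_mem_locPow hζ hvp hva hvx
        fun h => hns (hR.split_of_mem_locPow hζ h)
      refine hwx ?_
      have h1 := baseU_mem_locPow (L := L) rfl hi
      obtain ⟨r, hr⟩ := hR.root
      rw [← div_mul_cancel x (a ^ i), map_mul]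
      refine mul_mem h1 ?_
      rw [map_zpow, show baseU K L a = r ^ p from
        Units.ext (by rw [coe_baseU, Units.val_pow_eq_pow_val, hr])]
      exact zpow_mem (pow_mem_locPow w p r) i
    intro t ht
    rcases List.mem_cons.1 ht with rfl | ht
    · exact hR.mem_locPow_of_split hsp
    · exact mem_locPow_of_baseU hR.deg hsp rfl (hwT _ (List.mem_map.2 ⟨t, ht, rfl⟩))

variable {K : Type} [Field K] [NumberField K] {ζ : K}

/-- Primes at which given elements are local powers and another is not. -/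
theorem exists_aux_prime [IsTotallyComplex K] (hζ : IsPrimitiveRoot ζ p) (T : List Kˣ) {x : Kˣ}
    (hx : x ∉ Subgroup.closure {t | t ∈ T} ⊔ (powMonoidHom p : Kˣ →* Kˣ).range)
    (B : Finset (HeightOneSpectrum (𝓞 K))) :
    ∃ v ∉ B, (∀ t ∈ T, t ∈ locPow v p) ∧ x ∉ locPow v p :=
  exists_aux_prime_aux T.length K ζ hζ T rfl x hx B

theorem pow_range_relIndex_sU (hζ : IsPrimitiveRoot ζ p)
    (S : Finset (HeightOneSpectrum (𝓞 K))) :
    ((powMonoidHom p : Kˣ →* Kˣ).range).relIndex (sU (S : Set (HeightOneSpectrum (𝓞 K)))) =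
      p ^ (Units.rank K + S.card + 1) := by
  rw [← sU_pow_index hζ S, Subgroup.relIndex]
  congr 1
  ext ⟨x, hx⟩
  rw [Subgroup.mem_subgroupOf]
  constructor
  · rintro ⟨y, rfl⟩
    refine ⟨⟨y, fun v hv => ?_⟩, rfl⟩
    have h := hx v hv
    rw [show (powMonoidHom p : Kˣ →* Kˣ) y = y ^ p from rfl, ord_pow, mul_eq_zero] at h
    exact h.resolve_left (by exact_mod_cast hp.out.ne_zero)
  · rintro ⟨y, hy⟩
    exact ⟨(y : Kˣ), congrArg Subtype.val hy⟩

omit [NumberField K] in
theorem relIndex_closure_le (T : List Kˣ) :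
    ((powMonoidHom p : Kˣ →* Kˣ).range).relIndex
        ((powMonoidHom p : Kˣ →* Kˣ).range ⊔ Subgroup.closure {t | t ∈ T}) ≠ 0 ∧
      ((powMonoidHom p : Kˣ →* Kˣ).range).relIndex
        ((powMonoidHom p : Kˣ →* Kˣ).range ⊔ Subgroup.closure {t | t ∈ T}) ≤ p ^ T.length := by
  induction T with
  | nil => simp
  | cons a T ih =>
    set P := (powMonoidHom p : Kˣ →* Kˣ).range
    set Y := P ⊔ Subgroup.closure {t | t ∈ T}
    have e : P ⊔ Subgroup.closure {t | t ∈ a :: T} = Y ⊔ Subgroup.zpowers a := by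
      rw [show {t | t ∈ a :: T} = {t | t ∈ T} ∪ {a} by ext; simp, Subgroup.closure_union,
        ← Subgroup.zpowers_eq_closure, sup_assoc]
    obtain ⟨h0, h1⟩ := relIndex_sup_zpowers_le (p := p) Y (a := a) (Subgroup.mem_sup_left ⟨a, rfl⟩)
    rw [e, ← Subgroup.relIndex_mul_relIndex P Y (Y ⊔ Subgroup.zpowers a) le_sup_left le_sup_left,
      List.length_cons, pow_succ]
    exact ⟨mul_ne_zero ih.1 h0, Nat.mul_le_mul ih.2 h1⟩

theorem relIndex_infOn_locPow_sU_le (hζ : IsPrimitiveRoot ζ p)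
    {S : Finset (HeightOneSpectrum (𝓞 K))} (hvp : ∀ v ∉ S, (p : 𝓞 K) ∉ v.asIdeal)
    (W : Finset (HeightOneSpectrum (𝓞 K))) (hW : ∀ w ∈ W, w ∉ S) :
    (infOn (fun v => locPow v p) W).relIndex (sU (S : Set (HeightOneSpectrum (𝓞 K)))) ≠ 0 ∧
      (infOn (fun v => locPow v p) W).relIndex (sU (S : Set (HeightOneSpectrum (𝓞 K)))) ≤
        p ^ W.card := by
  classical
  induction W using Finset.induction with
  | empty =>
    rw [show infOn (fun v => locPow v p) (∅ : Finset (HeightOneSpectrum (𝓞 K))) = ⊤ by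
      ext; simp [mem_infOn]]
    simp
  | insert w W hw ih =>
    obtain ⟨i1, i2⟩ := ih fun u hu => hW u (Finset.mem_insert_of_mem hu)
    have hwS := hW w (Finset.mem_insert_self w W)
    have e : infOn (fun v => locPow v p) (insert w W) =
        locPow w p ⊓ infOn (fun v => locPow v p) W := by
      ext; simp [mem_infOn, Subgroup.mem_inf]
    have h1 : (locPow w p).relIndex (sU (S : Set (HeightOneSpectrum (𝓞 K)))) ≠ 0 ∧
        (locPow w p).relIndex (sU (S : Set (HeightOneSpectrum (𝓞 K)))) ≤ p := by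
      by_cases h : sU (S : Set (HeightOneSpectrum (𝓞 K))) ≤ locPow w p
      · rw [Subgroup.relIndex_eq_one.2 h]
        exact ⟨one_ne_zero, hp.out.one_le⟩
      obtain ⟨u, hu, hun⟩ := SetLike.not_le_iff_exists.1 h
      obtain ⟨g0, g1⟩ := relIndex_sup_zpowers_le (p := p) (locPow w p) (pow_mem_locPow w p u)
      have hle : sU (S : Set (HeightOneSpectrum (𝓞 K))) ≤ locPow w p ⊔ Subgroup.zpowers u := by
        intro x hx
        obtain ⟨i, hi⟩ := exists_div_pow_mem_locPow hζ (hvp w hwS) (hu w hwS) (hx w hwS) hun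
        rw [← div_mul_cancel x (u ^ i)]
        exact mul_mem (Subgroup.mem_sup_left hi)
          (Subgroup.mem_sup_right (Subgroup.zpow_mem_zpowers u i))
      exact ⟨fun h0 => g0 (Subgroup.relIndex_eq_zero_of_le_right hle h0),
        (Subgroup.relIndex_le_of_le_right hle g0).trans g1⟩
    rw [e, Finset.card_insert_of_notMem hw, pow_succ']
    exact ⟨Subgroup.relIndex_inf_ne_zero h1.1 i1,
      Subgroup.relIndex_inf_le.trans (Nat.mul_le_mul h1.2 i2)⟩

/-- The `S`-units represent all units modulo local powers at `W`. -/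
def SurjAt (p : ℕ) (S W : Finset (HeightOneSpectrum (𝓞 K))) : Prop :=
  infOn (fun v => congr v 0) W ≤ sU (S : Set (HeightOneSpectrum (𝓞 K))) ⊔
    infOn (fun v => locPow v p) W

/-- An `S`-unit which is a local power at `W` but not at `w` adds `w` to `W`. -/
theorem SurjAt.insert [DecidableEq (HeightOneSpectrum (𝓞 K))]
    {S W : Finset (HeightOneSpectrum (𝓞 K))} (hsurj : SurjAt p S W)
    (hζ : IsPrimitiveRoot ζ p) {w : HeightOneSpectrum (𝓞 K)} (hwS : w ∉ S)
    (hwp : (p : 𝓞 K) ∉ w.asIdeal) {x : Kˣ} (hxS : x ∈ sU (S : Set (HeightOneSpectrum (𝓞 K))))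
    (hxW : x ∈ infOn (fun v => locPow v p) W) (hwx : x ∉ locPow w p) :
    SurjAt p S (insert w W) := fun q hq => by
  obtain ⟨u, hu, m, hm, hum⟩ := Subgroup.mem_sup.1
    (hsurj (infOn_anti _ (Finset.subset_insert w W) hq))
  have hm0 : ord w m = 0 := by
    have h := (mem_infOn.1 hq w (Finset.mem_insert_self w W)).1
    rw [← hum, ord_mul, hu w hwS, zero_add] at h
    exact h
  obtain ⟨i, hi⟩ := exists_div_pow_mem_locPow hζ hwp (hxS w hwS) hm0 hwx
  rw [← hum, ← div_mul_cancel m (x ^ i), mul_comm (m / x ^ i), ← mul_assoc]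
  refine Subgroup.mul_mem_sup (mul_mem hu (zpow_mem hxS i)) (mem_infOn.2 fun v hv => ?_)
  rcases Finset.mem_insert.1 hv with rfl | hv
  · exact hi
  · exact div_mem (mem_infOn.1 hm v hv) (zpow_mem (mem_infOn.1 hxW v hv) i)

/-- A set of auxiliary primes. -/
theorem exists_auxSet [IsTotallyComplex K] (hζ : IsPrimitiveRoot ζ p)
    {S : Finset (HeightOneSpectrum (𝓞 K))} (hvp : ∀ v ∉ S, (p : 𝓞 K) ∉ v.asIdeal)
    (F : List Kˣ) (k : ℕ) (hk : k + F.length ≤ Units.rank K + S.card + 1) :
    ∃ W : Finset (HeightOneSpectrum (𝓞 K)), W.card = k ∧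
      (∀ w ∈ W, w ∉ S ∧ ∀ t ∈ F, t ∈ locPow w p) ∧ SurjAt p S W := by
  classical
  induction k with
  | zero =>
    refine ⟨∅, rfl, by simp, fun x _ => Subgroup.mem_sup_right (mem_infOn.2 (by simp))⟩
  | succ k ih =>
    obtain ⟨W, hcard, hW, hsurj⟩ := ih (by omega)
    set Y := (powMonoidHom p : Kˣ →* Kˣ).range ⊔ Subgroup.closure {t | t ∈ F}
    obtain ⟨x, hxS, hxW, hxY⟩ : ∃ x ∈ sU (S : Set (HeightOneSpectrum (𝓞 K))),
        x ∈ infOn (fun v => locPow v p) W ∧ x ∉ Y := by
      by_contra h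
      push Not at h
      obtain ⟨r0, r1⟩ := relIndex_infOn_locPow_sU_le hζ hvp W fun w hw => (hW w hw).1
      obtain ⟨c0, c1⟩ := relIndex_closure_le (p := p) F
      have hle : infOn (fun v => locPow v p) W ⊓ sU (S : Set (HeightOneSpectrum (𝓞 K))) ≤ Y :=
        fun x hx => h x hx.2 hx.1
      have d0 := Subgroup.relIndex_dvd_of_le_left (sU (S : Set (HeightOneSpectrum (𝓞 K)))) hle
      rw [Subgroup.inf_relIndex_right] at d0
      have d1 : Y.relIndex (sU (S : Set (HeightOneSpectrum (𝓞 K)))) ≤ p ^ k :=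
        (Nat.le_of_dvd (Nat.pos_of_ne_zero r0) d0).trans (hcard ▸ r1)
      have key := Subgroup.relIndex_inf_mul_relIndex (powMonoidHom p : Kˣ →* Kˣ).range Y
        (sU (S : Set (HeightOneSpectrum (𝓞 K))))
      rw [inf_eq_left.2 (le_sup_left : _ ≤ Y), pow_range_relIndex_sU hζ S] at key
      have d2 := (Subgroup.relIndex_le_of_le_right
        (inf_le_left : Y ⊓ sU (S : Set (HeightOneSpectrum (𝓞 K))) ≤ Y) c0).trans c1
      have : p ^ (Units.rank K + S.card + 1) ≤ p ^ (F.length + k) := by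
        rw [← key, pow_add]
        exact Nat.mul_le_mul d2 d1
      have := (Nat.pow_le_pow_iff_right hp.out.one_lt).1 this
      omega
    obtain ⟨w, hw, hwF, hwx⟩ := exists_aux_prime hζ F (x := x)
      (fun h => hxY (by rwa [sup_comm] at h)) (S ∪ W)
    rw [Finset.mem_union, not_or] at hw
    refine ⟨insert w W, by rw [Finset.card_insert_of_notMem hw.2, hcard], fun u hu => ?_,
      hsurj.insert hζ hw.1 (hvp w hw.1) hxS hxW hwx⟩
    rcases Finset.mem_insert.1 hu with rfl | hu
    · exact ⟨hw.1, hwF⟩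
    · exact hW u hu

omit hp in
/-- Adjoining the auxiliary primes, every class at `W` is represented. -/
theorem SurjAt.sup_eq_top [DecidableEq (HeightOneSpectrum (𝓞 K))]
    {S W : Finset (HeightOneSpectrum (𝓞 K))} (h : SurjAt p S W)
    (hS : IsPrincipalOutside (S : Set (HeightOneSpectrum (𝓞 K)))) (hW : ∀ w ∈ W, w ∉ S) :
    sU ((S ∪ W : Finset _) : Set (HeightOneSpectrum (𝓞 K))) ⊔
      infOn (fun v => locPow v p) W = ⊤ := by
  classical
  refine eq_top_iff.2 fun q _ => ?_
  obtain ⟨x, hx⟩ := hS.exists_ord (fun v => if v ∈ W then ord v q else 0)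
    (W.finite_toSet.subset fun v hv => by by_contra h'; exact hv.2 (if_neg h'))
  have hxU : x ∈ sU ((S ∪ W : Finset _) : Set (HeightOneSpectrum (𝓞 K))) := fun v hv => by
    rw [Finset.mem_coe, Finset.mem_union, not_or] at hv
    rw [hx v hv.1]; exact if_neg hv.2
  have h1 := h (mem_infOn.2 fun w hw => (mem_congr_zero w).2 (show ord w (q / x) = 0 by
    rw [ord_div, hx w (hW w hw), if_pos hw, sub_self]))
  rw [← div_mul_cancel q x]
  exact mul_mem (sup_le_sup_right (sU_mono (by simp)) _ h1) (Subgroup.mem_sup_left hxU)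

/-- An `S ∪ W`-unit which is a local power at all primes of `S` is a power. -/
theorem SurjAt.mem_pow_range [IsTotallyComplex K] [DecidableEq (HeightOneSpectrum (𝓞 K))]
    {S W : Finset (HeightOneSpectrum (𝓞 K))} (h : SurjAt p S W) (hζ : IsPrimitiveRoot ζ p)
    (hS : IsPrincipalOutside (S : Set (HeightOneSpectrum (𝓞 K))))
    (hvp : ∀ v ∉ S, (p : 𝓞 K) ∉ v.asIdeal) (hW : ∀ w ∈ W, w ∉ S) {x : Kˣ}
    (hx : x ∈ sU ((S ∪ W : Finset _) : Set (HeightOneSpectrum (𝓞 K))))
    (hxS : x ∈ infOn (fun v => locPow v p) S) : x ∈ (powMonoidHom p : Kˣ →* Kˣ).range := by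
  classical
  by_contra hnx
  have hnp : ∀ y : Kˣ, y ^ p ≠ x := fun y hy => hnx ⟨y, hy⟩
  have := isGalois_radField hζ hnp
  have hR := isRad_radField hζ hnp
  refine sU_sup_normsAt_ne_top (L := RadField K p x) hζ hR.deg (S := S ∪ W)
    (hS.mono (by simp)) (fun w hw => ?_) (eq_top_iff.2 ?_)
  · refine hR.ram_eq_one ?_ (by rw [hx _ hw]; exact dvd_zero _)
    exact hvp _ fun h' => hw (Finset.mem_union_left _ h')
  · rw [← h.sup_eq_top hS hW]
    refine sup_le_sup_left (fun m hm => mem_infOn.2 fun v hv => ?_) _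
    rcases Finset.mem_union.1 hv with hv | hv
    · rw [locNorm_eq_top_of_split hR.deg (hR.split_of_mem_locPow hζ (mem_infOn.1 hxS v hv))]
      trivial
    · exact locPow_le_locNorm hR.deg v (mem_infOn.1 hm v hv)

end Fermat.Agent.CFT
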