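import Fermat.Agent.CFT.Inequalities

/-!
# Two primes with one prime above carry a global element that is a norm everywhere else

This is the weak form of reciprocity used by the duality theory.
-/

noncomputable section

namespace Fermat.Agent.CFT

open NumberField IsDedekindDomain WithZero

variable {K L : Type} [Field K] [NumberField K] [Field L] [NumberField L] [Algebra K L]
  [IsGalois K L] {p : ℕ} [hp : Fact p.Prime] {ζ : K}

/-- For two primes with one prime above, some element is a local norm at all other primes but not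
at both of them. -/
theorem exists_locNorm_pair [IsTotallyComplex K] (hζ : IsPrimitiveRoot ζ p)
    (hdeg : Module.finrank K L = p) {v w : HeightOneSpectrum (𝓞 K)} (hvw : v ≠ w)
    (hv : ¬ IsSplit L v) (hw : ¬ IsSplit L w) :
    ∃ x : Kˣ, (∀ u, u ≠ v → u ≠ w → x ∈ locNorm L u) ∧ ¬ (x ∈ locNorm L v ∧ x ∈ locNorm L w) := by
  classical
  obtain ⟨a, hR⟩ := exists_isRad (L := L) hζ hdeg
  obtain ⟨S, hsub, hS, haS⟩ := exists_goodSet_isRad hζ hR {v, w}
  obtain ⟨-, h2, -⟩ := hR.counts hζ hS haS
  set D := infOn (fun u => locNorm L u) (S \ {v, w}) with hDdef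
  set N := normsAt L S with hNdef
  set U := sU (S : Set (HeightOneSpectrum (𝓞 K))) with hUdef
  have hND : N ≤ D := infOn_anti _ Finset.sdiff_subset
  have hcl : ∀ T : Finset (HeightOneSpectrum (𝓞 K)),
      (infOn (fun u => locNorm L u) T).index = ∏ u ∈ T, (locNorm L u).index := fun T =>
    index_infOn _ T fun u _ => congr_le_locNorm hdeg u
  have hD0 : D.index ≠ 0 := index_infOn_ne_zero _ _ (fun u _ => congr_le_locNorm hdeg u)
    fun u _ => locNorm_index_ne_zero hdeg hζ u
  have hrel : N.relIndex D = p * p := by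
    refine Nat.eq_of_mul_eq_mul_right (Nat.pos_of_ne_zero hD0) ?_
    rw [Subgroup.relIndex_mul_index hND, hNdef, normsAt, hDdef, hcl, hcl,
      ← Finset.prod_sdiff hsub, Finset.prod_pair hvw, locNorm_index hζ hdeg hv,
      locNorm_index hζ hdeg hw, mul_comm]
  obtain ⟨x, hxU, hxD, hxN⟩ : ∃ x, x ∈ U ∧ x ∈ D ∧ x ∉ N := by
    by_contra! h
    have hle : (U ⊔ N) ⊓ D ≤ N := fun x hx => by
      obtain ⟨u, hu, m, hm, rfl⟩ := Subgroup.mem_sup.1 hx.1
      exact mul_mem (h u hu ((mul_mem_cancel_right (hND hm)).1 hx.2)) hm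
    have heq : (U ⊔ N).relIndex D = p * p := by
      rw [← Subgroup.inf_relIndex_right,
        le_antisymm hle (le_inf le_sup_right hND), hrel]
    have hdvd : p * p ∣ p := by
      rw [← heq]
      exact (Subgroup.relIndex_dvd_index_of_normal _ _).trans h2.dvd
    have := Nat.le_of_dvd hp.out.pos hdvd
    have := hp.out.two_le
    nlinarith
  refine ⟨x, fun u huv huw => ?_, fun hh => hxN (mem_infOn.2 fun u hu => ?_)⟩
  · by_cases hu : u ∈ S
    · exact mem_infOn.1 hxD u (by simp [hu, huv, huw])
    · obtain ⟨w', hw'⟩ := exists_below_eq (L := L) u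
      exact mem_locNorm_of_ord_eq_zero hdeg (hS.not_dvd u hu) hw'
        (hS.unramified w' (by rwa [hw'])) (hxU u (by simpa using hu))
  · rcases eq_or_ne u v with rfl | huv
    · exact hh.1
    rcases eq_or_ne u w with rfl | huw
    · exact hh.2
    exact mem_infOn.1 hxD u (by simp [hu, huv, huw])

end Fermat.Agent.CFT
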