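import Mathlib.GroupTheory.Index
import Mathlib.NumberTheory.NumberField.Basic
import Mathlib.NumberTheory.NumberField.Completion.FinitePlace
import Mathlib.RingTheory.DedekindDomain.AdicValuation
import Mathlib.RingTheory.DedekindDomain.Ideal.Lemmas
import Mathlib.RingTheory.DedekindDomain.SelmerGroup
import Mathlib.RingTheory.Ideal.Quotient.HasFiniteQuotients

/-!
# Orders and congruence subgroups at a finite prime of a number field

`OrdGE v n x` says that `x` has order at least `n` at `v`; `congr v n` is the group of nonzero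
elements which are units at `v` and congruent to `1` to order `n`.
-/

noncomputable section

namespace Fermat.Agent.CFT

open NumberField IsDedekindDomain WithZero

variable {K : Type} [Field K] [NumberField K] (v : HeightOneSpectrum (𝓞 K))

/-- `x` has order at least `n` at `v`. -/
def OrdGE (n : ℤ) (x : K) : Prop := v.valuation K x ≤ exp (-n)

variable {v}

theorem ordGE_zero (n : ℤ) : OrdGE v n (0 : K) := by simp [OrdGE]

theorem OrdGE.mono {n m : ℤ} {x : K} (h : OrdGE v n x) (hm : m ≤ n) : OrdGE v m x :=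
  le_trans h (exp_le_exp.2 (neg_le_neg hm))

theorem OrdGE.add {n : ℤ} {x y : K} (hx : OrdGE v n x) (hy : OrdGE v n y) : OrdGE v n (x + y) :=
  (v.valuation K).map_add_le hx hy

theorem OrdGE.neg {n : ℤ} {x : K} (hx : OrdGE v n x) : OrdGE v n (-x) := by
  rwa [OrdGE, Valuation.map_neg]

theorem OrdGE.sub {n : ℤ} {x y : K} (hx : OrdGE v n x) (hy : OrdGE v n y) : OrdGE v n (x - y) :=
  (v.valuation K).map_sub_le hx hy

theorem OrdGE.mul {n m : ℤ} {x y : K} (hx : OrdGE v n x) (hy : OrdGE v m y) :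
    OrdGE v (n + m) (x * y) := by
  rw [OrdGE, map_mul, neg_add, exp_add]
  exact mul_le_mul' hx hy

theorem OrdGE.sum {n : ℤ} {ι : Type*} {s : Finset ι} {f : ι → K}
    (h : ∀ i ∈ s, OrdGE v n (f i)) : OrdGE v n (∑ i ∈ s, f i) :=
  (v.valuation K).map_sum_le h

theorem ordGE_algebraMap (a : 𝓞 K) : OrdGE v 0 (algebraMap (𝓞 K) K a) := by
  rw [OrdGE, neg_zero, exp_zero]
  exact v.valuation_le_one a

theorem ordGE_natCast (n : ℕ) : OrdGE v 0 (n : K) := by
  simpa using ordGE_algebraMap (v := v) (n : 𝓞 K)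

theorem ordGE_one : OrdGE v 0 (1 : K) := by simpa using ordGE_natCast (v := v) 1

theorem OrdGE.pow {n : ℤ} {x : K} (hx : OrdGE v n x) (i : ℕ) : OrdGE v (i * n) (x ^ i) := by
  induction i with
  | zero => simpa using ordGE_one
  | succ i ih =>
    have h := ih.mul hx
    rw [pow_succ]
    exact h.mono (by push_cast; ring_nf; rfl)

theorem ordGE_algebraMap_iff (a : 𝓞 K) (n : ℕ) :
    OrdGE v (n : ℤ) (algebraMap (𝓞 K) K a) ↔ a ∈ v.asIdeal ^ n := by
  rw [OrdGE, v.valuation_of_algebraMap, v.intValuation_le_pow_iff_mem]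

variable (v)

/-- The normalised order. -/
def ord (x : Kˣ) : ℤ := -(v.valuationOfNeZero x).toAdd

theorem valuation_eq_exp (x : Kˣ) : v.valuation K (x : K) = exp (-ord v x) := by
  rw [← v.valuationOfNeZero_eq, ord, neg_neg]
  rfl

theorem ord_mul (x y : Kˣ) : ord v (x * y) = ord v x + ord v y := by
  simp only [ord, map_mul, toAdd_mul]; ring

theorem ord_one : ord v (1 : Kˣ) = 0 := by simp [ord]

theorem ord_inv (x : Kˣ) : ord v x⁻¹ = -ord v x := by simp [ord]

theorem ord_div (x y : Kˣ) : ord v (x / y) = ord v x - ord v y := by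
  rw [div_eq_mul_inv, ord_mul, ord_inv, sub_eq_add_neg]

theorem ord_pow (x : Kˣ) (n : ℕ) : ord v (x ^ n) = n * ord v x := by
  simp [ord]

theorem ord_zpow (x : Kˣ) (n : ℤ) : ord v (x ^ n) = n * ord v x := by
  simp [ord]

theorem ord_prod {ι : Type*} (s : Finset ι) (f : ι → Kˣ) :
    ord v (∏ i ∈ s, f i) = ∑ i ∈ s, ord v (f i) := by
  classical
  induction s using Finset.induction with
  | empty => simp [ord_one]
  | insert a s ha ih => rw [Finset.prod_insert ha, Finset.sum_insert ha, ord_mul, ih]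

theorem ordGE_iff (x : Kˣ) (n : ℤ) : OrdGE v n (x : K) ↔ n ≤ ord v x := by
  rw [OrdGE, valuation_eq_exp, exp_le_exp, neg_le_neg_iff]

theorem ordGE_ord (x : Kˣ) : OrdGE v (ord v x) (x : K) := (ordGE_iff v x _).2 le_rfl

theorem exists_ord_eq (n : ℤ) : ∃ x : Kˣ, ord v x = n := by
  obtain ⟨π, hπ⟩ := v.valuation_exists_uniformizer K
  have h0 : π ≠ 0 := fun h => exp_ne_zero (a := (-1 : ℤ)) (by rw [← hπ, h, map_zero])
  have h1 : ord v (Units.mk0 π h0) = 1 := by
    have := valuation_eq_exp v (Units.mk0 π h0)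
    rw [Units.val_mk0, hπ, exp_inj] at this
    linarith
  exact ⟨Units.mk0 π h0 ^ n, by rw [ord_zpow, h1, mul_one]⟩

theorem ord_add_eq {x y : K} (z : Kˣ) (hz : (z : K) = x + y) (a : Kˣ) (ha : (a : K) = x)
    (hy : OrdGE v (ord v a + 1) y) : ord v z = ord v a := by
  have h1 : v.valuation K y < v.valuation K x := by
    rw [← ha, valuation_eq_exp]
    exact lt_of_le_of_lt hy (exp_lt_exp.2 (by omega))
  have h2 := (v.valuation K).map_add_eq_of_lt_left h1
  rw [← hz, ← ha, valuation_eq_exp, valuation_eq_exp, exp_inj, neg_inj] at h2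
  exact h2

/-! ### Congruence subgroups -/

/-- Units at `v` congruent to `1` to order `n`. -/
def congr (n : ℕ) : Subgroup Kˣ where
  carrier := {x | ord v x = 0 ∧ OrdGE v (n : ℤ) ((x : K) - 1)}
  one_mem' := ⟨ord_one v, by simp [ordGE_zero]⟩
  mul_mem' := fun {x y} hx hy => by
    refine ⟨by rw [ord_mul, hx.1, hy.1, add_zero], ?_⟩
    rw [Units.val_mul, show (x : K) * y - 1 = (x : K) * ((y : K) - 1) + ((x : K) - 1) by ring]
    refine OrdGE.add ?_ hx.2
    simpa [hx.1] using (ordGE_ord v x).mul hy.2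
  inv_mem' := fun {x} hx => by
    have h0 : ord v x⁻¹ = 0 := by rw [ord_inv, hx.1, neg_zero]
    refine ⟨h0, ?_⟩
    have h : ((x⁻¹ : Kˣ) : K) - 1 = -(((x⁻¹ : Kˣ) : K) * ((x : K) - 1)) := by
      rw [mul_sub, ← Units.val_mul, inv_mul_cancel, Units.val_one]; ring
    rw [h]
    refine OrdGE.neg ?_
    simpa [h0] using (ordGE_ord v x⁻¹).mul hx.2

theorem congr_anti {m n : ℕ} (h : m ≤ n) : congr v n ≤ congr v m :=
  fun _ hx => ⟨hx.1, hx.2.mono (by exact_mod_cast h)⟩

theorem mem_congr_zero {x : Kˣ} : x ∈ congr v 0 ↔ ord v x = 0 :=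
  ⟨fun h => h.1, fun h => ⟨h, ((ordGE_iff v x 0).2 (le_of_eq h.symm)).sub ordGE_one⟩⟩

/-- A positive congruence already forces a unit. -/
theorem mem_congr_of_pos {n : ℕ} (hn : 0 < n) {x : Kˣ} (h : OrdGE v (n : ℤ) ((x : K) - 1)) :
    x ∈ congr v n := by
  refine ⟨?_, h⟩
  have := ord_add_eq v x (x := (1 : K)) (y := (x : K) - 1) (by ring) 1 Units.val_one
    (by rw [ord_one]; exact h.mono (by omega))
  rwa [ord_one] at this

theorem exists_unit_of_ordGE {n : ℕ} (hn : 0 < n) {z : K} (hz : OrdGE v (n : ℤ) z) :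
    ∃ x : Kˣ, x ∈ congr v n ∧ (x : K) = 1 + z := by
  have h0 : (1 : K) + z ≠ 0 := fun h => by
    have h1 : z = -1 := by linear_combination h
    rw [h1, OrdGE, Valuation.map_neg, map_one, ← exp_zero, exp_le_exp] at hz
    omega
  exact ⟨Units.mk0 _ h0, mem_congr_of_pos v hn (by simpa using hz), rfl⟩

theorem div_mem_congr {n : ℕ} (hn : 0 < n) {x y : Kˣ}
    (h : OrdGE v (ord v y + n) ((x : K) - y)) : x / y ∈ congr v n := by
  refine mem_congr_of_pos v hn ?_
  rw [Units.val_div_eq_div_val, div_sub_one y.ne_zero, div_eq_mul_inv]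
  have := h.mul ((ordGE_iff v y⁻¹ (-ord v y)).2 (by rw [ord_inv]))
  rw [Units.val_inv_eq_inv_val] at this
  exact this.mono (by ring_nf; rfl)

/-! ### The residue rings -/

theorem exists_residue (n : ℕ) {x : Kˣ} (hx : ord v x = 0) :
    ∃ a : 𝓞 K, OrdGE v (n : ℤ) ((x : K) - algebraMap (𝓞 K) K a) := by
  obtain ⟨a, ha⟩ := v.exists_valuation_sub_lt_of_integer (K := K) (x := (x : K))
    (by rw [valuation_eq_exp, hx, neg_zero, exp_zero]) (Units.mk0 (exp (-(n : ℤ))) exp_ne_zero)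
  exact ⟨a, by rw [OrdGE, Valuation.map_sub_swap]; exact ha.le⟩

/-- The class of a unit at `v` modulo `v ^ n`. -/
def red (n : ℕ) : congr v 0 →* (𝓞 K ⧸ v.asIdeal ^ n) where
  toFun x := Ideal.Quotient.mk _ (exists_residue v n x.2.1).choose
  map_one' := by
    rw [← map_one (Ideal.Quotient.mk (v.asIdeal ^ n)), Ideal.Quotient.eq, ← ordGE_algebraMap_iff]
    have h := (exists_residue v n (1 : congr v 0).2.1).choose_spec
    simpa using h.neg
  map_mul' x y := by
    rw [← map_mul, Ideal.Quotient.eq, ← ordGE_algebraMap_iff]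
    set a := (exists_residue v n x.2.1).choose
    set b := (exists_residue v n y.2.1).choose
    set c := (exists_residue v n (x * y).2.1).choose
    have ha : OrdGE v (n : ℤ) ((x : Kˣ) - algebraMap (𝓞 K) K a) :=
      (exists_residue v n x.2.1).choose_spec
    have hb : OrdGE v (n : ℤ) ((y : Kˣ) - algebraMap (𝓞 K) K b) :=
      (exists_residue v n y.2.1).choose_spec
    have hc : OrdGE v (n : ℤ) (((x : Kˣ) : K) * (y : Kˣ) - algebraMap (𝓞 K) K c) :=
      (exists_residue v n (x * y).2.1).choose_spec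
    rw [map_sub, map_mul]
    have h1 := (ordGE_algebraMap (v := v) a).mul hb
    have h2 := ha.mul ((ordGE_iff v (y : Kˣ) 0).2 y.2.1.ge)
    simp only [add_zero, zero_add] at h1 h2
    have := (h1.add h2).sub hc
    rw [show algebraMap (𝓞 K) K c - algebraMap (𝓞 K) K a * algebraMap (𝓞 K) K b =
      algebraMap (𝓞 K) K a * (((y : Kˣ) : K) - algebraMap (𝓞 K) K b) +
        (((x : Kˣ) : K) - algebraMap (𝓞 K) K a) * (y : Kˣ) -
        (((x : Kˣ) : K) * (y : Kˣ) - algebraMap (𝓞 K) K c) by ring]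
    exact this

theorem red_eq_one_iff {n : ℕ} (x : congr v 0) : red v n x = 1 ↔ (x : Kˣ) ∈ congr v n := by
  set a := (exists_residue v n x.2.1).choose
  have ha : OrdGE v (n : ℤ) (((x : Kˣ) : K) - algebraMap (𝓞 K) K a) :=
    (exists_residue v n x.2.1).choose_spec
  show Ideal.Quotient.mk _ a = 1 ↔ _
  rw [← map_one (Ideal.Quotient.mk (v.asIdeal ^ n)), Ideal.Quotient.eq, ← ordGE_algebraMap_iff,
    map_sub, map_one]
  refine ⟨fun h => ⟨x.2.1, ?_⟩, fun h => ?_⟩
  · simpa using ha.add h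
  · simpa using h.2.sub ha

theorem red_eq {n : ℕ} (x : congr v 0) (a : 𝓞 K)
    (h : OrdGE v (n : ℤ) (((x : Kˣ) : K) - algebraMap (𝓞 K) K a)) :
    red v n x = Ideal.Quotient.mk _ a := by
  show Ideal.Quotient.mk _ (exists_residue v n x.2.1).choose = _
  rw [Ideal.Quotient.eq, ← ordGE_algebraMap_iff, map_sub]
  simpa using h.sub (exists_residue v n x.2.1).choose_spec

theorem finite_quot (n : ℕ) : Finite (𝓞 K ⧸ v.asIdeal ^ n) :=
  Ring.HasFiniteQuotients.finiteQuotient (pow_ne_zero n v.ne_bot)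

theorem congr_relIndex_ne_zero (n : ℕ) : (congr v n).relIndex (congr v 0) ≠ 0 := by
  have := finite_quot v n
  have hker : (congr v n).subgroupOf (congr v 0) = (red v n).toHomUnits.ker := by
    ext x
    rw [Subgroup.mem_subgroupOf, MonoidHom.mem_ker, Units.ext_iff, MonoidHom.coe_toHomUnits,
      Units.val_one, red_eq_one_iff]
  rw [Subgroup.relIndex, hker, Subgroup.index_ker]
  exact Nat.card_pos.ne'

/-! ### Simultaneous approximation -/

/-- Approximation at finitely many primes, up to congruence of any order. -/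
theorem exists_approx [DecidableEq (HeightOneSpectrum (𝓞 K))]
    (S : Finset (HeightOneSpectrum (𝓞 K))) (b : HeightOneSpectrum (𝓞 K) → Kˣ) (n : ℕ) :
    ∃ z : Kˣ, ∀ v ∈ S, z / b v ∈ congr v n := by
  by_cases hS : S = ∅
  · exact ⟨1, fun v hv => absurd hv (by simp [hS])⟩
  choose a c hc hac using fun v : HeightOneSpectrum (𝓞 K) =>
    IsFractionRing.div_surjective (A := 𝓞 K) (b v : K)
  have hc0 : ∀ v, algebraMap (𝓞 K) K (c v) ≠ 0 := fun v =>
    (map_ne_zero_iff _ RingOfIntegers.coe_injective).2 (nonZeroDivisors.ne_zero (hc v))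
  have ha0 : ∀ v, algebraMap (𝓞 K) K (a v) ≠ 0 := fun v h => by
    have := hac v
    rw [h, zero_div] at this
    exact (b v).ne_zero this.symm
  let au := fun v => Units.mk0 _ (ha0 v)
  let cu := fun v => Units.mk0 _ (hc0 v)
  have hb : ∀ v, b v = au v / cu v := fun v => Units.ext (by
    rw [Units.val_div_eq_div_val]; exact (hac v).symm)
  have hprime : ∀ v ∈ S, Prime v.asIdeal := fun v _ => v.prime
  have hne : ∀ᵉ (i ∈ S) (j ∈ S), i ≠ j → i.asIdeal ≠ j.asIdeal := fun i _ j _ h he =>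
    h (HeightOneSpectrum.ext he)
  obtain ⟨y, hy⟩ := exists_forall_sub_mem_ideal (fun v : HeightOneSpectrum (𝓞 K) => v.asIdeal)
    (fun v => (ord v (au v)).toNat + n + 1) hprime hne (fun v => a v.1)
  obtain ⟨y', hy'⟩ := exists_forall_sub_mem_ideal (fun v : HeightOneSpectrum (𝓞 K) => v.asIdeal)
    (fun v => (ord v (cu v)).toNat + n + 1) hprime hne (fun v => c v.1)
  have key : ∀ v ∈ S, ∀ (u : Kˣ) (t t' : 𝓞 K), (u : K) = algebraMap (𝓞 K) K t' →
      t - t' ∈ v.asIdeal ^ ((ord v u).toNat + n + 1) →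
      ∃ h : algebraMap (𝓞 K) K t ≠ 0, Units.mk0 _ h / u ∈ congr v n := by
    intro v _ u t t' hu ht
    rw [← ordGE_algebraMap_iff, map_sub, ← hu] at ht
    have h0 : algebraMap (𝓞 K) K t ≠ 0 := fun h => by
      rw [h, zero_sub] at ht
      have h' := ht.neg
      rw [neg_neg, ordGE_iff] at h'
      omega
    exact ⟨h0, congr_anti v (Nat.le_succ n) (div_mem_congr v n.succ_pos
      (ht.mono (by push_cast; omega)))⟩
  obtain ⟨v₀, hv₀⟩ := Finset.nonempty_iff_ne_empty.2 hS
  obtain ⟨h1, -⟩ := key v₀ hv₀ (au v₀) y (a v₀) rfl (hy v₀ hv₀)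
  obtain ⟨h2, -⟩ := key v₀ hv₀ (cu v₀) y' (c v₀) rfl (hy' v₀ hv₀)
  refine ⟨Units.mk0 _ h1 / Units.mk0 _ h2, fun v hv => ?_⟩
  obtain ⟨_, k1⟩ := key v hv (au v) y (a v) rfl (hy v hv)
  obtain ⟨_, k2⟩ := key v hv (cu v) y' (c v) rfl (hy' v hv)
  rw [hb, div_div_div_comm]
  exact div_mem k1 k2

end Fermat.Agent.CFT
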