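import Mathlib.FieldTheory.KummerExtension
import Mathlib.RingTheory.Ideal.Norm.AbsNorm
import Mathlib.RingTheory.RootsOfUnity.Lemmas
import Fermat.Agent.CFT.Places

/-!
# Local `p`-th powers at a finite prime

An element is a local `p`-th power if it is congruent to a `p`-th power to every order. For a
field containing `μ_p`, the index of this subgroup is at most `p ^ 2 * N v ^ e`, `e = ord_v p`.
-/

noncomputable section

namespace Fermat.Agent.CFT

open NumberField IsDedekindDomain WithZero Polynomial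

variable {K : Type} [Field K] [NumberField K] (v : HeightOneSpectrum (𝓞 K)) (p : ℕ)

/-- `p`-th powers times the congruence subgroup of order `n`. -/
def levelPow (n : ℕ) : Subgroup Kˣ := (powMonoidHom p : Kˣ →* Kˣ).range ⊔ congr v n

/-- The local `p`-th powers at `v`. -/
def locPow : Subgroup Kˣ := ⨅ n, levelPow v p n

theorem mem_levelPow {n : ℕ} {x : Kˣ} :
    x ∈ levelPow v p n ↔ ∃ y : Kˣ, x / y ^ p ∈ congr v n := by
  rw [levelPow, Subgroup.mem_sup]
  constructor
  · rintro ⟨_, ⟨y, rfl⟩, c, hc, rfl⟩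
    exact ⟨y, by rwa [powMonoidHom_apply, mul_div_cancel_left]⟩
  · rintro ⟨y, hy⟩
    exact ⟨y ^ p, ⟨y, rfl⟩, _, hy, mul_div_cancel _ _⟩

theorem mem_locPow {x : Kˣ} :
    x ∈ locPow v p ↔ ∀ n : ℕ, ∃ y : Kˣ, x / y ^ p ∈ congr v n := by
  simp [locPow, Subgroup.mem_iInf, mem_levelPow]

theorem pow_mem_locPow (y : Kˣ) : y ^ p ∈ locPow v p :=
  (mem_locPow v p).2 fun n => ⟨y, by rw [div_self']; exact one_mem _⟩

variable [hp : Fact p.Prime]

/-- `p` as a unit of `K`. -/
def pUnit (K : Type) [Field K] [NumberField K] : Kˣ :=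
  Units.mk0 (p : K) (Nat.cast_ne_zero.2 hp.out.ne_zero)

/-- The order of `p` at `v`. -/
def absRam : ℕ := (ord v (pUnit p K)).toNat

theorem absRam_eq : (absRam v p : ℤ) = ord v (pUnit p K) :=
  Int.toNat_of_nonneg ((ordGE_iff v _ 0).1 (ordGE_natCast p))

theorem ordGE_p : OrdGE v (absRam v p : ℤ) (p : K) := by
  rw [absRam_eq]; exact ordGE_ord v (pUnit p K)

theorem ordGE_p_inv : OrdGE v (-(absRam v p : ℤ)) (p : K)⁻¹ := by
  have h := ordGE_ord v (pUnit p K)⁻¹
  rwa [ord_inv, ← absRam_eq, Units.val_inv_eq_inv_val] at h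

theorem valuation_p : v.valuation K (p : K) = exp (-(absRam v p : ℤ)) := by
  rw [absRam_eq]; exact valuation_eq_exp v (pUnit p K)

theorem exists_congr_succ {m : ℕ} (hm : 2 * absRam v p + 1 ≤ m) {x : Kˣ} (hx : x ∈ congr v m) :
    ∃ y : Kˣ, x / y ^ p ∈ congr v (m + 1) := by
  set e := absRam v p with he
  set b : K := ((x : K) - 1) * (p : K)⁻¹ with hb
  have hb1 : OrdGE v (((m - e : ℕ) : ℤ)) b :=
    (hx.2.mul (ordGE_p_inv v p)).mono (by rw [← he]; omega)
  obtain ⟨y, hy, hyv⟩ := exists_unit_of_ordGE v (by omega) hb1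
  have hyp : ord v (y ^ p) = 0 := by rw [ord_pow, hy.1, mul_zero]
  refine ⟨y, div_mem_congr v (Nat.succ_pos m) ?_⟩
  rw [hyp, zero_add, Units.val_pow_eq_pow_val, hyv, add_comm (1 : K), add_pow,
    Finset.sum_range_succ']
  obtain ⟨q, hq⟩ : ∃ q, p = q + 1 := ⟨p - 1, by have := hp.out.one_lt; omega⟩
  have hsplit : ∑ i ∈ Finset.range p, b ^ (i + 1) * 1 ^ (p - (i + 1)) * (p.choose (i + 1) : K) =
      (∑ i ∈ Finset.range q, b ^ (i + 2) * (p.choose (i + 2) : K)) + (p : K) * b := by
    rw [hq, Finset.sum_range_succ']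
    simp [mul_comm]
  rw [hsplit]
  have hx1 : (p : K) * b = (x : K) - 1 := by
    rw [hb]; field_simp [show (p : K) ≠ 0 from (pUnit p K).ne_zero]
  rw [hx1, Nat.choose_zero_right]
  have : OrdGE v ((m + 1 : ℕ) : ℤ)
      (∑ i ∈ Finset.range q, b ^ (i + 2) * (p.choose (i + 2) : K)) := by
    refine OrdGE.sum fun i _ => ?_
    refine ((hb1.pow (i + 2)).mul (ordGE_natCast _)).mono ?_
    have hd : ((2 * (m - e) : ℕ) : ℤ) ≥ (m : ℤ) + 1 := by omega
    push_cast at hd ⊢
    nlinarith [mul_nonneg (Int.natCast_nonneg i) (Int.natCast_nonneg (m - e))]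
  convert this.neg using 1
  simp
  ring

/-- Deep congruences are local `p`-th powers. -/
theorem congr_le_locPow : congr v (2 * absRam v p + 1) ≤ locPow v p := by
  intro x hx
  rw [mem_locPow]
  intro n
  suffices ∀ j : ℕ, ∃ y : Kˣ, x / y ^ p ∈ congr v (2 * absRam v p + 1 + j) by
    obtain ⟨y, hy⟩ := this n
    exact ⟨y, congr_anti v (by omega) hy⟩
  intro j
  induction j with
  | zero => exact ⟨1, by simpa using hx⟩
  | succ j ih =>
    obtain ⟨y, hy⟩ := ih
    obtain ⟨y', hy'⟩ := exists_congr_succ v p (by omega) hy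
    exact ⟨y * y', by rw [mul_pow, ← div_div, ← add_assoc]; exact hy'⟩

theorem locPow_eq_levelPow {n : ℕ} (hn : 2 * absRam v p + 1 ≤ n) :
    locPow v p = levelPow v p n := by
  refine le_antisymm (iInf_le _ n) (sup_le ?_ ((congr_anti v hn).trans (congr_le_locPow v p)))
  rintro _ ⟨y, rfl⟩
  exact pow_mem_locPow v p y

/-! ### The index -/

theorem factor_red {m n : ℕ} (h : m ≤ n) (x : congr v 0) :
    Ideal.Quotient.factor (Ideal.pow_le_pow_right h) (red v n x) = red v m x := by
  obtain ⟨a, ha⟩ := exists_residue v n (x := (x : Kˣ)) x.2.1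
  rw [red_eq v x a ha, red_eq v x a (ha.mono (by exact_mod_cast h)), Ideal.Quotient.factor_mk]

/-- `1 + v ^ m` modulo `1 + v ^ (m + e)` has at most `N v ^ e` elements. -/
theorem congr_relIndex_le {m : ℕ} (e : ℕ) :
    (congr v (m + e)).relIndex (congr v m) ≤ Ideal.absNorm v.asIdeal ^ e := by
  have := finite_quot v (m + e)
  let f := (red v (m + e)).comp (Subgroup.inclusion (congr_anti v (Nat.zero_le m)))
  have hker : (congr v (m + e)).subgroupOf (congr v m) = f.toHomUnits.ker := by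
    ext x
    rw [Subgroup.mem_subgroupOf, MonoidHom.mem_ker, Units.ext_iff, MonoidHom.coe_toHomUnits,
      Units.val_one, MonoidHom.comp_apply, red_eq_one_iff, Subgroup.coe_inclusion]
  rw [Subgroup.relIndex, hker, Subgroup.index_ker]
  let π : (𝓞 K ⧸ v.asIdeal ^ (m + e)) →+* (𝓞 K ⧸ v.asIdeal ^ m) :=
    Ideal.Quotient.factor (Ideal.pow_le_pow_right (Nat.le_add_right m e))
  have hπ : Function.Surjective π := Ideal.Quotient.factor_surjective _
  have hcard : Nat.card (π.toAddMonoidHom.ker) = Ideal.absNorm v.asIdeal ^ e := by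
    have h1 := AddSubgroup.card_eq_card_quotient_mul_card_addSubgroup π.toAddMonoidHom.ker
    rw [Nat.card_congr (QuotientAddGroup.quotientKerEquivOfSurjective π.toAddMonoidHom hπ).toEquiv,
      ← Submodule.cardQuot_apply, ← Submodule.cardQuot_apply, ← Ideal.absNorm_apply,
      ← Ideal.absNorm_apply, map_pow, map_pow, pow_add] at h1
    have h0 : Ideal.absNorm v.asIdeal ≠ 0 := by
      rw [ne_eq, Ideal.absNorm_eq_zero_iff]; exact v.ne_bot
    exact (mul_left_cancel₀ (pow_ne_zero m h0) h1).symm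
  rw [← hcard]
  refine Nat.card_le_card_of_injective
    (fun u => (⟨(u : (𝓞 K ⧸ v.asIdeal ^ (m + e))ˣ) - 1, ?_⟩ : π.toAddMonoidHom.ker))
    fun a b h => ?_
  · obtain ⟨_, x, rfl⟩ := u
    have hx := (red_eq_one_iff v (n := m)
      (Subgroup.inclusion (congr_anti v (Nat.zero_le m)) x)).2 x.2
    have h1 := factor_red v (Nat.le_add_right m e)
      (Subgroup.inclusion (congr_anti v (Nat.zero_le m)) x)
    rw [hx] at h1
    rw [AddMonoidHom.mem_ker]
    show π ((f.toHomUnits x : (𝓞 K ⧸ v.asIdeal ^ (m + e))) - 1) = 0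
    rw [MonoidHom.coe_toHomUnits, map_sub, map_one, sub_eq_zero]
    exact h1
  · exact Subtype.ext (Units.ext (sub_left_injective (congrArg Subtype.val h)))

/-- A `p`-th root of something congruent to `1` is congruent to a root of unity. -/
theorem exists_root_congr {ζ : K} (hζ : IsPrimitiveRoot ζ p) {n : ℕ}
    (hn : p * absRam v p + absRam v p + 1 ≤ n) {x : Kˣ}
    (hx : x ^ p ∈ congr v n) :
    ∃ (i : Fin p) (u : Kˣ), (u : K) = ζ ^ (i : ℕ) ∧ x / u ∈ congr v (n - absRam v p) := by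
  have hp0 : 0 < p := hp.out.pos
  set e := absRam v p with he
  have hfac : ∀ y : K, y ^ p - 1 = ∏ i ∈ Finset.range p, (y - ζ ^ i) := fun y => by
    have h := congrArg (eval y) (X_pow_sub_C_eq_prod hζ hp0 (one_pow (M := K) p))
    simpa [eval_prod] using h
  -- some factor is small
  obtain ⟨i, hi, hsmall⟩ : ∃ i ∈ Finset.range p, OrdGE v ((e : ℤ) + 1) ((x : K) - ζ ^ i) := by
    by_contra h
    push Not at h
    have hge : ∀ i ∈ Finset.range p, exp (-(e : ℤ)) ≤ v.valuation K ((x : K) - ζ ^ i) :=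
        fun i hi => by
      have h1 := h i hi
      rw [OrdGE, not_le] at h1
      rw [← exp_log (fun h0 : v.valuation K ((x : K) - ζ ^ i) = 0 => not_lt_zero (h0 ▸ h1)),
        exp_le_exp]
      rw [← exp_log (fun h0 : v.valuation K ((x : K) - ζ ^ i) = 0 => not_lt_zero (h0 ▸ h1)),
        exp_lt_exp] at h1
      omega
    have h2 := Finset.prod_le_prod' hge
    rw [← map_prod, ← hfac, Finset.prod_const, Finset.card_range, ← exp_nsmul] at h2
    have h3 : v.valuation K ((x : K) ^ p - 1) ≤ exp (-(n : ℤ)) := by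
      have := hx.2; rwa [Units.val_pow_eq_pow_val] at this
    have h4 := exp_le_exp.1 (h2.trans h3)
    rw [nsmul_eq_mul] at h4
    nlinarith [(by exact_mod_cast hn : (p : ℤ) * e + e + 1 ≤ n)]
  have hζ0 : ζ ^ i ≠ 0 := pow_ne_zero _ (hζ.ne_zero hp.out.ne_zero)
  have hroot : (ζ ^ i) ^ p = 1 := by rw [← pow_mul, mul_comm, pow_mul, hζ.pow_eq_one, one_pow]
  have hu : ord v (Units.mk0 (ζ ^ i) hζ0) = 0 := by
    have h := ord_pow v (Units.mk0 (ζ ^ i) hζ0) p
    rw [show Units.mk0 (ζ ^ i) hζ0 ^ p = 1 from Units.ext (by simpa using hroot), ord_one] at h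
    rcases mul_eq_zero.1 h.symm with h' | h'
    · exact absurd (by exact_mod_cast h') hp.out.ne_zero
    · exact h'
  refine ⟨⟨i, Finset.mem_range.1 hi⟩, Units.mk0 _ hζ0, rfl, ?_⟩
  set y : Kˣ := x / Units.mk0 _ hζ0 with hy
  have hy1 : OrdGE v ((e : ℤ) + 1) ((y : K) - 1) := by
    rw [hy, Units.val_div_eq_div_val, div_sub_one (Units.ne_zero _), div_eq_mul_inv, Units.val_mk0]
    have := hsmall.mul (ordGE_ord v (Units.mk0 _ hζ0)⁻¹)
    rwa [ord_inv, hu, neg_zero, add_zero, Units.val_inv_eq_inv_val, Units.val_mk0] at this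
  have hyp : (y : K) ^ p = (x : K) ^ p := by
    rw [hy, Units.val_div_eq_div_val, div_pow, Units.val_mk0, hroot, div_one]
  -- the other factors have total order `e`
  obtain ⟨q, hq⟩ : ∃ q, p = q + 1 := ⟨p - 1, by omega⟩
  have hone : ∏ k ∈ Finset.range q, (1 - ζ ^ (k + 1)) = (p : K) := by
    rw [hq, IsPrimitiveRoot.prod_one_sub_pow_eq_order (hq ▸ hζ)]; push_cast; ring
  have hle : ∀ k : ℕ, v.valuation K (1 - ζ ^ k) ≤ 1 := fun k => by
    have hz : ∀ k : ℕ, v.valuation K (ζ ^ k) = 1 := fun k => by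
      have h : (v.valuation K (ζ ^ k)) ^ p = 1 := by
        rw [← map_pow, ← pow_mul, mul_comm, pow_mul, hζ.pow_eq_one, one_pow, map_one]
      exact (pow_eq_one_iff_left hp.out.ne_zero).1 h
    exact ((v.valuation K).map_sub_le (by rw [map_one]) (hz k).le)
  have hk : ∀ k ∈ Finset.range q,
      v.valuation K ((y : K) - ζ ^ (k + 1)) = v.valuation K (1 - ζ ^ (k + 1)) := fun k hk' => by
    rw [show (y : K) - ζ ^ (k + 1) = ((y : K) - 1) + (1 - ζ ^ (k + 1)) by ring]
    refine Valuation.map_add_eq_of_lt_right _ (lt_of_le_of_lt hy1 ?_)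
    refine lt_of_lt_of_le (exp_lt_exp.2 (by omega : -((e : ℤ) + 1) < -(e : ℤ))) ?_
    rw [he, ← valuation_p, ← hone, ← Finset.mul_prod_erase _ _ hk', map_mul, map_prod]
    exact mul_le_of_le_one_right' (Finset.prod_le_one' fun j _ => hle _)
  refine mem_congr_of_pos v (by omega) ?_
  have h := hx.2
  rw [Units.val_pow_eq_pow_val, ← hyp, hfac, hq, Finset.prod_range_succ', pow_zero, OrdGE, map_mul,
    map_prod, Finset.prod_congr rfl hk, ← map_prod, hone, valuation_p, ← he] at h
  rw [OrdGE]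
  have h5 : v.valuation K ((y : K) - 1) =
      exp (e : ℤ) * (exp (-(e : ℤ)) * v.valuation K ((y : K) - 1)) := by
    rw [← mul_assoc, ← exp_add, add_neg_cancel, exp_zero, one_mul]
  rw [h5]
  refine (mul_le_mul' le_rfl h).trans ?_
  rw [← exp_add, exp_le_exp]
  omega

/-- The index of the local `p`-th powers. -/
theorem locPow_index_le {ζ : K} (hζ : IsPrimitiveRoot ζ p) :
    (locPow v p).index ≠ 0 ∧
      (locPow v p).index ≤ p ^ 2 * Ideal.absNorm v.asIdeal ^ absRam v p := by
  classical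
  set e := absRam v p with he
  set n := p * e + 2 * e + 1 with hn
  rw [locPow_eq_levelPow v p (n := n) (by rw [← he]; omega)]
  set G := congr v 0
  set C := congr v n
  have hCG : C ≤ G := congr_anti v (Nat.zero_le n)
  set P := (powMonoidHom p : Kˣ →* Kˣ).range
  -- the valuation part
  let o : Kˣ →* Multiplicative (ZMod p) :=
    MonoidHom.mk' (fun x => Multiplicative.ofAdd (ord v x : ZMod p))
    fun x y => by rw [ord_mul]; push_cast; rfl
  have ho : o.ker = P ⊔ G := by
    refine le_antisymm (fun x hx => ?_) (sup_le ?_ fun x hx => ?_)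
    · have h0 : ((ord v x : ℤ) : ZMod p) = 0 := congrArg Multiplicative.toAdd hx
      obtain ⟨m, hm⟩ := (ZMod.intCast_zmod_eq_zero_iff_dvd _ _).1 h0
      obtain ⟨y, hy⟩ := exists_ord_eq v m
      exact Subgroup.mem_sup.2 ⟨y ^ p, ⟨y, rfl⟩, x / y ^ p,
        (mem_congr_zero v).2 (by rw [ord_div, ord_pow, hy, hm, sub_self]), mul_div_cancel _ _⟩
    · rintro _ ⟨y, rfl⟩
      rw [MonoidHom.mem_ker]
      show Multiplicative.ofAdd ((ord v (y ^ p) : ℤ) : ZMod p) = 1
      rw [ord_pow]; simp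
    · rw [MonoidHom.mem_ker]
      show Multiplicative.ofAdd ((ord v x : ℤ) : ZMod p) = 1
      rw [hx.1]; simp
  have h1 : (P ⊔ G).index ∣ p := by
    rw [← ho, Subgroup.index_ker]
    simpa using Subgroup.card_subgroup_dvd_card o.range
  -- the unit part
  have hfin : (C.subgroupOf G).index ≠ 0 := congr_relIndex_ne_zero v n
  have : Finite (G ⧸ C.subgroupOf G) := Nat.finite_of_card_ne_zero hfin
  set f := powMonoidHom (α := G ⧸ C.subgroupOf G) p
  have hidx : f.range.index = Nat.card f.ker := by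
    have e1 := Subgroup.card_mul_index f.range
    have e2 := Subgroup.card_mul_index f.ker
    rw [Subgroup.index_ker] at e2
    rw [← e2, mul_comm (Nat.card f.ker)] at e1
    exact Nat.eq_of_mul_eq_mul_left (Nat.card_pos) e1
  have hker : Nat.card f.ker ≤ p * Ideal.absNorm v.asIdeal ^ e := by
    set m := n - e with hm
    have hm0 : 0 < m := by omega
    have hme : m + e = n := by omega
    set D := (congr v m).subgroupOf G
    have hD := congr_relIndex_le v (m := m) e
    rw [hme] at hD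
    let img : Set (G ⧸ C.subgroupOf G) := (QuotientGroup.mk' _) '' (D : Set G)
    have himg : Nat.card img ≤ Ideal.absNorm v.asIdeal ^ e := by
      refine le_trans (le_of_eq ?_) hD
      rw [show Nat.card img = Nat.card (D.map (QuotientGroup.mk' (C.subgroupOf G))) from rfl,
        ← Subgroup.relIndex_bot_left, ← Subgroup.relIndex_comap, MonoidHom.comap_bot,
        QuotientGroup.ker_mk']
      exact Subgroup.relIndex_subgroupOf (congr_anti v (Nat.zero_le m))
    have hrange : ∀ z : f.ker, ∃ (i : Fin p) (w : img) (u : G),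
        ((u : Kˣ) : K) = ζ ^ (i : ℕ) ∧ (z : G ⧸ C.subgroupOf G) =
          (QuotientGroup.mk u : G ⧸ C.subgroupOf G) * (w : G ⧸ C.subgroupOf G) := by
      rintro ⟨z, hz⟩
      obtain ⟨x, rfl⟩ := QuotientGroup.mk_surjective z
      rw [MonoidHom.mem_ker, powMonoidHom_apply, ← QuotientGroup.mk_pow, QuotientGroup.eq_one_iff,
        Subgroup.mem_subgroupOf, Subgroup.coe_pow] at hz
      obtain ⟨i, u, hu, hxu⟩ := exists_root_congr v p hζ (by rw [← he]; omega) hz
      have hu0 : u ∈ G := by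
        have h : u = (x : Kˣ) / ((x : Kˣ) / u) := (div_div_cancel _ _).symm
        rw [h]
        exact div_mem x.2 (congr_anti v (Nat.zero_le _) hxu)
      refine ⟨i, ⟨QuotientGroup.mk (x / ⟨u, hu0⟩), _, ?_, rfl⟩, ⟨u, hu0⟩, hu, ?_⟩
      · exact hxu
      · exact (congrArg QuotientGroup.mk (mul_div_cancel (⟨u, hu0⟩ : G) x)).symm
    choose fi fw fu hfu hfz using hrange
    calc Nat.card f.ker ≤ Nat.card (Fin p × img) := by
          refine Nat.card_le_card_of_injective (fun z => (fi z, fw z)) fun z z' h => ?_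
          obtain ⟨h1, h2⟩ := Prod.mk.injEq .. ▸ h
          have : fu z = fu z' := Subtype.ext (Units.ext (by rw [hfu, hfu, h1]))
          exact Subtype.ext (by rw [hfz, hfz, this, h2])
      _ ≤ p * Ideal.absNorm v.asIdeal ^ e := by
          rw [Nat.card_prod, Nat.card_fin]
          exact Nat.mul_le_mul_left p himg
  have h2 : (levelPow v p n).relIndex (P ⊔ G) ∣ f.range.index := by
    have hsup : P ⊔ G = levelPow v p n ⊔ G := by
      rw [levelPow, sup_assoc, sup_eq_right.2 hCG]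
    rw [hsup, Subgroup.relIndex_sup_left, Subgroup.relIndex,
      ← Subgroup.index_comap_of_surjective f.range (QuotientGroup.mk'_surjective (C.subgroupOf G))]
    refine Subgroup.index_dvd_of_le fun x hx => ?_
    rw [Subgroup.mem_comap] at hx
    obtain ⟨y, hy⟩ := hx
    obtain ⟨y, rfl⟩ := QuotientGroup.mk_surjective y
    rw [powMonoidHom_apply, ← QuotientGroup.mk_pow, QuotientGroup.mk'_apply, QuotientGroup.eq,
      Subgroup.mem_subgroupOf] at hy
    rw [Subgroup.mem_subgroupOf, mem_levelPow]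
    refine ⟨y, ?_⟩
    simpa [div_eq_inv_mul] using hy
  have hle : levelPow v p n ≤ P ⊔ G := sup_le_sup_left hCG _
  rw [← Subgroup.relIndex_mul_index hle]
  have hf0 : f.range.index ≠ 0 := Subgroup.FiniteIndex.index_ne_zero
  refine ⟨mul_ne_zero (ne_zero_of_dvd_ne_zero hf0 h2)
    (ne_zero_of_dvd_ne_zero hp.out.ne_zero h1), ?_⟩
  have a1 := Nat.le_of_dvd hp.out.pos h1
  have a2 := (Nat.le_of_dvd (Nat.pos_of_ne_zero hf0) h2).trans (hidx ▸ hker)
  calc _ ≤ (p * Ideal.absNorm v.asIdeal ^ e) * p := Nat.mul_le_mul a2 a1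
    _ = _ := by ring

end Fermat.Agent.CFT
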