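import Mathlib.NumberTheory.NumberField.Norm
import Mathlib.NumberTheory.RamificationInertia.Galois
import Mathlib.NumberTheory.RamificationInertia.Valuation
import Mathlib.RingTheory.Ideal.GoingUp
import Mathlib.RingTheory.Norm.Basic
import Fermat.Agent.CFT.LocalPow

/-!
# Primes in a Galois extension of prime degree; local norms

`locNorm L v` consists of the elements congruent to a norm from `L` to every order at `v`.
-/

noncomputable section

namespace Fermat.Agent.CFT

open NumberField IsDedekindDomain WithZero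
open scoped Pointwise

variable {K L : Type} [Field K] [Field L] [Algebra K L]

variable (K L) in
/-- The inclusion on units. -/
def baseU : Kˣ →* Lˣ := Units.map (algebraMap K L : K →* L)

theorem coe_baseU (x : Kˣ) : (baseU K L x : L) = algebraMap K L x := rfl

variable (K L) in
/-- The norm on units. -/
def normU : Lˣ →* Kˣ := Units.map (Algebra.norm K : L →* K)

theorem coe_normU (y : Lˣ) : (normU K L y : K) = Algebra.norm K (y : L) := rfl

theorem baseU_injective : Function.Injective (baseU K L) :=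
  Units.map_injective (algebraMap K L).injective

/-- The conjugate of a unit. -/
def conjU (g : L ≃ₐ[K] L) : Lˣ →* Lˣ := Units.map ((g : L →ₐ[K] L) : L →* L)

theorem coe_conjU (g : L ≃ₐ[K] L) (y : Lˣ) : (conjU g y : L) = g y := rfl

theorem conjU_mul (g h : L ≃ₐ[K] L) (y : Lˣ) : conjU (g * h) y = conjU g (conjU h y) :=
  Units.ext rfl

theorem conjU_one (y : Lˣ) : conjU (1 : L ≃ₐ[K] L) y = y := Units.ext rfl

theorem conjU_baseU (g : L ≃ₐ[K] L) (x : Kˣ) : conjU g (baseU K L x) = baseU K L x :=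
  Units.ext (g.commutes _)

theorem normU_conjU (g : L ≃ₐ[K] L) (y : Lˣ) : normU K L (conjU g y) = normU K L y :=
  Units.ext (Algebra.norm_eq_of_algEquiv g (y : L))

variable [NumberField K] [NumberField L]

theorem baseU_normU [IsGalois K L] (y : Lˣ) :
    baseU K L (normU K L y) = ∏ g : L ≃ₐ[K] L, conjU g y := by
  refine Units.ext ?_
  rw [coe_baseU, coe_normU, Algebra.norm_eq_prod_automorphisms, Units.coe_prod]
  rfl

theorem normU_baseU (x : Kˣ) : normU K L (baseU K L x) = x ^ Module.finrank K L := by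
  refine Units.ext ?_
  rw [coe_normU, coe_baseU, Algebra.norm_algebraMap, Units.val_pow_eq_pow_val]

theorem mem_range_baseU [IsGalois K L] {y : Lˣ} (h : ∀ g : L ≃ₐ[K] L, conjU g y = y) :
    y ∈ (baseU K L).range := by
  obtain ⟨x, hx⟩ := (IsGalois.mem_range_algebraMap_iff_fixed (F := K) (y : L)).2
    fun g => congrArg Units.val (h g)
  have hx0 : x ≠ 0 := fun h0 => y.ne_zero (by rw [← hx, h0, map_zero])
  exact ⟨Units.mk0 x hx0, Units.ext hx⟩

/-! ### Primes above, conjugate primes -/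

/-- The prime below. -/
def below (K : Type) [Field K] [NumberField K] [Algebra K L] (w : HeightOneSpectrum (𝓞 L)) :
    HeightOneSpectrum (𝓞 K) where
  asIdeal := w.asIdeal.under (𝓞 K)
  isPrime := inferInstance
  ne_bot := Ideal.under_ne_bot (𝓞 K) w.ne_bot

instance liesOver_below (w : HeightOneSpectrum (𝓞 L)) :
    w.asIdeal.LiesOver (below K w).asIdeal := ⟨rfl⟩

omit [NumberField L] in
theorem below_eq_iff {w : HeightOneSpectrum (𝓞 L)} {v : HeightOneSpectrum (𝓞 K)} :
    below K w = v ↔ w.asIdeal.LiesOver v.asIdeal :=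
  ⟨fun h => ⟨(congrArg HeightOneSpectrum.asIdeal h).symm⟩,
    fun h => HeightOneSpectrum.ext h.over.symm⟩

omit [NumberField L] in
theorem exists_below_eq (v : HeightOneSpectrum (𝓞 K)) :
    ∃ w : HeightOneSpectrum (𝓞 L), below K w = v := by
  have := v.isMaximal
  obtain ⟨Q, hQ, hQv⟩ :=
    Ideal.exists_maximal_ideal_liesOver_of_isIntegral (S := 𝓞 L) v.asIdeal
  exact ⟨⟨Q, hQ.isPrime, Ideal.ne_bot_of_liesOver_of_ne_bot v.ne_bot Q⟩, below_eq_iff.2 hQv⟩

/-- The conjugate of a prime. -/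
def smulP (g : L ≃ₐ[K] L) (w : HeightOneSpectrum (𝓞 L)) : HeightOneSpectrum (𝓞 L) where
  asIdeal := g • w.asIdeal
  isPrime := Ideal.IsPrime.smul g
  ne_bot h := w.ne_bot (by
    have := congrArg (g⁻¹ • ·) h
    simpa [Ideal.smul_bot] using this)

omit [NumberField K] [NumberField L] in
theorem smulP_mul (g h : L ≃ₐ[K] L) (w : HeightOneSpectrum (𝓞 L)) :
    smulP (g * h) w = smulP g (smulP h w) :=
  HeightOneSpectrum.ext (mul_smul g h w.asIdeal)

omit [NumberField K] [NumberField L] in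
theorem smulP_one (w : HeightOneSpectrum (𝓞 L)) : smulP (1 : L ≃ₐ[K] L) w = w :=
  HeightOneSpectrum.ext (one_smul _ w.asIdeal)

omit [NumberField L] in
theorem below_smulP (g : L ≃ₐ[K] L) (w : HeightOneSpectrum (𝓞 L)) :
    below K (smulP g w) = below K w := by
  refine HeightOneSpectrum.ext (Ideal.ext fun a => ?_)
  show algebraMap (𝓞 K) (𝓞 L) a ∈ g • w.asIdeal ↔ algebraMap (𝓞 K) (𝓞 L) a ∈ w.asIdeal
  have e : g⁻¹ • algebraMap (𝓞 K) (𝓞 L) a = algebraMap (𝓞 K) (𝓞 L) a :=
    RingOfIntegers.coe_injective (g⁻¹.commutes (a : K))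
  rw [Ideal.mem_pointwise_smul_iff_inv_smul_mem, e]

theorem exists_smulP_eq [IsGalois K L] {w w' : HeightOneSpectrum (𝓞 L)}
    (h : below K w = below K w') : ∃ g : L ≃ₐ[K] L, smulP g w = w' := by
  have : w'.asIdeal.LiesOver (below K w).asIdeal := by rw [h]; infer_instance
  obtain ⟨g, hg⟩ := Ideal.exists_smul_eq_of_isGaloisGroup (below K w).asIdeal w.asIdeal w'.asIdeal
    (L ≃ₐ[K] L)
  exact ⟨g, HeightOneSpectrum.ext hg⟩

theorem finite_below_fibre [IsGalois K L] (v : HeightOneSpectrum (𝓞 K)) :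
    {w : HeightOneSpectrum (𝓞 L) | below K w = v}.Finite := by
  obtain ⟨w, hw⟩ := exists_below_eq (L := L) v
  refine (Set.finite_range fun g : L ≃ₐ[K] L => smulP g w).subset fun w' hw' => ?_
  obtain ⟨g, hg⟩ := exists_smulP_eq (hw.trans (Eq.symm hw'))
  exact ⟨g, hg⟩

omit [NumberField K] in
theorem ordGE_smulP (g : L ≃ₐ[K] L) (w : HeightOneSpectrum (𝓞 L)) (a : 𝓞 L) (n : ℕ) :
    OrdGE (smulP g w) (n : ℤ) (g (algebraMap (𝓞 L) L a)) ↔
      OrdGE w (n : ℤ) (algebraMap (𝓞 L) L a) := by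
  rw [show g (algebraMap (𝓞 L) L a) = algebraMap (𝓞 L) L (g • a) from rfl, ordGE_algebraMap_iff,
    ordGE_algebraMap_iff]
  show g • a ∈ (g • w.asIdeal) ^ n ↔ _
  rw [← smul_pow']
  exact Ideal.smul_mem_pointwise_smul_iff

omit [NumberField K] in
theorem ord_smulP (g : L ≃ₐ[K] L) (w : HeightOneSpectrum (𝓞 L)) (y : Lˣ) :
    ord (smulP g w) (conjU g y) = ord w y := by
  have key : ∀ (a : 𝓞 L) (h : algebraMap (𝓞 L) L a ≠ 0),
      ord (smulP g w) (conjU g (Units.mk0 _ h)) = ord w (Units.mk0 _ h) := by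
    intro a h
    have e : ∀ n : ℕ, (n : ℤ) ≤ ord (smulP g w) (conjU g (Units.mk0 _ h)) ↔
        (n : ℤ) ≤ ord w (Units.mk0 _ h) := fun n => by
      rw [← ordGE_iff, ← ordGE_iff, coe_conjU, Units.val_mk0]
      exact ordGE_smulP g w a n
    have h1 : 0 ≤ ord w (Units.mk0 _ h) := (ordGE_iff w _ _).1 (ordGE_algebraMap a)
    have h2 : 0 ≤ ord (smulP g w) (conjU g (Units.mk0 _ h)) := (e 0).2 h1
    have e1 := (e (ord w (Units.mk0 _ h)).toNat).2 (by omega)
    have e2 := (e (ord (smulP g w) (conjU g (Units.mk0 _ h))).toNat).1 (by omega)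
    omega
  obtain ⟨a, c, hc, hac⟩ := IsFractionRing.div_surjective (A := 𝓞 L) (y : L)
  have hc0 : algebraMap (𝓞 L) L c ≠ 0 :=
    (map_ne_zero_iff _ RingOfIntegers.coe_injective).2 (nonZeroDivisors.ne_zero hc)
  have ha0 : algebraMap (𝓞 L) L a ≠ 0 := fun h => by
    rw [h, zero_div] at hac
    exact y.ne_zero hac.symm
  have hy : y = Units.mk0 _ ha0 / Units.mk0 _ hc0 :=
    Units.ext (by rw [Units.val_div_eq_div_val]; exact hac.symm)
  rw [hy, map_div, ord_div, ord_div, key, key]

/-! ### Ramification -/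

variable (K) in
/-- The ramification index of `w` over `K`. -/
def ram (w : HeightOneSpectrum (𝓞 L)) : ℕ := (below K w).asIdeal.ramificationIdx' w.asIdeal

theorem ord_baseU (w : HeightOneSpectrum (𝓞 L)) (x : Kˣ) :
    ord w (baseU K L x) = ram K w * ord (below K w) x := by
  have h := HeightOneSpectrum.valuation_liesOver (K := K) L (below K w) w (x : K)
  rw [← coe_baseU, valuation_eq_exp, valuation_eq_exp, ← exp_nsmul, exp_inj] at h
  simp only [nsmul_eq_mul] at h
  simp only [ram]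
  linarith

theorem ordGE_baseU (w : HeightOneSpectrum (𝓞 L)) {n : ℤ} {x : K}
    (h : OrdGE (below K w) n x) : OrdGE w (ram K w * n) (algebraMap K L x) := by
  rcases eq_or_ne x 0 with rfl | hx
  · rw [map_zero]; exact ordGE_zero _
  · rw [show x = (Units.mk0 x hx : K) from rfl, ← coe_baseU, ordGE_iff, ord_baseU]
    exact mul_le_mul_of_nonneg_left ((ordGE_iff _ (Units.mk0 x hx) _).1 h) (by positivity)

theorem ram_pos (w : HeightOneSpectrum (𝓞 L)) : 0 < ram K w :=
  Nat.pos_of_ne_zero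
    (Ideal.IsDedekindDomain.ramificationIdx'_ne_zero_of_liesOver w.asIdeal (below K w).ne_bot)

theorem ram_eq_card_inertia [IsGalois K L] (w : HeightOneSpectrum (𝓞 L)) :
    ram K w = Nat.card (w.asIdeal.inertia (L ≃ₐ[K] L)) := by
  have : (below K w).asIdeal.IsMaximal := (below K w).isMaximal
  rw [ram, Ideal.ramificationIdx'_eq_ramificationIdx (below K w).asIdeal w.asIdeal
      (below K w).ne_bot,
    Ideal.card_inertia_eq_ramificationIdxIn (below K w).asIdeal w.asIdeal,
    Ideal.ramificationIdxIn_eq_ramificationIdx (below K w).asIdeal w.asIdeal (L ≃ₐ[K] L)]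

theorem ram_smulP (g : L ≃ₐ[K] L) (w : HeightOneSpectrum (𝓞 L)) :
    ram K (smulP g w) = ram K w := by
  obtain ⟨x, hx⟩ := exists_ord_eq (below K w) 1
  have h := ord_smulP g w (baseU K L x)
  rw [conjU_baseU, ord_baseU, ord_baseU, below_smulP, hx, mul_one, mul_one] at h
  exact_mod_cast h

theorem ord_normU [IsGalois K L] (w : HeightOneSpectrum (𝓞 L)) (y : Lˣ) :
    (ram K w : ℤ) * ord (below K w) (normU K L y) =
      ∑ g : L ≃ₐ[K] L, ord w (conjU g y) := by
  rw [← ord_baseU, baseU_normU, ord_prod]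

/-! ### Degree `p` -/

variable {p : ℕ} [hp : Fact p.Prime]

/-- The prime `v` has several primes above it. -/
def IsSplit (L : Type) [Field L] [NumberField L] [Algebra K L] (v : HeightOneSpectrum (𝓞 K)) :
    Prop :=
  ∃ w w' : HeightOneSpectrum (𝓞 L), below K w = v ∧ below K w' = v ∧ w ≠ w'

variable [IsGalois K L]

omit [IsGalois K L] in
theorem smulP_eq_self_of_not_split {v : HeightOneSpectrum (𝓞 K)} (hv : ¬ IsSplit L v)
    {w : HeightOneSpectrum (𝓞 L)} (hw : below K w = v) (g : L ≃ₐ[K] L) : smulP g w = w := by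
  by_contra h
  exact hv ⟨smulP g w, w, by rw [below_smulP, hw], hw, h⟩

omit [NumberField K] [IsGalois K L] in
theorem ord_conjU_of_smulP_eq {g : L ≃ₐ[K] L} {w : HeightOneSpectrum (𝓞 L)}
    (h : smulP g w = w) (y : Lˣ) : ord w (conjU g y) = ord w y := by
  conv_lhs => rw [← h, ord_smulP]

/-! ### A generator of the Galois group -/

omit [NumberField K] [NumberField L] in
theorem exists_aut_ne_one [FiniteDimensional K L] (hdeg : Module.finrank K L = p) :
    ∃ g : L ≃ₐ[K] L, g ≠ 1 := by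
  by_contra h
  push Not at h
  have : Subsingleton (L ≃ₐ[K] L) := ⟨fun a b => (h a).trans (h b).symm⟩
  have hc := (IsGalois.card_aut_eq_finrank K L).trans hdeg
  rw [Nat.card_unique] at hc
  exact hp.out.one_lt.ne hc

omit [NumberField K] [NumberField L] in
theorem zpowers_eq_top [FiniteDimensional K L] (hdeg : Module.finrank K L = p) {g : L ≃ₐ[K] L}
    (hg : g ≠ 1) : Subgroup.zpowers g = ⊤ :=
  zpowers_eq_top_of_prime_card ((IsGalois.card_aut_eq_finrank K L).trans hdeg) hg

omit [NumberField K] [NumberField L] in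
theorem orderOf_aut [FiniteDimensional K L] (hdeg : Module.finrank K L = p) {g : L ≃ₐ[K] L}
    (hg : g ≠ 1) : orderOf g = p :=
  orderOf_eq_prime (((IsGalois.card_aut_eq_finrank K L).trans hdeg) ▸ pow_card_eq_one') hg

omit [NumberField K] [NumberField L] in
theorem bijective_pow [FiniteDimensional K L] (hdeg : Module.finrank K L = p) {g : L ≃ₐ[K] L}
    (hg : g ≠ 1) : Function.Bijective fun i : Fin p => g ^ (i : ℕ) := by
  refine (Nat.bijective_iff_injective_and_card _).2 ⟨fun i j h => Fin.ext ?_,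
    by rw [Nat.card_fin, IsGalois.card_aut_eq_finrank, hdeg]⟩
  exact pow_injOn_Iio_orderOf (by rw [Set.mem_Iio, orderOf_aut hdeg hg]; exact i.2)
    (by rw [Set.mem_Iio, orderOf_aut hdeg hg]; exact j.2) h

theorem eq_one_of_smulP_eq (hdeg : Module.finrank K L = p) {v : HeightOneSpectrum (𝓞 K)}
    (hv : IsSplit L v) {w : HeightOneSpectrum (𝓞 L)} (hw : below K w = v) {g : L ≃ₐ[K] L}
    (hg : smulP g w = w) : g = 1 := by
  by_contra hg1
  have hcard : Nat.card (L ≃ₐ[K] L) = p := (IsGalois.card_aut_eq_finrank K L).trans hdeg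
  let St : Subgroup (L ≃ₐ[K] L) :=
    { carrier := {h | smulP h w = w}
      one_mem' := smulP_one w
      mul_mem' := fun {a b} ha hb => by
        show smulP (a * b) w = w
        rw [smulP_mul, hb, ha]
      inv_mem' := fun {a} ha => by
        show smulP a⁻¹ w = w
        conv_lhs => rw [← ha]
        rw [← smulP_mul, inv_mul_cancel, smulP_one] }
  have : Fact (Nat.card (L ≃ₐ[K] L)).Prime := ⟨hcard.symm ▸ hp.out⟩
  have htop : St = ⊤ := (St.eq_bot_or_eq_top_of_prime_card).resolve_left fun h =>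
    hg1 (Subgroup.mem_bot.1 (h ▸ (hg : g ∈ St)))
  obtain ⟨w₁, w₂, h1, h2, h12⟩ := hv
  obtain ⟨g₁, hg₁⟩ := exists_smulP_eq (hw.trans h1.symm)
  obtain ⟨g₂, hg₂⟩ := exists_smulP_eq (hw.trans h2.symm)
  have e : ∀ h : L ≃ₐ[K] L, smulP h w = w := fun h => (htop ▸ Subgroup.mem_top h : h ∈ St)
  exact h12 (hg₁.symm.trans ((e g₁).trans ((e g₂).symm.trans hg₂)))

theorem ram_eq_one_or (hdeg : Module.finrank K L = p) (w : HeightOneSpectrum (𝓞 L)) :
    ram K w = 1 ∨ ram K w = p := by
  rw [ram_eq_card_inertia]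
  refine hp.out.eq_one_or_self_of_dvd _ ?_
  rw [← hdeg, ← IsGalois.card_aut_eq_finrank K L]
  exact Subgroup.card_subgroup_dvd_card _

theorem ram_eq_one_of_split (hdeg : Module.finrank K L = p) {v : HeightOneSpectrum (𝓞 K)}
    (hv : IsSplit L v) {w : HeightOneSpectrum (𝓞 L)} (hw : below K w = v) : ram K w = 1 := by
  rw [ram_eq_card_inertia, Subgroup.card_eq_one]
  refine (Subgroup.eq_bot_iff_forall _).2 fun g hg => eq_one_of_smulP_eq hdeg hv hw ?_
  exact HeightOneSpectrum.ext (Ideal.inertia_le_stabilizer _ hg)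

omit hp in
theorem ord_normU_of_not_split (hdeg : Module.finrank K L = p) {v : HeightOneSpectrum (𝓞 K)}
    (hv : ¬ IsSplit L v) {w : HeightOneSpectrum (𝓞 L)} (hw : below K w = v) (y : Lˣ) :
    (ram K w : ℤ) * ord v (normU K L y) = p * ord w y := by
  rw [← hw, ord_normU]
  rw [Finset.sum_congr rfl fun g _ =>
    ord_conjU_of_smulP_eq (smulP_eq_self_of_not_split hv hw g) y]
  rw [Finset.sum_const, Finset.card_univ, ← Nat.card_eq_fintype_card,
    IsGalois.card_aut_eq_finrank, hdeg, nsmul_eq_mul]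

/-! ### Local norms -/

omit [IsGalois K L] hp in
variable (L) in
/-- The local norms at `v`. -/
def locNorm (v : HeightOneSpectrum (𝓞 K)) : Subgroup Kˣ :=
  ⨅ n, (normU K L).range ⊔ congr v n

omit [IsGalois K L] hp [NumberField L] in
theorem mem_locNorm {v : HeightOneSpectrum (𝓞 K)} {x : Kˣ} :
    x ∈ locNorm L v ↔ ∀ n : ℕ, ∃ y : Lˣ, x / normU K L y ∈ congr v n := by
  simp only [locNorm, Subgroup.mem_iInf]
  refine forall_congr' fun n => ?_
  rw [Subgroup.mem_sup]
  constructor
  · rintro ⟨_, ⟨y, rfl⟩, c, hc, rfl⟩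
    exact ⟨y, by rwa [mul_div_cancel_left]⟩
  · rintro ⟨y, hy⟩
    exact ⟨_, ⟨y, rfl⟩, _, hy, mul_div_cancel _ _⟩

omit [IsGalois K L] hp [NumberField L] in
theorem normU_mem_locNorm (v : HeightOneSpectrum (𝓞 K)) (y : Lˣ) :
    normU K L y ∈ locNorm L v :=
  mem_locNorm.2 fun n => ⟨y, by rw [div_self']; exact one_mem _⟩

omit [IsGalois K L] hp in
theorem pow_mem_locNorm (hdeg : Module.finrank K L = p) (v : HeightOneSpectrum (𝓞 K)) (x : Kˣ) :
    x ^ p ∈ locNorm L v := by
  rw [← hdeg, ← normU_baseU]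
  exact normU_mem_locNorm v _

omit [IsGalois K L] hp in
theorem locPow_le_locNorm (hdeg : Module.finrank K L = p) (v : HeightOneSpectrum (𝓞 K)) :
    locPow v p ≤ locNorm L v := fun x hx => mem_locNorm.2 fun n => by
  obtain ⟨y, hy⟩ := (mem_locPow v p).1 hx n
  exact ⟨baseU K L y, by rwa [normU_baseU, hdeg]⟩

omit [NumberField K] [IsGalois K L] in
/-- A congruence at a conjugate prime gives one for the conjugate. -/
theorem conjU_mem_congr {g : L ≃ₐ[K] L} {w : HeightOneSpectrum (𝓞 L)} {y : Lˣ} {n : ℕ}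
    (h : y ∈ congr (smulP g⁻¹ w) n) : conjU g y ∈ congr w n := by
  have e : smulP g (smulP g⁻¹ w) = w := by rw [← smulP_mul, mul_inv_cancel, smulP_one]
  refine ⟨?_, ?_⟩
  · conv_lhs => rw [← e, ord_smulP]
    exact h.1
  · rcases eq_or_ne ((y : L) - 1) 0 with h0 | h0
    · rw [coe_conjU, ← map_one g, ← map_sub, h0, map_zero]
      exact ordGE_zero _
    · rw [coe_conjU, ← map_one g, ← map_sub, show g ((y : L) - 1) =
        (conjU g (Units.mk0 _ h0) : L) from rfl, ordGE_iff, ← e, ord_smulP]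
      exact (ordGE_iff _ (Units.mk0 _ h0) _).1 h.2

/-- Everything is a local norm at a split prime. -/
theorem locNorm_eq_top_of_split (hdeg : Module.finrank K L = p) {v : HeightOneSpectrum (𝓞 K)}
    (hv : IsSplit L v) : locNorm L v = ⊤ := by
  classical
  refine eq_top_iff.2 fun x _ => mem_locNorm.2 fun n => ?_
  obtain ⟨w, hw⟩ := exists_below_eq (L := L) v
  let T : Finset (HeightOneSpectrum (𝓞 L)) := Finset.univ.image fun g : L ≃ₐ[K] L => smulP g w
  obtain ⟨y, hy⟩ := exists_approx T (fun w' => if w' = w then baseU K L x else 1) (n + 1)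
  refine ⟨y, congr_anti v (Nat.le_succ n) ?_⟩
  have hprod : baseU K L (x / normU K L y) ∈ congr w (n + 1) := by
    rw [map_div, baseU_normU, ← Finset.mul_prod_erase _ _ (Finset.mem_univ (1 : L ≃ₐ[K] L)),
      conjU_one, ← div_div]
    refine div_mem ?_ (prod_mem fun g hg => ?_)
    · have h := hy w (Finset.mem_image.2 ⟨1, Finset.mem_univ _, smulP_one w⟩)
      simp only [if_true] at h
      simpa using inv_mem h
    · have hg1 : g⁻¹ ≠ 1 := fun h => (Finset.ne_of_mem_erase hg) (inv_eq_one.1 h)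
      have hne : smulP g⁻¹ w ≠ w := fun h => hg1 (eq_one_of_smulP_eq hdeg hv hw h)
      have h := hy (smulP g⁻¹ w) (Finset.mem_image.2 ⟨g⁻¹, Finset.mem_univ _, rfl⟩)
      simp only [if_neg hne, div_one] at h
      exact conjU_mem_congr h
  have h1 : ram K w = 1 := ram_eq_one_of_split hdeg hv hw
  subst hw
  refine mem_congr_of_pos _ n.succ_pos ?_
  rcases eq_or_ne (((x / normU K L y : Kˣ) : K) - 1) 0 with h0 | h0
  · rw [h0]; exact ordGE_zero _
  · have h2 := hprod.2
    rw [coe_baseU, ← map_one (algebraMap K L), ← map_sub,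
      show algebraMap K L (((x / normU K L y : Kˣ) : K) - 1) = baseU K L (Units.mk0 _ h0) from rfl,
      ordGE_iff, ord_baseU, h1, Nat.cast_one, one_mul] at h2
    exact (ordGE_iff _ (Units.mk0 _ h0) _).2 h2

end Fermat.Agent.CFT
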