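import Mathlib.FieldTheory.Galois.NormalBasis
import Mathlib.RingTheory.Trace.Basic
import Fermat.Agent.CFT.Primes

/-!
# At a totally ramified prime not every unit is a local norm

A normal basis gives a lattice with trivial cohomology; in the finite group of units modulo the
corresponding congruence subgroup the two Herbrand orders agree.
-/

noncomputable section

namespace Fermat.Agent.CFT

open NumberField IsDedekindDomain WithZero
open scoped Pointwise

variable {K L : Type} [Field K] [NumberField K] [Field L] [NumberField L] [Algebra K L]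
  [IsGalois K L] {p : ℕ}

omit [IsGalois K L] in
/-- Expansion of a product of elements close to `1`. -/
theorem ordGE_prod_one_add {w : HeightOneSpectrum (𝓞 L)} {ι : Type*} (s : Finset ι) (f : ι → L)
    {t : ℤ} (ht : 0 ≤ t) (h : ∀ i ∈ s, OrdGE w t (f i)) :
    OrdGE w (2 * t) (∏ i ∈ s, (1 + f i) - 1 - ∑ i ∈ s, f i) := by
  classical
  induction s using Finset.induction with
  | empty => simp [ordGE_zero]
  | insert a s ha ih =>
    rw [Finset.prod_insert ha, Finset.sum_insert ha,
      show (1 + f a) * ∏ i ∈ s, (1 + f i) - 1 - (f a + ∑ i ∈ s, f i) =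
        (∏ i ∈ s, (1 + f i) - 1 - ∑ i ∈ s, f i) * (1 + f a) + f a * ∑ i ∈ s, f i by ring]
    have hs := fun i hi => h i (Finset.mem_insert_of_mem hi)
    refine OrdGE.add ?_ ?_
    · simpa using (ih hs).mul (ordGE_one.add ((h a (Finset.mem_insert_self a s)).mono ht))
    · simpa [two_mul] using (h a (Finset.mem_insert_self a s)).mul (OrdGE.sum hs)

/-- A totally ramified prime, with the data of a normal basis. -/
structure Lat (K L : Type) [Field K] [NumberField K] [Field L] [NumberField L] [Algebra K L]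
    [IsGalois K L] (p : ℕ) where
  /-- The prime of `L`, fixed by the Galois group and of ramification index `p`. -/
  w : HeightOneSpectrum (𝓞 L)
  ns : ∀ g : L ≃ₐ[K] L, smulP g w = w
  ram_eq : ram K w = p
  deg : Module.finrank K L = p

namespace Lat

variable (D : Lat K L p)

/-- The prime below. -/
abbrev v : HeightOneSpectrum (𝓞 K) := below K D.w

/-- Order at least `p * m` upstairs. -/
def WGE (m : ℤ) (z : L) : Prop := OrdGE D.w ((p : ℤ) * m) z

theorem WGE.mono {m m' : ℤ} {z : L} (h : D.WGE m z) (hm : m' ≤ m) : D.WGE m' z :=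
  OrdGE.mono h (mul_le_mul_of_nonneg_left hm (by positivity))

theorem WGE.mul {m m' : ℤ} {y z : L} (h : D.WGE m y) (h' : D.WGE m' z) :
    D.WGE (m + m') (y * z) := by
  rw [WGE, mul_add]; exact OrdGE.mul h h'

theorem wge_of_ord (y : Lˣ) (h : ord D.w y = 0) : D.WGE 0 (y : L) := by
  rw [WGE, mul_zero, ordGE_iff, h]

theorem ord_conjU (g : L ≃ₐ[K] L) (y : Lˣ) : ord D.w (conjU g y) = ord D.w y :=
  ord_conjU_of_smulP_eq (D.ns g) y

omit [NumberField K] [NumberField L] [IsGalois K L] in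
/-- The norm of `σ x / x` is `1`. -/
theorem prod_conjU_conjU_div [FiniteDimensional K L] (σ : L ≃ₐ[K] L) (x : Lˣ) :
    ∏ g : L ≃ₐ[K] L, conjU g (conjU σ x / x) = 1 := by
  simp only [map_div, ← conjU_mul, Finset.prod_div_distrib]
  rw [Fintype.prod_equiv (Equiv.mulRight σ) (fun g => conjU (g * σ) x) (fun g => conjU g x)
    (fun g => rfl), div_self']

theorem wge_conj (g : L ≃ₐ[K] L) {m : ℤ} {z : L} (h : D.WGE m z) : D.WGE m (g z) := by
  rcases eq_or_ne z 0 with rfl | hz
  · rw [map_zero]; exact ordGE_zero _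
  · rw [WGE, show g z = (conjU g (Units.mk0 z hz) : L) from rfl, ordGE_iff, D.ord_conjU]
    exact (ordGE_iff _ (Units.mk0 z hz) _).1 h

/-- The generator of the normal basis. -/
def θ (K L : Type) [Field K] [Field L] [Algebra K L] [FiniteDimensional K L] [IsGalois K L] : L :=
  IsGalois.normalBasis K L 1

/-- Coordinates in the normal basis have order at least `m`. -/
def Co (m : ℤ) (z : L) : Prop :=
  ∀ g : L ≃ₐ[K] L, OrdGE D.v m ((IsGalois.normalBasis K L).repr z g)

theorem co_add {m : ℤ} {y z : L} (h : D.Co m y) (h' : D.Co m z) : D.Co m (y + z) := fun g => by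
  rw [map_add, Finsupp.add_apply]; exact (h g).add (h' g)

theorem co_neg {m : ℤ} {z : L} (h : D.Co m z) : D.Co m (-z) := fun g => by
  rw [map_neg, Finsupp.neg_apply]; exact (h g).neg

theorem repr_conj (g : L ≃ₐ[K] L) (z : L) (h : L ≃ₐ[K] L) :
    (IsGalois.normalBasis K L).repr (g z) h = (IsGalois.normalBasis K L).repr z (g⁻¹ * h) := by
  set b := IsGalois.normalBasis K L with hb
  have e : g z = ∑ k, (b.repr z (g⁻¹ * k)) • b k := by
    conv_lhs => rw [← b.sum_repr z, map_sum]
    refine Fintype.sum_equiv (Equiv.mulLeft g) _ _ fun k => ?_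
    rw [Algebra.smul_def, Algebra.smul_def, map_mul, g.commutes, Equiv.coe_mulLeft,
      inv_mul_cancel_left, hb, IsGalois.normalBasis_apply k,
      IsGalois.normalBasis_apply (g * k), AlgEquiv.mul_apply]
  rw [e, b.repr_sum_self]

theorem co_conj (g : L ≃ₐ[K] L) {m : ℤ} {z : L} (h : D.Co m z) : D.Co m (g z) := fun k => by
  rw [repr_conj]; exact h _

theorem θ_conj (g : L ≃ₐ[K] L) : g (θ K L) = IsGalois.normalBasis K L g :=
  (IsGalois.normalBasis_apply g).symm

theorem sum_conj_θ_eq {z : L} (b : K) :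
    z - ∑ g : L ≃ₐ[K] L, g (b • (θ K L)) =
      ∑ g : L ≃ₐ[K] L, ((IsGalois.normalBasis K L).repr z g - b) • IsGalois.normalBasis K L g := by
  have e : ∀ g : L ≃ₐ[K] L, g (b • θ K L) = b • IsGalois.normalBasis K L g := fun g => by
    rw [Algebra.smul_def, Algebra.smul_def, map_mul, g.commutes, θ_conj]
  simp only [e, sub_smul, Finset.sum_sub_distrib]
  rw [Module.Basis.sum_repr]

/-- The multiplicative congruence subgroup attached to the lattice. -/
def coGroup {c : ℤ} (h1 : ∀ (m : ℤ) (z : L), D.WGE m z → D.Co (m - c) z)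
    (h2 : ∀ (m : ℤ) (z : L), D.Co m z → D.WGE (m - c) z) (n : ℤ) (hn : 3 * c ≤ n) :
    Subgroup Lˣ where
  carrier := {x | ord D.w x = 0 ∧ D.Co n ((x : L) - 1)}
  one_mem' := ⟨ord_one _, fun g => by simp [ordGE_zero]⟩
  mul_mem' := fun {x y} hx hy => by
    refine ⟨by rw [ord_mul, hx.1, hy.1, add_zero], ?_⟩
    rw [Units.val_mul, show (x : L) * y - 1 =
      ((x : L) - 1) + ((y : L) - 1) + ((x : L) - 1) * ((y : L) - 1) by ring]
    refine D.co_add (D.co_add hx.2 hy.2) ?_
    exact fun g => (h1 _ _ ((h2 _ _ hx.2).mul D (h2 _ _ hy.2)) g).mono (by omega)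
  inv_mem' := fun {x} hx => by
    have h0 : ord D.w x⁻¹ = 0 := by rw [ord_inv, hx.1, neg_zero]
    refine ⟨h0, ?_⟩
    have e : ((x⁻¹ : Lˣ) : L) - 1 = -((x : L) - 1) +
        ((x : L) - 1) * ((x : L) - 1) * ((x⁻¹ : Lˣ) : L) := by
      rw [Units.val_inv_eq_inv_val]
      field_simp
      ring
    rw [e]
    refine D.co_add (D.co_neg hx.2) fun g => ?_
    exact (h1 _ _ (((h2 _ _ hx.2).mul D (h2 _ _ hx.2)).mul D (D.wge_of_ord _ h0)) g).mono
      (by omega)

variable [hp : Fact p.Prime]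

theorem wge_algebraMap {m : ℤ} {x : K} : D.WGE m (algebraMap K L x) ↔ OrdGE D.v m x := by
  rcases eq_or_ne x 0 with rfl | hx
  · simp [WGE, ordGE_zero]
  · rw [WGE, show algebraMap K L x = (baseU K L (Units.mk0 x hx) : L) from rfl, ordGE_iff,
      ord_baseU, D.ram_eq]
    exact (mul_le_mul_iff_right₀ (by exact_mod_cast hp.out.pos)).trans
      (ordGE_iff D.v (Units.mk0 x hx) m).symm

/-- Bounds comparing the lattice filtration with the valuation filtration. -/
theorem exists_bound : ∃ c : ℤ, 0 ≤ c ∧ (absRam D.v p : ℤ) ≤ c ∧ D.WGE (-c) (θ K L) ∧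
    (∀ (m : ℤ) (z : L), D.WGE m z → D.Co (m - c) z) ∧
    (∀ (m : ℤ) (z : L), D.Co m z → D.WGE (m - c) z) := by
  classical
  set b := IsGalois.normalBasis K L with hb
  choose d hd using fun g : L ≃ₐ[K] L =>
    (LinearMap.BilinForm.toDual (Algebra.traceForm K L) (traceForm_nondegenerate K L)).surjective
      (b.coord g)
  have hlow : ∀ z : L, ∃ k : ℕ, D.WGE (-(k : ℤ)) z := fun z => by
    rcases eq_or_ne z 0 with rfl | hz
    · exact ⟨0, ordGE_zero _⟩
    · refine ⟨(-ord D.w (Units.mk0 z hz)).toNat, ?_⟩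
      refine (ordGE_iff D.w (Units.mk0 z hz) _).2 ?_
      have h1 : (1 : ℤ) ≤ p := by exact_mod_cast hp.out.one_le
      have h2 := Int.self_le_toNat (-ord D.w (Units.mk0 z hz))
      nlinarith [Int.natCast_nonneg (-ord D.w (Units.mk0 z hz)).toNat]
  choose k hk using hlow
  set c : ℤ := (((Finset.univ.sup fun g : L ≃ₐ[K] L => max (k (b g)) (k (d g))) + k (θ K L) +
    absRam D.v p : ℕ) : ℤ) with hc
  have hcb : ∀ g, (k (b g) : ℤ) ≤ c ∧ (k (d g) : ℤ) ≤ c := fun g => by
    have := Finset.le_sup (f := fun g : L ≃ₐ[K] L => max (k (b g)) (k (d g))) (Finset.mem_univ g)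
    constructor <;> rw [hc] <;> push_cast <;> omega
  have hpos : 0 ≤ c := by rw [hc]; exact Int.natCast_nonneg _
  have hce : (absRam D.v p : ℤ) ≤ c := by rw [hc]; exact_mod_cast Nat.le_add_left _ _
  have hθ : D.WGE (-c) (θ K L) := by
    refine WGE.mono D (hk (θ K L)) ?_
    rw [hc, neg_le_neg_iff]
    exact_mod_cast (Nat.le_add_left _ _).trans (Nat.le_add_right _ _)
  refine ⟨c, hpos, hce, hθ, ?_, ?_⟩
  · intro m z hz g
    have e : b.repr z g = Algebra.trace K L (d g * z) := by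
      have := LinearMap.congr_fun (hd g) z
      rw [LinearMap.BilinForm.toDual_def, Algebra.traceForm_apply] at this
      exact this.symm
    rw [e, ← D.wge_algebraMap, trace_eq_sum_automorphisms]
    refine OrdGE.sum fun g' _ => D.wge_conj g' ?_
    exact ((hk (d g)).mul D hz).mono D (by have := (hcb g).2; omega)
  · intro m z hz
    rw [← b.sum_repr z]
    refine OrdGE.sum fun g _ => ?_
    rw [Algebra.smul_def]
    exact ((D.wge_algebraMap.2 (hz g)).mul D (hk (b g))).mono D (by have := (hcb g).1; omega)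

/-- If every unit below is a local norm, then a unit whose quotients by its conjugates lie in the
congruence subgroup is a norm modulo that subgroup: descend its mean value to the field below and
correct the remaining factor by the norm of a lattice element. -/
theorem exists_prod_conjU_inv_mul_mem (hall : ∀ a : Kˣ, ord D.v a = 0 → a ∈ locNorm L D.v) {c : ℤ}
    (hc0 : 0 ≤ c) (hce : (absRam D.v p : ℤ) ≤ c) (hθ : D.WGE (-c) (θ K L))
    (h1 : ∀ (m : ℤ) (z : L), D.WGE m z → D.Co (m - c) z)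
    (h2 : ∀ (m : ℤ) (z : L), D.Co m z → D.WGE (m - c) z) {n : ℤ} (hn : n = 12 * c + 12)
    (hn3 : 3 * c ≤ n) {x : Lˣ} (hx : ord D.w x = 0)
    (hall' : ∀ g : L ≃ₐ[K] L, conjU g x / x ∈ D.coGroup h1 h2 n hn3) :
    ∃ y : Lˣ, ord D.w y = 0 ∧
      (∏ g : L ≃ₐ[K] L, conjU g y)⁻¹ * x ∈ D.coGroup h1 h2 n hn3 := by
  classical
  set C := D.coGroup h1 h2 n hn3 with hC
  have hcard : Nat.card (L ≃ₐ[K] L) = p := (IsGalois.card_aut_eq_finrank K L).trans D.deg
  set a₀ : K := Algebra.trace K L (x : L) / p with ha₀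
  have hp0 : (p : L) ≠ 0 := Nat.cast_ne_zero.2 hp.out.ne_zero
  have hdiff : D.WGE (n - c - c) (algebraMap K L a₀ - x) := by
    have hS : D.WGE (n - c)
        (∑ g : L ≃ₐ[K] L, (g (x : L) - x)) := OrdGE.sum fun g _ => by
      have h := (h2 _ _ (hall' g).2).mul D (D.wge_of_ord _ hx)
      rw [add_zero] at h
      rw [Units.val_div_eq_div_val, coe_conjU, sub_mul, one_mul,
        div_mul_cancel₀ _ (Units.ne_zero _)] at h
      exact h
    rw [Finset.sum_sub_distrib, ← trace_eq_sum_automorphisms, Finset.sum_const, Finset.card_univ,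
      ← Nat.card_eq_fintype_card, hcard, nsmul_eq_mul] at hS
    have hinv : D.WGE (-c) ((p : L)⁻¹) := by
      rw [← map_natCast (algebraMap K L), ← map_inv₀, D.wge_algebraMap]
      exact (ordGE_p_inv D.v p).mono (by omega)
    refine ((hS.mul D hinv).mono D (show n - c - c ≤ n - c + -c by omega)) |> fun h => ?_
    convert h using 1
    rw [ha₀, map_div₀, map_natCast, sub_mul, div_eq_mul_inv, mul_comm (p : L),
      mul_assoc, mul_inv_cancel₀ hp0, mul_one]
  have hxw : (D.w.valuation L) (algebraMap K L a₀) = (D.w.valuation L) (x : L) :=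
    Valuation.map_eq_of_sub_lt _ (lt_of_le_of_lt hdiff (by
      rw [valuation_eq_exp, hx, exp_lt_exp]
      have : (1 : ℤ) ≤ p := by exact_mod_cast hp.out.one_le
      nlinarith))
  have ha0 : a₀ ≠ 0 := fun h => by
    rw [h, map_zero, map_zero, valuation_eq_exp] at hxw
    exact exp_ne_zero hxw.symm
  set a := Units.mk0 a₀ ha0
  have haw : ord D.w (baseU K L a) = 0 := by
    have := valuation_eq_exp D.w (baseU K L a)
    rw [coe_baseU, Units.val_mk0, hxw, valuation_eq_exp, exp_inj, hx] at this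
    omega
  have hav : ord D.v a = 0 := by
    rw [ord_baseU, D.ram_eq, mul_eq_zero] at haw
    exact haw.resolve_left (by exact_mod_cast hp.out.ne_zero)
  obtain ⟨y, hy⟩ := mem_locNorm.1 (hall a hav) (n + c).toNat
  have hyv : ord D.v (normU K L y) = 0 := by
    have := hy.1
    rw [ord_div, hav] at this
    omega
  have hyw : ord D.w y = 0 := by
    have e := ord_normU (K := K) D.w y
    rw [Finset.sum_congr rfl fun g _ => D.ord_conjU g y] at e
    rw [Finset.sum_const, Finset.card_univ, hyv, mul_zero, nsmul_eq_mul] at e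
    exact (mul_eq_zero.1 e.symm).resolve_left (by exact_mod_cast Fintype.card_ne_zero)
  have hqC : baseU K L (a / normU K L y) ∈ C := by
    refine ⟨by rw [ord_baseU, hy.1, mul_zero], ?_⟩
    intro g
    refine (h1 (n + c) _ ?_ g).mono (by omega)
    rw [coe_baseU, ← map_one (algebraMap K L), ← map_sub, D.wge_algebraMap]
    exact hy.2.mono (by rw [Int.toNat_of_nonneg (by omega)])
  -- the remaining factor
  set r : Lˣ := x / baseU K L a with hr
  have hr0 : ord D.w r = 0 := by rw [hr, ord_div, hx, haw, sub_zero]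
  have hε : D.WGE (n - 2 * c) ((r : L) - 1) := by
    have h := hdiff.mul D (D.wge_of_ord (baseU K L a)⁻¹ (by rw [ord_inv, haw, neg_zero]))
    have h' := OrdGE.neg h
    refine WGE.mono D (m := n - c - c + 0) ?_ (by omega)
    show OrdGE D.w _ _
    convert h' using 1
    rw [hr, Units.val_div_eq_div_val, Units.val_inv_eq_inv_val, coe_baseU, Units.val_mk0]
    rw [sub_mul, mul_inv_cancel₀ ((map_ne_zero _).2 ha0), ← div_eq_mul_inv]
    ring
  set ε : L := (r : L) - 1 with hεdef
  have hco : ∀ g : L ≃ₐ[K] L, D.Co n (g ε - ε) := fun g => by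
    have hrat : conjU g r / r = conjU g x / x := by
      rw [hr, map_div, conjU_baseU, div_div_div_cancel_right]
    have e : g ε - ε = (((conjU g r / r : Lˣ) : L) - 1) +
        (((conjU g r / r : Lˣ) : L) - 1) * ε := by
      rw [hεdef, map_sub, map_one, Units.val_div_eq_div_val (conjU g r) r, coe_conjU]
      field_simp
      ring
    rw [e, hrat]
    refine D.co_add (hall' g).2 fun k => ?_
    exact (h1 _ _ ((h2 _ _ (hall' g).2).mul D hε) k).mono (by omega)
  set b₀ : K := (IsGalois.normalBasis K L).repr ε 1 with hb₀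
  have hb₀v : OrdGE D.v (n - 3 * c) b₀ := (h1 _ _ hε 1).mono (by omega)
  have hcoord : D.Co n (ε - ∑ g : L ≃ₐ[K] L, g (b₀ • (θ K L))) := fun k => by
    rw [sum_conj_θ_eq, Module.Basis.repr_sum_self]
    have := hco k⁻¹ 1
    rw [map_sub, Finsupp.sub_apply, repr_conj, inv_inv, mul_one] at this
    exact this
  have hb1 : D.WGE (n - 4 * c) (b₀ • (θ K L)) := by
    rw [Algebra.smul_def]
    exact ((D.wge_algebraMap.2 hb₀v).mul D hθ).mono D (by omega)
  obtain ⟨t, ht, htv⟩ := exists_unit_of_ordGE D.w (n := p * (n - 4 * c).toNat)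
    (Nat.mul_pos hp.out.pos (by omega)) (z := b₀ • (θ K L)) (by
      rw [WGE] at hb1
      push_cast
      rw [Int.toNat_of_nonneg (by omega)]
      exact hb1)
  set Q : L := ∏ g : L ≃ₐ[K] L, (1 + g (b₀ • (θ K L))) - 1 -
      ∑ g : L ≃ₐ[K] L, g (b₀ • (θ K L)) with hQ
  have hQw : D.WGE (2 * (n - 4 * c)) Q := by
    rw [WGE, mul_left_comm]
    exact ordGE_prod_one_add _ _ (mul_nonneg (by positivity) (by omega))
      fun g _ => D.wge_conj g hb1
  set Nt : Lˣ := ∏ g : L ≃ₐ[K] L, conjU g t with hNt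
  have hNt0 : ord D.w Nt = 0 := by
    rw [hNt, ord_prod]
    exact Finset.sum_eq_zero fun g _ => (D.ord_conjU g t).trans ht.1
  have hNtv : (Nt : L) = 1 + ∑ g : L ≃ₐ[K] L, g (b₀ • (θ K L)) + Q := by
    rw [hQ, hNt, Units.coe_prod]
    simp only [coe_conjU, htv, map_add, map_one]
    ring
  have hrC : r / Nt ∈ C := by
    refine ⟨by rw [ord_div, hr0, hNt0, sub_zero], ?_⟩
    have hnum : D.Co n ((r : L) - Nt) := by
      rw [hNtv, show (r : L) - (1 + ∑ g : L ≃ₐ[K] L, g (b₀ • (θ K L)) + Q) =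
        (ε - ∑ g : L ≃ₐ[K] L, g (b₀ • (θ K L))) + -Q by rw [hεdef]; ring]
      exact D.co_add hcoord (D.co_neg fun k => (h1 _ _ hQw k).mono (by omega))
    have hsum : D.WGE (n - 4 * c) ((Nt : L) - 1) := by
      rw [hNtv, show (1 + ∑ g : L ≃ₐ[K] L, g (b₀ • (θ K L)) + Q) - 1 =
        ∑ g : L ≃ₐ[K] L, g (b₀ • (θ K L)) + Q by ring]
      exact OrdGE.add (OrdGE.sum fun g _ => D.wge_conj g hb1) (hQw.mono D (by omega))
    have e : ((r / Nt : Lˣ) : L) - 1 =
        ((r : L) - Nt) + -(((r : L) - Nt) * ((Nt : L) - 1) * ((Nt⁻¹ : Lˣ) : L)) := by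
      rw [Units.val_div_eq_div_val, Units.val_inv_eq_inv_val]
      field_simp
      ring
    rw [e]
    refine D.co_add hnum (D.co_neg fun k => ?_)
    exact (h1 _ _ (((h2 _ _ hnum).mul D hsum).mul D
      (D.wge_of_ord _ (by rw [ord_inv, hNt0, neg_zero]))) k).mono (by omega)
  refine ⟨y * t, by rw [ord_mul, hyw, ht.1, add_zero], ?_⟩
  simp only [map_mul, Finset.prod_mul_distrib, ← baseU_normU, ← hNt]
  have e : (baseU K L (normU K L y) * Nt)⁻¹ * x =
      baseU K L (a / normU K L y) * (r / Nt) := by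
    refine Units.ext ?_
    simp only [hr, map_div, Units.val_mul, Units.val_inv_eq_inv_val, Units.val_div_eq_div_val]
    field_simp
  rw [e]
  exact mul_mem hqC hrC

/-- For an element of order one the quotient by its conjugate is not in the congruence subgroup:
otherwise a nearby element would be almost fixed, and its trace would have order prime to `p`. -/
theorem conjU_div_notMem {c : ℤ} (hc0 : 0 ≤ c) (hce : (absRam D.v p : ℤ) ≤ c)
    (h1 : ∀ (m : ℤ) (z : L), D.WGE m z → D.Co (m - c) z)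
    (h2 : ∀ (m : ℤ) (z : L), D.Co m z → D.WGE (m - c) z) {n : ℤ} (hn : n = 12 * c + 12)
    (hn3 : 3 * c ≤ n) {σ : L ≃ₐ[K] L} (hgen : Function.Bijective fun i : Fin p => σ ^ (i : ℕ))
    (hσp : σ ^ p = 1) {Z : Lˣ} (hZ1 : ord D.w Z = 1) :
    conjU σ Z / Z ∉ D.coGroup h1 h2 n hn3 := by
  intro hqC
  classical
  have hcard : Nat.card (L ≃ₐ[K] L) = p := (IsGalois.card_aut_eq_finrank K L).trans D.deg
  set q : Lˣ := conjU σ Z / Z with hq
  set z : L := (q : L) - 1 with hzdef
  have hzw : D.WGE (n - c) z := h2 _ _ hqC.2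
  have hNq : ∏ g : L ≃ₐ[K] L, conjU g q = 1 := prod_conjU_conjU_div σ Z
  have hTz : D.WGE (2 * (n - c)) (∑ g : L ≃ₐ[K] L, g z) := by
    have h := ordGE_prod_one_add (w := D.w) Finset.univ (fun g : L ≃ₐ[K] L => g z)
      (t := (p : ℤ) * (n - c)) (mul_nonneg (by positivity) (by omega)) fun g _ => D.wge_conj g hzw
    have e : ∏ g : L ≃ₐ[K] L, (1 + g z) = 1 := by
      have := congrArg Units.val hNq
      rw [Units.coe_prod, Units.val_one] at this
      refine (Finset.prod_congr rfl fun g _ => ?_).trans this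
      rw [coe_conjU, hzdef, map_sub, map_one]; ring
    rw [e, sub_self, zero_sub] at h
    rw [WGE, mul_left_comm]
    simpa using h.neg
  -- `μ` with `σ μ - μ = z - Tr z / p`
  set μ : L := (p : L)⁻¹ * ∑ i ∈ Finset.range p, (i : L) * (σ ^ i) z with hμ
  have hinv : D.WGE (-c) ((p : L)⁻¹) := by
    rw [← map_natCast (algebraMap K L), ← map_inv₀, D.wge_algebraMap]
    exact (ordGE_p_inv D.v p).mono (by omega)
  have hμw : D.WGE (n - 2 * c) μ := by
    refine (hinv.mul D (OrdGE.sum fun i _ => ?_)).mono D (show n - 2 * c ≤ -c + (n - c) by omega)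
    simpa using (ordGE_natCast (v := D.w) i).mul (D.wge_conj (σ ^ i) hzw)
  have hσμ : σ μ - μ = z - (p : L)⁻¹ * ∑ g : L ≃ₐ[K] L, g z := by
    rw [hμ, map_mul, map_inv₀, map_natCast, map_sum, ← Fintype.sum_bijective _ hgen
      (fun i : Fin p => (σ ^ (i : ℕ)) z) (fun g => g z) (fun i => rfl),
      Fin.sum_univ_eq_sum_range fun i => (σ ^ i) z]
    have e : ∀ i : ℕ, σ ((i : L) * (σ ^ i) z) = (i : L) * (σ ^ (i + 1)) z := fun i => by
      rw [map_mul, map_natCast, pow_succ', AlgEquiv.mul_apply]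
    simp only [e]
    have t1 := Finset.sum_range_succ' (fun i : ℕ => (i : L) * (σ ^ i) z) p
    rw [Finset.sum_range_succ, hσp] at t1
    simp only [Nat.cast_zero, zero_mul, add_zero, Nat.cast_succ, add_mul, one_mul,
      Finset.sum_add_distrib, AlgEquiv.one_apply] at t1
    have t2 := Finset.sum_range_succ' (fun i : ℕ => (σ ^ i) z) p
    rw [Finset.sum_range_succ, hσp, pow_zero] at t2
    have t3 := add_right_cancel t2
    rw [← t3] at t1
    have hp0 : (p : L) ≠ 0 := Nat.cast_ne_zero.2 hp.out.ne_zero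
    field_simp
    linear_combination -t1
  obtain ⟨u, hu, huv⟩ := exists_unit_of_ordGE D.w (n := p * (n - 2 * c).toNat)
    (Nat.mul_pos hp.out.pos (by omega)) (z := μ) (by
      rw [WGE] at hμw
      push_cast
      rw [Int.toNat_of_nonneg (by omega)]
      exact hμw)
  set Z' : Lˣ := Z / u with hZ'
  have hZ'1 : ord D.w Z' = 1 := by rw [hZ', ord_div, hZ1, hu.1, sub_zero]
  have hstep : D.WGE (2 * n - 4 * c) (σ (Z' : L) - Z') := by
    have e : σ (Z' : L) - Z' = (Z' : L) * ((conjU σ u)⁻¹ : Lˣ) *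
        ((p : L)⁻¹ * (∑ g : L ≃ₐ[K] L, g z) + z * μ) := by
      have hq' : σ (Z : L) = (q : L) * Z := by
        rw [hq, Units.val_div_eq_div_val (conjU σ Z) Z, coe_conjU, div_mul_cancel₀ _ Z.ne_zero]
      rw [hZ', Units.val_div_eq_div_val, map_div₀, hq', huv, Units.val_inv_eq_inv_val, coe_conjU,
        huv, map_add, map_one, show (q : L) = 1 + z by rw [hzdef]; ring]
      have h3 : (1 : L) + μ ≠ 0 := by rw [← huv]; exact u.ne_zero
      have h4 : (1 : L) + σ μ ≠ 0 := by
        rw [show (1 : L) + σ μ = σ (1 + μ) by simp]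
        exact (map_ne_zero _).2 h3
      field_simp
      linear_combination -hσμ
    rw [e]
    have hA : D.WGE 0 ((Z' : L) * ((conjU σ u)⁻¹ : Lˣ)) := by
      rw [WGE, mul_zero, ← Units.val_mul, ordGE_iff, ord_mul, hZ'1, ord_inv, D.ord_conjU, hu.1]
      omega
    have hB : D.WGE (2 * n - 4 * c) ((p : L)⁻¹ * (∑ g : L ≃ₐ[K] L, g z) + z * μ) :=
      OrdGE.add ((hinv.mul D hTz).mono D (by omega)) ((hzw.mul D hμw).mono D (by omega))
    simpa [WGE] using hA.mul D hB
  have hfix : ∀ g : L ≃ₐ[K] L, D.WGE (2 * n - 4 * c) (g (Z' : L) - Z') := by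
    intro g
    obtain ⟨i, rfl⟩ := hgen.2 g
    show D.WGE _ ((σ ^ (i : ℕ)) (Z' : L) - Z')
    induction (i : ℕ) with
    | zero => rw [pow_zero, AlgEquiv.one_apply, sub_self]; exact ordGE_zero _
    | succ j ih =>
      rw [pow_succ', AlgEquiv.mul_apply, ← sub_add_sub_cancel _ (σ (Z' : L)), ← map_sub]
      exact OrdGE.add (D.wge_conj σ ih) hstep
  have hsum : D.WGE (2 * n - 4 * c)
      (algebraMap K L (Algebra.trace K L (Z' : L)) - (p : L) * Z') := by
    rw [trace_eq_sum_automorphisms, show (p : L) * (Z' : L) = ∑ _g : L ≃ₐ[K] L, (Z' : L) by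
      rw [Finset.sum_const, Finset.card_univ, ← Nat.card_eq_fintype_card, hcard, nsmul_eq_mul],
      ← Finset.sum_sub_distrib]
    exact OrdGE.sum fun g _ => hfix g
  set pL : Lˣ := baseU K L (pUnit p K) with hpL
  have hpLv : (pL : L) = p := by rw [hpL, coe_baseU]; exact map_natCast _ p
  have hval : D.w.valuation L (algebraMap K L (Algebra.trace K L (Z' : L))) =
      exp (-((p : ℤ) * absRam D.v p + 1)) := by
    have e : ((pL * Z' : Lˣ) : L) = (p : L) * Z' := by rw [Units.val_mul, hpLv]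
    have hv : ord D.w (pL * Z') = (p : ℤ) * absRam D.v p + 1 := by
      rw [ord_mul, hpL, ord_baseU, D.ram_eq, hZ'1, ← absRam_eq]
    rw [← hv, ← valuation_eq_exp, e]
    refine Valuation.map_eq_of_sub_lt _ (lt_of_le_of_lt hsum ?_)
    rw [← e, valuation_eq_exp, hv, exp_lt_exp]
    have : (2 : ℤ) ≤ p := by exact_mod_cast hp.out.two_le
    nlinarith
  have hT0 : Algebra.trace K L (Z' : L) ≠ 0 := fun h => by
    rw [h, map_zero, map_zero] at hval
    exact exp_ne_zero hval.symm
  rw [← Units.val_mk0 hT0, ← coe_baseU, valuation_eq_exp, exp_inj, neg_inj, ord_baseU,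
    D.ram_eq] at hval
  have hdvd : (p : ℤ) ∣ 1 := ⟨ord D.v (Units.mk0 _ hT0) - absRam D.v p, by linarith⟩
  have := Int.le_of_dvd one_pos hdvd
  have := hp.out.two_le
  omega

/-- Some unit of the field below is not a local norm. -/
theorem exists_unit_notMem_locNorm : ∃ a : Kˣ, ord D.v a = 0 ∧ a ∉ locNorm L D.v := by
  classical
  by_contra hall
  push Not at hall
  obtain ⟨c, hc0, hce, hθ, h1, h2⟩ := D.exists_bound
  set n : ℤ := 12 * c + 12 with hn
  have hn3 : 3 * c ≤ n := by omega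
  set C := D.coGroup h1 h2 n hn3 with hC
  set G₀ := congr D.w 0
  have hCG : C ≤ G₀ := fun x hx => (mem_congr_zero _).2 hx.1
  -- finiteness
  have hcongr : congr D.w (p * (n + c).toNat) ≤ C := fun x hx => ⟨hx.1, fun g => by
    have : D.WGE (n + c) ((x : L) - 1) := by
      rw [WGE]
      refine hx.2.mono (le_of_eq ?_)
      push_cast
      rw [Int.toNat_of_nonneg (by omega)]
    exact (h1 _ _ this g).mono (by omega)⟩
  have hfin : (C.subgroupOf G₀).index ≠ 0 := fun h => congr_relIndex_ne_zero D.w _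
    (Subgroup.relIndex_eq_zero_of_le_left hcongr h)
  have : Finite (G₀ ⧸ C.subgroupOf G₀) := Nat.finite_of_card_ne_zero hfin
  -- a generator
  obtain ⟨σ, hσ⟩ := exists_aut_ne_one (K := K) (L := L) D.deg
  have hgen := bijective_pow (K := K) (L := L) D.deg hσ
  have hσp : σ ^ p = 1 := by rw [← orderOf_aut D.deg hσ]; exact pow_orderOf_eq_one σ
  -- the two endomorphisms
  let δ₀ : G₀ →* G₀ := MonoidHom.mk' (fun x => ⟨conjU σ (x : Lˣ) / x, div_mem ((mem_congr_zero _).2
      ((D.ord_conjU σ _).trans x.2.1)) x.2⟩)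
    fun x y => Subtype.ext (by simp [mul_div_mul_comm])
  let N₀ : G₀ →* G₀ := MonoidHom.mk' (fun x => ⟨∏ g : L ≃ₐ[K] L, conjU g (x : Lˣ),
      prod_mem fun g _ => (mem_congr_zero _).2 ((D.ord_conjU g _).trans x.2.1)⟩)
    fun x y => Subtype.ext (by simp [Finset.prod_mul_distrib])
  have hconjC : ∀ (g : L ≃ₐ[K] L) (x : Lˣ), x ∈ C → conjU g x ∈ C := fun g x hx =>
    ⟨(D.ord_conjU g x).trans hx.1,
      by rw [coe_conjU, ← map_one g, ← map_sub]; exact D.co_conj g hx.2⟩
  let C' := C.subgroupOf G₀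
  let δ : G₀ ⧸ C' →* G₀ ⧸ C' := QuotientGroup.map C' C' δ₀ fun x hx =>
    div_mem (hconjC σ _ hx) hx
  let Nm : G₀ ⧸ C' →* G₀ ⧸ C' := QuotientGroup.map C' C' N₀ fun x hx =>
    prod_mem fun g _ => hconjC g _ hx
  -- fixed classes are norms
  have hle : δ.ker ≤ Nm.range := by
    intro z hz
    obtain ⟨x, rfl⟩ := QuotientGroup.mk_surjective z
    rw [MonoidHom.mem_ker, QuotientGroup.map_mk, QuotientGroup.eq_one_iff] at hz
    have hz' : conjU σ (x : Lˣ) / x ∈ C := hz
    have hall' : ∀ g : L ≃ₐ[K] L, conjU g (x : Lˣ) / x ∈ C := by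
      intro g
      obtain ⟨i, rfl⟩ := hgen.2 g
      show conjU (σ ^ (i : ℕ)) (x : Lˣ) / x ∈ C
      induction (i : ℕ) with
      | zero => rw [pow_zero, conjU_one, div_self']; exact one_mem _
      | succ j ih =>
        rw [pow_succ', conjU_mul, ← div_mul_div_cancel _ (conjU σ (x : Lˣ)), ← map_div]
        exact mul_mem (hconjC σ _ ih) hz'
    obtain ⟨y, hy, hyC⟩ := D.exists_prod_conjU_inv_mul_mem hall hc0 hce hθ h1 h2 hn hn3 x.2.1 hall'
    exact ⟨QuotientGroup.mk ⟨y, (mem_congr_zero _).2 hy⟩, QuotientGroup.eq.2 hyC⟩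
  -- hence norm-one classes are coboundaries
  have hNδ : δ.range ≤ Nm.ker := by
    rintro _ ⟨z, rfl⟩
    obtain ⟨x, rfl⟩ := QuotientGroup.mk_surjective z
    rw [MonoidHom.mem_ker, QuotientGroup.map_mk, QuotientGroup.map_mk, QuotientGroup.eq_one_iff,
      Subgroup.mem_subgroupOf]
    show ∏ g : L ≃ₐ[K] L, conjU g (conjU σ (x : Lˣ) / x) ∈ C
    exact (prod_conjU_conjU_div σ (x : Lˣ)).symm ▸ one_mem _
  have heq : δ.range = Nm.ker := by
    have e1 := Subgroup.card_mul_index δ.ker
    have e2 := Subgroup.card_mul_index Nm.ker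
    rw [Subgroup.index_ker] at e1 e2
    have e3 : Nat.card δ.ker ≤ Nat.card Nm.range := Subgroup.card_le_of_le hle
    refine Subgroup.eq_of_le_of_card_ge hNδ ?_
    have hpos : 0 < Nat.card Nm.range := Nat.card_pos
    nlinarith
  -- a uniformiser
  obtain ⟨P, hP⟩ := exists_ord_eq D.w 1
  have hu0 : ord D.w (conjU σ P / P) = 0 := by rw [ord_div, D.ord_conjU, sub_self]
  have hker : QuotientGroup.mk' C' ⟨conjU σ P / P, (mem_congr_zero _).2 hu0⟩ ∈ Nm.ker := by
    rw [MonoidHom.mem_ker, QuotientGroup.mk'_apply, QuotientGroup.map_mk, QuotientGroup.eq_one_iff,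
      Subgroup.mem_subgroupOf]
    show ∏ g : L ≃ₐ[K] L, conjU g (conjU σ P / P) ∈ C
    exact (prod_conjU_conjU_div σ P).symm ▸ one_mem _
  rw [← heq] at hker
  obtain ⟨z, hz⟩ := hker
  obtain ⟨y, rfl⟩ := QuotientGroup.mk_surjective z
  rw [QuotientGroup.mk'_apply, QuotientGroup.map_mk, QuotientGroup.eq,
    Subgroup.mem_subgroupOf] at hz
  have hz' : (conjU σ (y : Lˣ) / y)⁻¹ * (conjU σ P / P) ∈ C := hz
  refine D.conjU_div_notMem hc0 hce h1 h2 hn hn3 hgen hσp (Z := P / (y : Lˣ))
    (by rw [ord_div, hP, y.2.1, sub_zero]) ?_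
  rw [map_div, div_div_div_comm, ← inv_mul_eq_div]
  exact hz'

end Lat

end Fermat.Agent.CFT
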