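import Mathlib.FieldTheory.Finite.GaloisField
import Mathlib.FieldTheory.Finite.Trace
import Mathlib.RingTheory.Frobenius
import Fermat.Agent.CFT.Lattice

/-!
# Local norms in degree `p`: the norm subgroup is proper at a prime with one prime above it

With one prime above, the local norms form a proper subgroup of index at least `p`; at an
unramified prime away from `p` they are the elements of order divisible by `p`.
-/

noncomputable section

namespace Fermat.Agent.CFT

open NumberField IsDedekindDomain WithZero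
open scoped Pointwise

variable {K L : Type} [Field K] [NumberField K] [Field L] [NumberField L] [Algebra K L]
  [IsGalois K L] {p : ℕ} [hp : Fact p.Prime]

theorem absRam_eq_zero {v : HeightOneSpectrum (𝓞 K)} (hv : (p : 𝓞 K) ∉ v.asIdeal) :
    absRam v p = 0 := by
  by_contra h
  refine hv ?_
  have h1 : OrdGE v ((1 : ℕ) : ℤ) (algebraMap (𝓞 K) K (p : 𝓞 K)) := by
    rw [map_natCast]
    exact (ordGE_p v p).mono (by omega)
  rw [ordGE_algebraMap_iff, pow_one] at h1
  exact h1

omit [IsGalois K L] [NumberField L] in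
theorem ord_eq_ord_normU_of_div_mem_congr (v : HeightOneSpectrum (𝓞 K)) {x : Kˣ} {y : Lˣ}
    (h : x / normU K L y ∈ congr v 0) : ord v x = ord v (normU K L y) := by
  have := h.1
  rw [ord_div] at this
  omega

omit hp in
/-- With one unramified prime above, local norms have order divisible by `p`. -/
theorem dvd_ord_of_mem_locNorm (hdeg : Module.finrank K L = p) {v : HeightOneSpectrum (𝓞 K)}
    (hv : ¬ IsSplit L v) {w : HeightOneSpectrum (𝓞 L)} (hw : below K w = v) (hram : ram K w = 1)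
    {x : Kˣ} (hx : x ∈ locNorm L v) : (p : ℤ) ∣ ord v x := by
  obtain ⟨y, hy⟩ := mem_locNorm.1 hx 0
  have h := ord_normU_of_not_split hdeg hv hw y
  rw [hram, Nat.cast_one, one_mul] at h
  exact ⟨ord w y, by rw [ord_eq_ord_normU_of_div_mem_congr v hy, h]⟩

/-- With one prime above, the local norms form a proper subgroup. -/
theorem locNorm_ne_top (hdeg : Module.finrank K L = p) {v : HeightOneSpectrum (𝓞 K)}
    (hv : ¬ IsSplit L v) : locNorm L v ≠ ⊤ := by
  obtain ⟨w, hw⟩ := exists_below_eq (L := L) v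
  intro htop
  rcases ram_eq_one_or hdeg w with h | h
  · obtain ⟨x, hx⟩ := exists_ord_eq v 1
    have := dvd_ord_of_mem_locNorm hdeg hv hw h (x := x) (htop ▸ Subgroup.mem_top x)
    rw [hx] at this
    have := Int.le_of_dvd one_pos this
    have := hp.out.two_le
    omega
  · let D : Lat K L p := ⟨w, smulP_eq_self_of_not_split hv hw, h, hdeg⟩
    obtain ⟨a, -, ha⟩ := D.exists_unit_notMem_locNorm
    have e : D.v = v := hw
    rw [e] at ha
    exact ha (htop ▸ Subgroup.mem_top a)

omit [IsGalois K L] in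
theorem locNorm_index_ne_zero (hdeg : Module.finrank K L = p) {ζ : K}
    (hζ : IsPrimitiveRoot ζ p) (v : HeightOneSpectrum (𝓞 K)) : (locNorm L v).index ≠ 0 :=
  fun h => (locPow_index_le v p hζ).1 (by
    have := Subgroup.index_dvd_of_le (locPow_le_locNorm hdeg v)
    rwa [h, zero_dvd_iff] at this)

omit [IsGalois K L] in
/-- A proper subgroup containing all `p`-th powers has index at least `p`. -/
theorem le_index_of_pow_mem {G : Type} [CommGroup G] {H : Subgroup G} (hH : H ≠ ⊤)
    (h0 : H.index ≠ 0) (hpow : ∀ x : G, x ^ p ∈ H) : p ≤ H.index := by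
  obtain ⟨x, hx⟩ : ∃ x, x ∉ H := by
    by_contra h
    push Not at h
    exact hH (eq_top_iff.2 fun x _ => h x)
  have : Finite (G ⧸ H) := Nat.finite_of_card_ne_zero h0
  have h1 : orderOf (x : G ⧸ H) = p := orderOf_eq_prime
    (by rw [← QuotientGroup.mk_pow, QuotientGroup.eq_one_iff]; exact hpow x)
    (by rwa [Ne, QuotientGroup.eq_one_iff])
  refine Nat.le_of_dvd (Nat.pos_of_ne_zero h0) ?_
  rw [← h1]
  exact orderOf_dvd_natCard (x : G ⧸ H)

theorem le_locNorm_index (hdeg : Module.finrank K L = p) {ζ : K} (hζ : IsPrimitiveRoot ζ p)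
    {v : HeightOneSpectrum (𝓞 K)} (hv : ¬ IsSplit L v) : p ≤ (locNorm L v).index :=
  le_index_of_pow_mem (locNorm_ne_top hdeg hv) (locNorm_index_ne_zero hdeg hζ v)
    (pow_mem_locNorm hdeg v)

/-- At an unramified prime away from `p`, every unit is a norm modulo the prime. -/
theorem exists_norm_congr_one (hdeg : Module.finrank K L = p) {v : HeightOneSpectrum (𝓞 K)}
    (hv : ¬ IsSplit L v) {w : HeightOneSpectrum (𝓞 L)} (hw : below K w = v) (hram : ram K w = 1)
    {x : Kˣ} (hx : ord v x = 0) : ∃ y : Lˣ, x / normU K L y ∈ congr v 1 := by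
  subst hw
  classical
  set v := below K w with hv'
  have : v.asIdeal.IsMaximal := v.isMaximal
  have : w.asIdeal.IsMaximal := w.isMaximal
  have : Finite (𝓞 K ⧸ v.asIdeal) := Ring.HasFiniteQuotients.finiteQuotient v.ne_bot
  have : Finite (𝓞 L ⧸ w.asIdeal) := Ring.HasFiniteQuotients.finiteQuotient w.ne_bot
  let _ := Ideal.Quotient.field v.asIdeal
  let _ := Ideal.Quotient.field w.asIdeal
  let _ := Fintype.ofFinite (𝓞 K ⧸ v.asIdeal)
  set q := Nat.card (𝓞 K ⧸ v.asIdeal) with hq
  have hqc : q = Fintype.card (𝓞 K ⧸ v.asIdeal) := Nat.card_eq_fintype_card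
  obtain ⟨g, hg⟩ : ∃ g : L ≃ₐ[K] L, ∀ a : 𝓞 L,
      Ideal.Quotient.mk w.asIdeal (g • a) = Ideal.Quotient.mk w.asIdeal a ^ q := by
    obtain ⟨g, hg⟩ := IsArithFrobAt.exists_of_isInvariant (𝓞 K) (L ≃ₐ[K] L) w.asIdeal
    exact ⟨g, fun a => AlgHom.IsArithFrobAt.mk_apply hg a⟩
  have hgi : ∀ (i : ℕ) (a : 𝓞 L),
      Ideal.Quotient.mk w.asIdeal ((g ^ i) • a) = Ideal.Quotient.mk w.asIdeal a ^ q ^ i := by
    intro i
    induction i with
    | zero => simp
    | succ i ih =>
      intro a
      rw [pow_succ', mul_smul, hg, ih, ← pow_mul, ← pow_succ]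
  have hcard : Nat.card (L ≃ₐ[K] L) = p := (IsGalois.card_aut_eq_finrank K L).trans hdeg
  set f := Module.finrank (𝓞 K ⧸ v.asIdeal) (𝓞 L ⧸ w.asIdeal) with hf
  have hf1 : f ≠ 1 := by
    intro h1
    have hsurj : ∀ a : 𝓞 L, ∃ b : 𝓞 K,
        Ideal.Quotient.mk w.asIdeal a = Ideal.Quotient.mk w.asIdeal (algebraMap _ _ b) :=
          fun a => by
      obtain ⟨c, hc⟩ := (Algebra.finrank_eq_one_iff_bijective_algebraMap.1 h1).2
        (Ideal.Quotient.mk w.asIdeal a)
      obtain ⟨b, rfl⟩ := Ideal.Quotient.mk_surjective c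
      exact ⟨b, hc.symm⟩
    have hI : w.asIdeal.inertia (L ≃ₐ[K] L) = ⊤ := by
      refine eq_top_iff.2 fun σ _ => fun a => ?_
      show σ • a - a ∈ w.asIdeal
      obtain ⟨b, hb⟩ := hsurj a
      have hb' := Ideal.Quotient.eq.1 hb
      have e : σ • algebraMap (𝓞 K) (𝓞 L) b = algebraMap (𝓞 K) (𝓞 L) b :=
        RingOfIntegers.coe_injective (σ.commutes (b : K))
      have e2 : σ • (a - algebraMap (𝓞 K) (𝓞 L) b) ∈ w.asIdeal := by
        have hs := congrArg HeightOneSpectrum.asIdeal (smulP_eq_self_of_not_split hv rfl σ)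
        rw [← hs]
        exact Ideal.smul_mem_pointwise_smul σ _ _ hb'
      have := sub_mem e2 hb'
      rw [smul_sub, e] at this
      simpa using this
    have := ram_eq_card_inertia (K := K) w
    rw [hram, hI, Subgroup.card_top, hcard] at this
    exact hp.out.one_lt.ne this
  have hfp : f = p := by
    have hpow : g ^ p = 1 := hcard ▸ pow_card_eq_one'
    have h1 : FiniteField.frobeniusAlgHom (𝓞 K ⧸ v.asIdeal) (𝓞 L ⧸ w.asIdeal) ^ p = 1 := by
      refine AlgHom.ext fun z => ?_
      obtain ⟨a, rfl⟩ := Ideal.Quotient.mk_surjective z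
      rw [AlgHom.coe_pow, FiniteField.coe_frobeniusAlgHom, pow_iterate, ← hqc, AlgHom.one_apply]
      have := hgi p a
      rw [hpow, one_smul] at this
      exact this.symm
    have h2 := orderOf_dvd_of_pow_eq_one h1
    rw [FiniteField.orderOf_frobeniusAlgHom] at h2
    exact (hp.out.eq_one_or_self_of_dvd f h2).resolve_left hf1
  have hg1 : g ≠ 1 := fun h => by
    have h1 : FiniteField.frobeniusAlgHom (𝓞 K ⧸ v.asIdeal) (𝓞 L ⧸ w.asIdeal) = 1 := by
      refine AlgHom.ext fun z => ?_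
      obtain ⟨a, rfl⟩ := Ideal.Quotient.mk_surjective z
      rw [FiniteField.coe_frobeniusAlgHom, ← hqc]
      have := hg a
      rw [h, one_smul] at this
      exact this.symm
    have h2 := FiniteField.orderOf_frobeniusAlgHom (𝓞 K ⧸ v.asIdeal) (𝓞 L ⧸ w.asIdeal)
    rw [h1, orderOf_one] at h2
    exact hf1 h2.symm
  obtain ⟨b, hb⟩ := exists_residue v 1 hx
  have hb0 : Ideal.Quotient.mk v.asIdeal b ≠ 0 := fun h => by
    rw [Ideal.Quotient.eq_zero_iff_mem, ← pow_one v.asIdeal, ← ordGE_algebraMap_iff] at h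
    have h2 := hb.add h
    rw [sub_add_cancel, ordGE_iff, hx] at h2
    omega
  obtain ⟨ybar, hy⟩ := FiniteField.unitsMap_norm_surjective (𝓞 K ⧸ v.asIdeal) (𝓞 L ⧸ w.asIdeal)
    (Units.mk0 _ hb0)
  have hy' : Algebra.norm (𝓞 K ⧸ v.asIdeal) (ybar : 𝓞 L ⧸ w.asIdeal) =
      Ideal.Quotient.mk v.asIdeal b :=
    congrArg Units.val hy
  obtain ⟨a, ha⟩ := Ideal.Quotient.mk_surjective (ybar : 𝓞 L ⧸ w.asIdeal)
  have ha0 : (a : L) ≠ 0 := fun h => ybar.ne_zero (by
    rw [← ha, show a = 0 from RingOfIntegers.coe_injective (h.trans (map_zero _).symm), map_zero])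
  refine ⟨Units.mk0 _ ha0, ?_⟩
  have hprod : Ideal.Quotient.mk w.asIdeal (algebraMap (𝓞 K) (𝓞 L) (RingOfIntegers.norm K a)) =
      algebraMap (𝓞 K ⧸ v.asIdeal) (𝓞 L ⧸ w.asIdeal) (Ideal.Quotient.mk v.asIdeal b) := by
    have hgen := bijective_pow (K := K) (L := L) hdeg hg1
    have e : algebraMap (𝓞 K) (𝓞 L) (RingOfIntegers.norm K a) = ∏ σ : L ≃ₐ[K] L, σ • a := by
      refine RingOfIntegers.coe_injective ?_
      rw [map_prod]
      exact Algebra.norm_eq_prod_automorphisms K (a : L)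
    rw [← hy', FiniteField.algebraMap_norm_eq_prod_pow, ← hf, hfp, e,
      ← Fintype.prod_bijective _ hgen (fun i : Fin p => (g ^ (i : ℕ)) • a) (fun σ => σ • a)
        (fun i => rfl), map_prod, ← Fin.prod_univ_eq_prod_range, ← hq]
    exact Finset.prod_congr rfl fun i _ => by rw [hgi, ha]
  have hnorm : OrdGE v ((1 : ℕ) : ℤ) ((x : K) - normU K L (Units.mk0 _ ha0)) := by
    have h2 : RingOfIntegers.norm K a - b ∈ v.asIdeal := by
      rw [← Ideal.Quotient.eq]
      exact (algebraMap (𝓞 K ⧸ v.asIdeal) (𝓞 L ⧸ w.asIdeal)).injective hprod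
    rw [← pow_one v.asIdeal, ← ordGE_algebraMap_iff, map_sub] at h2
    have := hb.sub h2
    convert this using 1
    show _ = _
    rw [coe_normU, Units.val_mk0, ← RingOfIntegers.coe_norm K a]
    ring
  refine div_mem_congr v one_pos ?_
  have h0 : ord v (normU K L (Units.mk0 _ ha0)) = 0 := by
    rw [ord_add_eq v (normU K L (Units.mk0 _ ha0)) (x := (x : K))
      (y := -((x : K) - normU K L (Units.mk0 _ ha0))) (by ring) x rfl
      (by rw [hx]; exact hnorm.neg.mono (by norm_num)), hx]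
  rw [h0, zero_add]
  exact hnorm

/-- Units are local norms at unramified primes away from `p`. -/
theorem mem_locNorm_of_ord_eq_zero (hdeg : Module.finrank K L = p) {v : HeightOneSpectrum (𝓞 K)}
    (hvp : (p : 𝓞 K) ∉ v.asIdeal) {w : HeightOneSpectrum (𝓞 L)} (hw : below K w = v)
    (hram : ram K w = 1) {x : Kˣ} (hx : ord v x = 0) : x ∈ locNorm L v := by
  by_cases hv : IsSplit L v
  · rw [locNorm_eq_top_of_split hdeg hv]; trivial
  obtain ⟨y, hy⟩ := exists_norm_congr_one hdeg hv hw hram hx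
  have h1 : x / normU K L y ∈ locNorm L v := by
    refine locPow_le_locNorm hdeg v (congr_le_locPow v p ?_)
    rw [absRam_eq_zero hvp]
    exact hy
  simpa using mul_mem h1 (normU_mem_locNorm v y)

/-- The local norms at an unramified prime away from `p` with one prime above. -/
theorem mem_locNorm_iff_dvd (hdeg : Module.finrank K L = p) {v : HeightOneSpectrum (𝓞 K)}
    (hvp : (p : 𝓞 K) ∉ v.asIdeal) (hv : ¬ IsSplit L v) {w : HeightOneSpectrum (𝓞 L)}
    (hw : below K w = v) (hram : ram K w = 1) {x : Kˣ} :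
    x ∈ locNorm L v ↔ (p : ℤ) ∣ ord v x := by
  refine ⟨dvd_ord_of_mem_locNorm hdeg hv hw hram, ?_⟩
  rintro ⟨k, hk⟩
  obtain ⟨z, hz⟩ := exists_ord_eq v k
  have h : x / z ^ p ∈ locNorm L v :=
    mem_locNorm_of_ord_eq_zero hdeg hvp hw hram (by rw [ord_div, ord_pow, hz, hk, sub_self])
  simpa using mul_mem h (pow_mem_locNorm hdeg v z)

end Fermat.Agent.CFT
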