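import Mathlib.FieldTheory.KummerExtension
import Mathlib.NumberTheory.NumberField.InfinitePlace.TotallyRealComplex
import Fermat.Agent.CFT.LocalNorm

/-!
# Radical extensions of degree `p`

A Galois extension of degree `p` of a field with `μ_p` is generated by a `p`-th root `r` of some
`a`; splitting and ramification of a prime are read off from `a`, and `-a` is a norm.
-/

noncomputable section

namespace Fermat.Agent.CFT

open NumberField IsDedekindDomain WithZero
open scoped Pointwise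

/-- `L` is the degree `p` extension of `K` by a `p`-th root of `a`. -/
structure IsRad {K : Type} [Field K] (L : Type) [Field L] [Algebra K L] (p : ℕ) (a : Kˣ) :
    Prop where
  deg : Module.finrank K L = p
  root : ∃ r : Lˣ, (r : L) ^ p = algebraMap K L (a : K)
  notPow : ∀ y : Kˣ, y ^ p ≠ a

section RadField

variable (K : Type) [Field K] (p : ℕ) (a : Kˣ)

/-- The field obtained by adding the roots of `X ^ p - a`. -/
abbrev RadField : Type := (Polynomial.X ^ p - Polynomial.C (a : K)).SplittingField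

instance numberField_radField [NumberField K] : NumberField (RadField K p a) :=
  NumberField.of_module_finite K _

variable {K p a} [hp : Fact p.Prime]

theorem irreducible_of_notPow (ha : ∀ y : Kˣ, y ^ p ≠ a) :
    Irreducible (Polynomial.X ^ p - Polynomial.C (a : K)) := by
  refine X_pow_sub_C_irreducible_of_prime hp.out fun b hb => ?_
  have hb0 : b ≠ 0 := fun h => a.ne_zero (by rw [← hb, h, zero_pow hp.out.ne_zero])
  exact ha (Units.mk0 b hb0) (Units.ext (by simpa using hb))

theorem isGalois_radField {ζ : K} (hζ : IsPrimitiveRoot ζ p) (ha : ∀ y : Kˣ, y ^ p ≠ a) :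
    IsGalois K (RadField K p a) :=
  isGalois_of_isSplittingField_X_pow_sub_C
    ⟨ζ, (mem_primitiveRoots hp.out.pos).2 hζ⟩ (irreducible_of_notPow ha) _

theorem isRad_radField {ζ : K} (hζ : IsPrimitiveRoot ζ p) (ha : ∀ y : Kˣ, y ^ p ≠ a) :
    IsRad (RadField K p a) p a := by
  have hdeg : Module.finrank K (RadField K p a) = p := finrank_of_isSplittingField_X_pow_sub_C
    ⟨ζ, (mem_primitiveRoots hp.out.pos).2 hζ⟩ (irreducible_of_notPow ha) _
  refine ⟨hdeg, ?_, ha⟩
  have hne : (Polynomial.X ^ p - Polynomial.C (a : K)).degree ≠ 0 := by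
    rw [Polynomial.degree_X_pow_sub_C hp.out.pos]
    exact_mod_cast hp.out.ne_zero
  obtain ⟨r, hr⟩ := (Polynomial.SplittingField.splits
    (Polynomial.X ^ p - Polynomial.C (a : K))).exists_eval_eq_zero (by rwa [Polynomial.degree_map])
  simp only [Polynomial.map_sub, Polynomial.map_pow, Polynomial.map_X, Polynomial.map_C,
    Polynomial.eval_sub, Polynomial.eval_pow, Polynomial.eval_X, Polynomial.eval_C,
    sub_eq_zero] at hr
  have hr0 : r ≠ 0 := fun h => a.ne_zero ((map_eq_zero_iff _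
    (algebraMap K (RadField K p a)).injective).1 (by rw [← hr, h, zero_pow hp.out.ne_zero]))
  exact ⟨Units.mk0 r hr0, hr⟩

end RadField

variable {K L : Type} [Field K] [Field L] [Algebra K L] [FiniteDimensional K L] [IsGalois K L]
  {p : ℕ} [hp : Fact p.Prime] {ζ : K}

/-- A degree `p` Galois extension of a field with the `p`-th roots of unity is radical. -/
theorem exists_isRad (hζ : IsPrimitiveRoot ζ p) (hdeg : Module.finrank K L = p) :
    ∃ a : Kˣ, IsRad L p a := by
  have : IsCyclic (L ≃ₐ[K] L) :=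
    isCyclic_of_prime_card ((IsGalois.card_aut_eq_finrank K L).trans hdeg)
  obtain ⟨α, ⟨a, ha⟩, hα⟩ := exists_root_adjoin_eq_top_of_isCyclic K L
    (by rw [hdeg]; exact ⟨ζ, (mem_primitiveRoots hp.out.pos).2 hζ⟩)
  have hirr := irreducible_X_pow_sub_C_of_root_adjoin_eq_top ha.symm hα
  rw [hdeg] at hirr ha
  have ha0 : a ≠ 0 := fun h =>
    pow_ne_of_irreducible_X_pow_sub_C hirr dvd_rfl hp.out.one_lt.ne' 0
      (by rw [h, zero_pow hp.out.ne_zero])
  have hα0 : α ≠ 0 := fun h => ha0 ((map_eq_zero_iff _ (algebraMap K L).injective).1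
    (by rw [ha, h, zero_pow hp.out.ne_zero]))
  refine ⟨Units.mk0 a ha0, hdeg, ⟨Units.mk0 α hα0, ha.symm⟩, fun y hy => ?_⟩
  exact pow_ne_of_irreducible_X_pow_sub_C hirr dvd_rfl hp.out.one_lt.ne' (y : K)
    (congrArg Units.val hy)

namespace IsRad

variable {a : Kˣ}

/-- A non-trivial automorphism multiplies the root by a primitive `p`-th root of unity. -/
theorem isPrimitiveRoot_conj (h : IsRad L p a) {r : Lˣ}
    (hr : (r : L) ^ p = algebraMap K L (a : K)) {g : L ≃ₐ[K] L} (hg : g ≠ 1) :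
    IsPrimitiveRoot (g (r : L) / r) p := by
  have hpow : (g (r : L) / r) ^ p = 1 := by
    rw [div_pow, ← map_pow, hr, g.commutes, div_self ((map_ne_zero _).2 a.ne_zero)]
  refine IsPrimitiveRoot.iff_orderOf.2 (orderOf_eq_prime hpow fun h1 => ?_)
  rw [div_eq_one_iff_eq r.ne_zero] at h1
  have hfix : ∀ σ : L ≃ₐ[K] L, σ (r : L) = r := fun σ => by
    obtain ⟨i, rfl⟩ := (bijective_pow h.deg hg).2 σ
    show (g ^ (i : ℕ)) (r : L) = r
    induction (i : ℕ) with
    | zero => rfl
    | succ j ih => rw [pow_succ', AlgEquiv.mul_apply, ih, h1]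
  obtain ⟨y, hy⟩ := (IsGalois.mem_range_algebraMap_iff_fixed (F := K) (r : L)).2 hfix
  have hy0 : y ≠ 0 := fun h0 => r.ne_zero (by rw [← hy, h0, map_zero])
  refine h.notPow (Units.mk0 y hy0) (Units.ext ((algebraMap K L).injective ?_))
  rw [Units.val_pow_eq_pow_val, Units.val_mk0, map_pow, hy, hr]

/-- An element becoming a power upstairs is, up to a power, a power of `a`. -/
theorem exists_eq_pow_mul (h : IsRad L p a) {x : Kˣ} {s : Lˣ}
    (hs : (s : L) ^ p = algebraMap K L (x : K)) :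
    ∃ (i : ℕ) (y : Kˣ), x = a ^ i * y ^ p := by
  obtain ⟨r, hr⟩ := h.root
  obtain ⟨g, hg⟩ := exists_aut_ne_one (K := K) (L := L) h.deg
  have hω := h.isPrimitiveRoot_conj hr hg
  have hs1 : (g (s : L) / s) ^ p = 1 := by
    rw [div_pow, ← map_pow, hs, g.commutes, div_self ((map_ne_zero _).2 x.ne_zero)]
  obtain ⟨i, -, hi⟩ := hω.eq_pow_of_pow_eq_one hs1
  have hg1 : g ((s : L) / (r : L) ^ i) = (s : L) / (r : L) ^ i := by
    rw [div_pow, eq_div_iff s.ne_zero] at hi
    rw [map_div₀, map_pow, div_eq_div_iff (pow_ne_zero _ ((map_ne_zero _).2 r.ne_zero))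
      (pow_ne_zero _ r.ne_zero), ← hi]
    field_simp
  have hfix : ∀ σ : L ≃ₐ[K] L, σ ((s : L) / (r : L) ^ i) = (s : L) / (r : L) ^ i := fun σ => by
    obtain ⟨j, rfl⟩ := (bijective_pow h.deg hg).2 σ
    show (g ^ (j : ℕ)) _ = _
    induction (j : ℕ) with
    | zero => rfl
    | succ k ih => rw [pow_succ', AlgEquiv.mul_apply, ih, hg1]
  obtain ⟨y, hy⟩ := (IsGalois.mem_range_algebraMap_iff_fixed (F := K) _).2 hfix
  have hy0 : y ≠ 0 := fun h0 => div_ne_zero s.ne_zero (pow_ne_zero i r.ne_zero)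
    (by rw [← hy, h0, map_zero])
  refine ⟨i, Units.mk0 y hy0, Units.ext ((algebraMap K L).injective ?_)⟩
  rw [Units.val_mul, Units.val_pow_eq_pow_val, Units.val_pow_eq_pow_val, Units.val_mk0, map_mul,
    map_pow, map_pow, hy, div_pow, hs, ← pow_mul, mul_comm i, pow_mul, hr,
    mul_div_cancel₀ _ (pow_ne_zero _ ((map_ne_zero _).2 a.ne_zero))]

/-- The norm of `c - r`. -/
theorem prod_conj_sub (hζ : IsPrimitiveRoot ζ p) (h : IsRad L p a) {r : Lˣ}
    (hr : (r : L) ^ p = algebraMap K L (a : K)) (c : K) :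
    ∏ g : L ≃ₐ[K] L, g (algebraMap K L c - r) = algebraMap K L (c ^ p - a) := by
  obtain ⟨g, hg⟩ := exists_aut_ne_one (K := K) (L := L) h.deg
  have hω := h.isPrimitiveRoot_conj hr hg
  have e := congrArg (Polynomial.eval (algebraMap K L c))
    (X_pow_sub_C_eq_prod hω hp.out.pos hr)
  simp only [Polynomial.eval_sub, Polynomial.eval_pow, Polynomial.eval_X, Polynomial.eval_C,
    Polynomial.eval_prod] at e
  have hgr : g (r : L) = g (r : L) / r * r := (div_mul_cancel₀ _ r.ne_zero).symm
  have hωK : g (g (r : L) / r) = g (r : L) / r := by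
    obtain ⟨j, -, hj⟩ := (hζ.map_of_injective (algebraMap K L).injective).eq_pow_of_pow_eq_one
      hω.pow_eq_one
    rw [← hj, map_pow, g.commutes]
  have hpow : ∀ i : ℕ, (g ^ i) (r : L) = (g (r : L) / r) ^ i * r := by
    intro i
    induction i with
    | zero => simp
    | succ j ih =>
      rw [pow_succ' g, AlgEquiv.mul_apply, ih, map_mul, map_pow, hωK,
        pow_succ (g (r : L) / r), mul_assoc, ← hgr]
  rw [map_sub, map_pow, e, ← Fin.prod_univ_eq_prod_range]
  refine (Fintype.prod_bijective _ (bijective_pow h.deg hg) _ _ fun i => ?_).symm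
  rw [map_sub, AlgEquiv.commutes, hpow]

end IsRad

section NumberField

variable {K L : Type} [Field K] [NumberField K] [Field L] [NumberField L] [Algebra K L]
  [IsGalois K L] {ζ : K} {a : Kˣ}

/-- `-a` is a norm from the field of a `p`-th root of `a`. -/
theorem IsRad.neg_mem_range_normU (hζ : IsPrimitiveRoot ζ p) (h : IsRad L p a) :
    -a ∈ (normU K L).range := by
  obtain ⟨r, hr⟩ := h.root
  refine ⟨-r, Units.ext ((algebraMap K L).injective ?_)⟩
  rw [coe_normU, Algebra.norm_eq_prod_automorphisms, Units.val_neg, Units.val_neg]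
  have e := h.prod_conj_sub hζ hr 0
  simpa [zero_pow hp.out.ne_zero] using e

omit [IsGalois K L] in
/-- Descending a congruence to an unramified prime below. -/
theorem mem_congr_of_baseU {w : HeightOneSpectrum (𝓞 L)} (hram : ram K w = 1) {n : ℕ} {x : Kˣ}
    (h : baseU K L x ∈ congr w n) : x ∈ congr (below K w) n := by
  refine ⟨?_, ?_⟩
  · have := h.1
    rw [ord_baseU, hram, Nat.cast_one, one_mul] at this
    exact this
  · rcases eq_or_ne (((x : Kˣ) : K) - 1) 0 with h0 | h0
    · rw [h0]; exact ordGE_zero _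
    · have h2 := h.2
      rw [coe_baseU, ← map_one (algebraMap K L), ← map_sub,
        show algebraMap K L ((x : K) - 1) = baseU K L (Units.mk0 _ h0) from rfl,
        ordGE_iff, ord_baseU, hram, Nat.cast_one, one_mul] at h2
      exact (ordGE_iff _ (Units.mk0 _ h0) _).2 h2

/-- At a split prime the field below is dense. -/
theorem exists_baseU_div_mem_congr (hdeg : Module.finrank K L = p)
    {v : HeightOneSpectrum (𝓞 K)} (hv : IsSplit L v) {w : HeightOneSpectrum (𝓞 L)}
    (hw : below K w = v) (z : Lˣ) (n : ℕ) : ∃ y : Kˣ, baseU K L y / z ∈ congr w n := by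
  classical
  let T : Finset (HeightOneSpectrum (𝓞 L)) := Finset.univ.image fun g : L ≃ₐ[K] L => smulP g w
  obtain ⟨y, hy⟩ := exists_approx T (fun w' => if w' = w then z else 1) (n + 1)
  refine ⟨normU K L y, congr_anti w (Nat.le_succ n) ?_⟩
  rw [baseU_normU, ← Finset.mul_prod_erase _ _ (Finset.mem_univ (1 : L ≃ₐ[K] L)),
    conjU_one, mul_div_right_comm]
  refine mul_mem ?_ (prod_mem fun g hg => ?_)
  · have h := hy w (Finset.mem_image.2 ⟨1, Finset.mem_univ _, smulP_one w⟩)
    simpa using h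
  · have hg1 : g⁻¹ ≠ 1 := fun h => (Finset.ne_of_mem_erase hg) (inv_eq_one.1 h)
    have hne : smulP g⁻¹ w ≠ w := fun h => hg1 (eq_one_of_smulP_eq hdeg hv hw h)
    have h := hy (smulP g⁻¹ w) (Finset.mem_image.2 ⟨g⁻¹, Finset.mem_univ _, rfl⟩)
    simp only [if_neg hne, div_one] at h
    exact conjU_mem_congr h

/-- Local powers descend at split primes. -/
theorem mem_locPow_of_baseU (hdeg : Module.finrank K L = p)
    {v : HeightOneSpectrum (𝓞 K)} (hv : IsSplit L v) {w : HeightOneSpectrum (𝓞 L)}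
    (hw : below K w = v) {x : Kˣ} (hx : baseU K L x ∈ locPow w p) : x ∈ locPow v p := by
  rw [mem_locPow] at hx ⊢
  intro n
  obtain ⟨z, hz⟩ := hx n
  obtain ⟨y, hy⟩ := exists_baseU_div_mem_congr hdeg hv hw z n
  refine ⟨y, ?_⟩
  rw [← hw]
  refine mem_congr_of_baseU (ram_eq_one_of_split hdeg hv hw) ?_
  have e : baseU K L (x / y ^ p) = baseU K L x / z ^ p / (baseU K L y / z) ^ p := by
    rw [map_div, map_pow, div_pow, div_div_div_cancel_right]
  rw [e]
  exact div_mem hz (pow_mem hy p)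

omit [IsGalois K L] hp in
theorem baseU_mem_locPow {v : HeightOneSpectrum (𝓞 K)} {w : HeightOneSpectrum (𝓞 L)}
    (hw : below K w = v) {x : Kˣ} (hx : x ∈ locPow v p) : baseU K L x ∈ locPow w p := by
  rw [mem_locPow] at hx ⊢
  intro n
  obtain ⟨y, hy⟩ := hx n
  refine ⟨baseU K L y, ?_⟩
  rw [← map_pow, ← map_div]
  refine ⟨by rw [ord_baseU, hw, hy.1, mul_zero], ?_⟩
  rw [coe_baseU, ← map_one (algebraMap K L), ← map_sub]
  refine (ordGE_baseU w (hw ▸ hy.2)).mono ?_
  have := ram_pos (K := K) w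
  nlinarith

/-- `a` is a local power at a split prime. -/
theorem IsRad.mem_locPow_of_split (h : IsRad L p a) {v : HeightOneSpectrum (𝓞 K)}
    (hv : IsSplit L v) : a ∈ locPow v p := by
  obtain ⟨r, hr⟩ := h.root
  obtain ⟨w, hw⟩ := exists_below_eq (L := L) v
  refine mem_locPow_of_baseU h.deg hv hw ?_
  rw [show baseU K L a = r ^ p from Units.ext (by rw [coe_baseU, Units.val_pow_eq_pow_val, hr])]
  exact pow_mem_locPow w p r

/-- A prime at which `a` is a local power splits. -/
theorem IsRad.split_of_mem_locPow (hζ : IsPrimitiveRoot ζ p) (h : IsRad L p a)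
    {v : HeightOneSpectrum (𝓞 K)} (ha : a ∈ locPow v p) : IsSplit L v := by
  by_contra hv
  obtain ⟨r, hr⟩ := h.root
  obtain ⟨w, hw⟩ := exists_below_eq (L := L) v
  obtain ⟨g, hg⟩ := exists_aut_ne_one (K := K) (L := L) h.deg
  have hω := h.isPrimitiveRoot_conj hr hg
  set ω : L := g (r : L) / r with hωdef
  have hω1 : ω - 1 ≠ 0 := sub_ne_zero.2 (hω.ne_one hp.out.one_lt)
  set N : ℕ := (p * ord w (Units.mk0 _ hω1)).toNat + 1 with hN
  obtain ⟨y, hy⟩ := (mem_locPow v p).1 ha N
  set r' : Lˣ := r / baseU K L y with hr'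
  have hr'p : (r' : L) ^ p = algebraMap K L (((a / y ^ p : Kˣ)) : K) := by
    rw [hr', Units.val_div_eq_div_val, div_pow, hr, coe_baseU, Units.val_div_eq_div_val,
      Units.val_pow_eq_pow_val, map_div₀, map_pow]
  have h' : IsRad L p (a / y ^ p) := ⟨h.deg, ⟨r', hr'p⟩, fun z hz => h.notPow (z * y)
    (by rw [mul_pow, hz, div_mul_cancel])⟩
  have hgr' : g (r' : L) = ω * r' := by
    rw [hr', Units.val_div_eq_div_val, map_div₀, coe_baseU, g.commutes, hωdef]
    field_simp
  have hX0 : (1 : L) - r' ≠ 0 := fun h0 => by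
    rw [sub_eq_zero] at h0
    rw [← h0, map_one, mul_one] at hgr'
    exact hω.ne_one hp.out.one_lt hgr'.symm
  set X := Units.mk0 _ hX0 with hX
  have hfix : ∀ σ : L ≃ₐ[K] L, smulP σ w = w := smulP_eq_self_of_not_split hv hw
  have hord : ∀ σ : L ≃ₐ[K] L, ord w (conjU σ X) = ord w X :=
    fun σ => ord_conjU_of_smulP_eq (hfix σ) X
  have hNX : ((normU K L X : Kˣ) : K) = 1 - ((a / y ^ p : Kˣ) : K) := by
    refine (algebraMap K L).injective ?_
    rw [coe_normU, Algebra.norm_eq_prod_automorphisms]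
    have e := h'.prod_conj_sub hζ hr'p 1
    rw [map_one, one_pow] at e
    exact e
  have h1 : (N : ℤ) ≤ ord v (normU K L X) := by
    rw [← ordGE_iff, hNX, ← neg_sub]
    exact hy.2.neg
  have h2 := ord_normU_of_not_split h.deg hv hw X
  have h3 : (N : ℤ) ≤ p * ord w X := by
    have := ram_pos (K := K) w
    nlinarith
  have hr'0 : ord w r' = 0 := by
    have e : r' ^ p = baseU K L (a / y ^ p) :=
      Units.ext (by rw [Units.val_pow_eq_pow_val, coe_baseU, hr'p])
    have := congrArg (ord w) e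
    rw [ord_pow, ord_baseU, hw, hy.1, mul_zero, mul_eq_zero] at this
    exact this.resolve_left (by exact_mod_cast hp.out.ne_zero)
  have h4 : ord w X ≤ ord w (Units.mk0 _ hω1) := by
    have hd : OrdGE w (ord w X) (((X : L) - conjU g X)) := by
      refine (ordGE_ord w X).sub ?_
      rw [ordGE_iff, hord]
    rw [hX, coe_conjU, Units.val_mk0, map_sub, map_one, hgr',
      show (1 : L) - r' - (1 - ω * r') = (ω - 1) * r' by ring,
      show (ω - 1) * (r' : L) = ((Units.mk0 _ hω1 * r' : Lˣ) : L) by simp, ← hX, ordGE_iff,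
      ord_mul, hr'0, add_zero] at hd
    exact hd
  have h5 := Int.self_le_toNat ((p : ℤ) * ord w (Units.mk0 _ hω1))
  have : (2 : ℤ) ≤ p := by exact_mod_cast hp.out.two_le
  rw [hN] at h3
  push_cast at h3
  nlinarith

omit [IsGalois K L] [NumberField K] in
theorem inertia_conj_sub {w : HeightOneSpectrum (𝓞 L)} {g : L ≃ₐ[K] L}
    (hg : g ∈ w.asIdeal.inertia (L ≃ₐ[K] L)) (z : Lˣ) (hz : ord w z = 0) :
    OrdGE w 1 (g (z : L) - z) := by
  obtain ⟨b, hb⟩ := exists_residue w 1 hz
  have hfix : smulP g w = w := HeightOneSpectrum.ext (Ideal.inertia_le_stabilizer _ hg)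
  have h1 : OrdGE w 1 (g ((z : L) - algebraMap (𝓞 L) L b)) := by
    rcases eq_or_ne ((z : L) - algebraMap (𝓞 L) L b) 0 with h0 | h0
    · rw [h0, map_zero]; exact ordGE_zero _
    · rw [show g ((z : L) - algebraMap (𝓞 L) L b) = (conjU g (Units.mk0 _ h0) : L) from rfl,
        ← hfix, ordGE_iff, ord_smulP]
      exact (ordGE_iff _ (Units.mk0 _ h0) _).1 hb
  have h2 : OrdGE w 1 (algebraMap (𝓞 L) L (g • b - b)) :=
    (ordGE_algebraMap_iff _ 1).2 (by rw [pow_one]; exact hg b)
  have e : g (z : L) - z = g ((z : L) - algebraMap (𝓞 L) L b) +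
      algebraMap (𝓞 L) L (g • b - b) - ((z : L) - algebraMap (𝓞 L) L b) := by
    rw [map_sub, map_sub, show algebraMap (𝓞 L) L (g • b) = g (algebraMap (𝓞 L) L b) from rfl]
    ring
  rw [e]
  exact (h1.add h2).sub hb

/-- A prime away from `p` at which the order of `a` is divisible by `p` is unramified. -/
theorem IsRad.ram_eq_one (h : IsRad L p a)
    {w : HeightOneSpectrum (𝓞 L)} (hvp : (p : 𝓞 K) ∉ (below K w).asIdeal)
    (ha : (p : ℤ) ∣ ord (below K w) a) : ram K w = 1 := by
  obtain ⟨k, hk⟩ := ha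
  obtain ⟨y, hy⟩ := exists_ord_eq (below K w) k
  obtain ⟨r, hr⟩ := h.root
  set r' : Lˣ := r / baseU K L y with hr'
  have hr'0 : ord w r' = 0 := by
    have e : r' ^ p = baseU K L (a / y ^ p) := Units.ext (by
      rw [hr', Units.val_pow_eq_pow_val, Units.val_div_eq_div_val, div_pow, hr, coe_baseU,
        coe_baseU, Units.val_div_eq_div_val, Units.val_pow_eq_pow_val, map_div₀, map_pow])
    have h0 := congrArg (ord w) e
    rw [ord_pow, ord_baseU] at h0
    rw [ord_div (below K w), ord_pow, hy, hk, sub_self, mul_zero, mul_eq_zero] at h0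
    exact h0.resolve_left (by exact_mod_cast hp.out.ne_zero)
  rw [ram_eq_card_inertia, Subgroup.card_eq_one]
  refine (Subgroup.eq_bot_iff_forall _).2 fun g hg => by_contra fun hg1 => hvp ?_
  have hω := h.isPrimitiveRoot_conj hr hg1
  set ω : L := g (r : L) / r with hωdef
  have h1 : OrdGE w 1 (ω - 1) := by
    have h2 := (inertia_conj_sub hg r' hr'0).mul ((ordGE_iff w r'⁻¹ 0).2 (by
      rw [ord_inv, hr'0, neg_zero]))
    rw [add_zero] at h2
    convert h2 using 1
    show ω - 1 = _
    rw [hr', Units.val_inv_eq_inv_val, Units.val_div_eq_div_val, map_div₀, coe_baseU,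
      g.commutes, hωdef]
    field_simp
  have hω0 : OrdGE w 0 ω := by
    have := (h1.mono (show (0 : ℤ) ≤ 1 by norm_num)).add ordGE_one
    rwa [sub_add_cancel] at this
  have h3 : OrdGE w 1 (p : L) := by
    have hsum : ∑ i ∈ Finset.range p, (1 - ω ^ i) = (p : L) := by
      rw [Finset.sum_sub_distrib, hω.geom_sum_eq_zero hp.out.one_lt, sub_zero]
      simp
    rw [← hsum]
    refine OrdGE.sum fun i _ => ?_
    rw [← neg_sub, ← geom_sum_mul]
    refine OrdGE.neg ?_
    have hs : OrdGE w 0 (∑ j ∈ Finset.range i, ω ^ j) := OrdGE.sum fun j _ => by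
      simpa using hω0.pow j
    simpa using hs.mul h1
  have h4 : (p : 𝓞 L) ∈ w.asIdeal := by
    rw [← pow_one w.asIdeal, ← ordGE_algebraMap_iff, map_natCast]
    exact_mod_cast h3
  show algebraMap (𝓞 K) (𝓞 L) (p : 𝓞 K) ∈ w.asIdeal
  rw [map_natCast]
  exact h4

/-- A field with the `p`-th roots of unity, `p` odd, has no real places. -/
theorem isTotallyComplex_of_odd (hζ : IsPrimitiveRoot ζ p) (h2 : p ≠ 2) : IsTotallyComplex K :=
  nrRealPlaces_eq_zero_iff.1 (InfinitePlace.IsPrimitiveRoot.nrRealPlaces_eq_zero_of_two_lt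
    (by have := hp.out.two_le; omega) hζ)

end NumberField

end Fermat.Agent.CFT
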