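import Mathlib.NumberTheory.NumberField.ClassNumber
import Mathlib.NumberTheory.NumberField.Units.DirichletTheorem
import Mathlib.RepresentationTheory.Homological.GroupCohomology.Hilbert90
import Mathlib.RingTheory.ClassGroup.Basic
import Mathlib.RingTheory.DedekindDomain.FiniteAdeleRing
import Fermat.Agent.CFT.Kummer
import Fermat.Agent.PT.PadicUnits

/-!
# `S`-units and the index of their `p`-th powers

Enlarging `S` makes every prime outside it principal modulo `S`; the Herbrand ratio of `x ↦ x^p`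
on `S`-units and the index of their `p`-th powers, from Dirichlet's unit theorem.
-/

set_option maxSynthPendingDepth 3

noncomputable section

namespace Fermat.Agent.CFT

open NumberField IsDedekindDomain WithZero
open Fermat.Agent.PT (hq FinHq mulHom)

variable {K : Type} [Field K] [NumberField K]

/-- The elements which are units outside `S`. -/
def sU (S : Set (HeightOneSpectrum (𝓞 K))) : Subgroup Kˣ where
  carrier := {x | ∀ v ∉ S, ord v x = 0}
  one_mem' v _ := ord_one v
  mul_mem' {x y} hx hy v hv := by rw [ord_mul, hx v hv, hy v hv, add_zero]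
  inv_mem' {x} hx v hv := by rw [ord_inv, hx v hv, neg_zero]

theorem sU_mono {S T : Set (HeightOneSpectrum (𝓞 K))} (h : S ⊆ T) : sU S ≤ sU T :=
  fun _ hx v hv => hx v fun h' => hv (h h')

theorem finite_ord_ne_zero (x : Kˣ) : {v : HeightOneSpectrum (𝓞 K) | ord v x ≠ 0}.Finite := by
  refine ((HeightOneSpectrum.Support.finite (𝓞 K) (x : K)).union
    (HeightOneSpectrum.Support.finite (𝓞 K) ((x⁻¹ : Kˣ) : K))).subset fun v hv => ?_
  rcases lt_or_gt_of_ne hv with h | h
  · left
    show 1 < v.valuation K (x : K)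
    rw [valuation_eq_exp, ← exp_zero, exp_lt_exp]
    omega
  · right
    show 1 < v.valuation K ((x⁻¹ : Kˣ) : K)
    rw [valuation_eq_exp, ord_inv, ← exp_zero, exp_lt_exp]
    omega

theorem exists_finset_mem_sU (x : Kˣ) :
    ∃ S : Finset (HeightOneSpectrum (𝓞 K)), x ∈ sU (S : Set (HeightOneSpectrum (𝓞 K))) :=
  ⟨(finite_ord_ne_zero x).toFinset, fun v hv => by simpa using hv⟩

/-- Every prime outside `S` is principal modulo `S`. -/
def IsPrincipalOutside (S : Set (HeightOneSpectrum (𝓞 K))) : Prop :=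
  ∀ v ∉ S, ∃ π : Kˣ, ord v π = 1 ∧ ∀ v' ∉ S, v' ≠ v → ord v' π = 0

theorem IsPrincipalOutside.mono {S T : Set (HeightOneSpectrum (𝓞 K))}
    (hS : IsPrincipalOutside S) (h : S ⊆ T) : IsPrincipalOutside T := fun v hv => by
  obtain ⟨π, h1, h2⟩ := hS v fun h' => hv (h h')
  exact ⟨π, h1, fun v' hv' hne => h2 v' (fun h' => hv' (h h')) hne⟩

/-- The orders at the primes outside `S` can be prescribed. -/
theorem IsPrincipalOutside.exists_ord {S : Set (HeightOneSpectrum (𝓞 K))}
    (hS : IsPrincipalOutside S) (f : HeightOneSpectrum (𝓞 K) → ℤ)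
    (hf : {v | v ∉ S ∧ f v ≠ 0}.Finite) : ∃ x : Kˣ, ∀ v ∉ S, ord v x = f v := by
  classical
  choose π h1 h2 using hS
  refine ⟨∏ v ∈ hf.toFinset.attach, π v.1 (hf.mem_toFinset.1 v.2).1 ^ f v.1, fun v hv => ?_⟩
  rw [ord_prod]
  by_cases h : v ∈ hf.toFinset
  · rw [Finset.sum_eq_single ⟨v, h⟩ (fun u _ hu => ?_)
      (fun h' => absurd (Finset.mem_attach _ _) h'),
      ord_zpow, h1, mul_one]
    rw [ord_zpow, h2 _ _ v hv (fun e => hu (Subtype.ext e.symm)), mul_zero]
  · rw [Finset.sum_eq_zero fun u _ => ?_]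
    · by_contra h'
      exact h (hf.mem_toFinset.2 ⟨hv, Ne.symm h'⟩)
    rw [ord_zpow, h2 _ _ v hv (fun e => h (by rw [e]; exact u.2)), mul_zero]

/-- A power of every prime is principal. -/
theorem exists_ord_pos (v : HeightOneSpectrum (𝓞 K)) :
    ∃ x : Kˣ, 0 < ord v x ∧ ∀ v' ≠ v, ord v' x = 0 := by
  set h := Fintype.card (ClassGroup (𝓞 K))
  have hne : v.asIdeal ^ h ∈ nonZeroDivisors (Ideal (𝓞 K)) :=
    mem_nonZeroDivisors_iff_ne_zero.2 (pow_ne_zero _ v.ne_bot)
  have hpr : (v.asIdeal ^ h).IsPrincipal := by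
    rw [← ClassGroup.mk0_eq_one_iff hne]
    have : (⟨v.asIdeal ^ h, hne⟩ : nonZeroDivisors (Ideal (𝓞 K))) =
        ⟨v.asIdeal, mem_nonZeroDivisors_iff_ne_zero.2 v.ne_bot⟩ ^ h := rfl
    rw [this, map_pow, pow_card_eq_one]
  obtain ⟨a, ha⟩ := hpr
  rw [Ideal.submodule_span_eq] at ha
  have ha0 : algebraMap (𝓞 K) K a ≠ 0 := (map_ne_zero_iff _ RingOfIntegers.coe_injective).2
    fun h0 => by rw [h0, Ideal.span_singleton_eq_bot.2 rfl] at ha; exact pow_ne_zero _ v.ne_bot ha
  refine ⟨Units.mk0 _ ha0, ?_, fun v' hv' => ?_⟩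
  · have h1 : (h : ℤ) ≤ ord v (Units.mk0 _ ha0) := by
      rw [← ordGE_iff]
      exact (ordGE_algebraMap_iff a h).2 (ha ▸ Ideal.mem_span_singleton_self a)
    have : 0 < h := Fintype.card_pos
    omega
  · have h0 : 0 ≤ ord v' (Units.mk0 _ ha0) := (ordGE_iff v' _ 0).1 (ordGE_algebraMap a)
    by_contra hne'
    have h1 : a ∈ v'.asIdeal := by
      rw [← pow_one v'.asIdeal, ← ordGE_algebraMap_iff]
      exact (ordGE_iff v' (Units.mk0 _ ha0) _).2 (by omega)
    have h2 : v.asIdeal ^ h ≤ v'.asIdeal := by rw [ha, Ideal.span_singleton_le_iff_mem]; exact h1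
    exact hv' (HeightOneSpectrum.ext
      (v.isMaximal.eq_of_le v'.isPrime.ne_top (Ideal.IsPrime.le_of_pow_le h2)).symm)

/-- Every finite set of primes lies in one modulo which all primes are principal. -/
theorem exists_isPrincipalOutside (S₀ : Finset (HeightOneSpectrum (𝓞 K))) :
    ∃ S : Finset (HeightOneSpectrum (𝓞 K)), S₀ ⊆ S ∧
      IsPrincipalOutside (S : Set (HeightOneSpectrum (𝓞 K))) := by
  classical
  choose rep hrep using fun c : ClassGroup (𝓞 K) => ClassGroup.mk0_surjective c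
  have hfin : (⋃ c, {v : HeightOneSpectrum (𝓞 K) | v.asIdeal ∣ (rep c : Ideal (𝓞 K))}).Finite :=
    Set.finite_iUnion fun c => Ideal.finite_factors (mem_nonZeroDivisors_iff_ne_zero.1 (rep c).2)
  refine ⟨S₀ ∪ hfin.toFinset, Finset.subset_union_left, fun v hv => ?_⟩
  obtain ⟨J, hJ, hJS⟩ : ∃ J : nonZeroDivisors (Ideal (𝓞 K)),
      ClassGroup.mk0 ⟨v.asIdeal, mem_nonZeroDivisors_iff_ne_zero.2 v.ne_bot⟩ =
        (ClassGroup.mk0 J)⁻¹ ∧
      ∀ u : HeightOneSpectrum (𝓞 K), u ∉ ((S₀ ∪ hfin.toFinset : Finset _) : Set _) →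
        ¬ u.asIdeal ∣ (J : Ideal (𝓞 K)) := by
    refine ⟨rep (ClassGroup.mk0 ⟨v.asIdeal, mem_nonZeroDivisors_iff_ne_zero.2 v.ne_bot⟩)⁻¹,
      by rw [hrep, inv_inv], fun u hu h => hu ?_⟩
    rw [Finset.coe_union, Set.Finite.coe_toFinset]
    exact Or.inr (Set.mem_iUnion.2 ⟨_, h⟩)
  clear hrep
  obtain ⟨δ, hδ0, hδ⟩ := ClassGroup.mk0_eq_mk0_inv_iff.1 hJ
  have hδ' : v.asIdeal * (J : Ideal (𝓞 K)) = Ideal.span {δ} := hδ
  have hmem : δ ∈ v.asIdeal * (J : Ideal (𝓞 K)) := by
    rw [hδ']; exact Ideal.mem_span_singleton_self δ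
  have hδ0' : algebraMap (𝓞 K) K δ ≠ 0 := (map_ne_zero_iff _ RingOfIntegers.coe_injective).2 hδ0
  have hiff : ∀ (u : HeightOneSpectrum (𝓞 K)) (n : ℕ),
      δ ∈ u.asIdeal ^ n ↔ (n : ℤ) ≤ ord u (Units.mk0 _ hδ0') := fun u n =>
    (ordGE_algebraMap_iff δ n).symm.trans (ordGE_iff u (Units.mk0 _ hδ0') _)
  refine ⟨Units.mk0 _ hδ0', ?_, fun v' hv' hne => ?_⟩
  · have h1 := (hiff v 1).1 (by rw [pow_one]; exact (Ideal.mul_le_inf hmem).1)
    by_contra h2
    have h3 := (hiff v 2).2 (by push_cast at h1 ⊢; omega)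
    rw [← Ideal.span_singleton_le_iff_mem, ← hδ', ← Ideal.dvd_iff_le, pow_two,
      mul_dvd_mul_iff_left v.ne_bot] at h3
    exact hJS v hv h3
  · have h0 : 0 ≤ ord v' (Units.mk0 _ hδ0') := by
      simpa using (hiff v' 0).1 (by simp)
    by_contra hne'
    have h1 := (hiff v' 1).2 (by push_cast; omega)
    rw [pow_one, ← Ideal.span_singleton_le_iff_mem, ← hδ'] at h1
    rcases v'.isPrime.mul_le.1 h1 with h2 | h2
    · exact hne (HeightOneSpectrum.ext (v.isMaximal.eq_of_le v'.isPrime.ne_top h2).symm)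
    · exact hJS v' hv' (Ideal.dvd_iff_le.2 h2)

/-! ### `p`-th powers -/

section Count

variable (p : ℕ) [hp : Fact p.Prime]

theorem mulHom_injective {A : Type} [AddCommGroup A] [IsAddTorsionFree A] {n : ℕ} (hn : n ≠ 0) :
    (mulHom n A).ker = ⊥ :=
  (AddMonoidHom.ker_eq_bot_iff _).2 fun _a _b h => nsmul_right_injective hn h

theorem hq_pi_int (r : ℕ) : FinHq (mulHom p (Fin r → ℤ)) ∧
    hq (mulHom p (Fin r → ℤ)) = (p : ℚ) ^ r := by
  let red : (Fin r → ℤ) →+ (Fin r → ZMod p) := (Int.castAddHom (ZMod p)).compLeft (Fin r)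
  have hsurj : Function.Surjective red := fun f =>
    ⟨fun i => (f i).cast, funext fun i => ZMod.intCast_zmod_cast (f i)⟩
  have hker : red.ker = (mulHom p (Fin r → ℤ)).range := by
    ext f
    constructor
    · intro hf
      have h : ∀ i, (p : ℤ) ∣ f i := fun i =>
        (ZMod.intCast_zmod_eq_zero_iff_dvd _ _).1 (congrFun hf i)
      choose g hg using h
      exact ⟨g, funext fun i => by simp [hg i]⟩
    · rintro ⟨g, rfl⟩
      ext i
      simp [red]
  have hidx : (mulHom p (Fin r → ℤ)).range.index = p ^ r := by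
    rw [← hker, AddSubgroup.index_ker, AddMonoidHom.range_eq_top.2 hsurj, AddSubgroup.card_top]
    simp
  have hk : Nat.card (mulHom p (Fin r → ℤ)).ker = 1 := by
    rw [mulHom_injective hp.out.ne_zero]; simp
  refine ⟨⟨by rw [hidx]; exact pow_ne_zero _ hp.out.ne_zero, by rw [hk]; exact one_ne_zero⟩, ?_⟩
  rw [hq, hidx, hk]
  simp

variable (K) in
theorem hq_units : FinHq (mulHom p (Additive (𝓞 K)ˣ)) ∧
    hq (mulHom p (Additive (𝓞 K)ˣ)) = (p : ℚ) ^ Units.rank K := by
  let q : Additive (𝓞 K)ˣ →+ Additive ((𝓞 K)ˣ ⧸ Units.torsion K) :=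
    MonoidHom.toAdditive (QuotientGroup.mk' (Units.torsion K))
  have hqs : Function.Surjective q := QuotientGroup.mk'_surjective (Units.torsion K)
  have : Finite q.ker := Finite.of_injective
    (fun x => (⟨Additive.toMul (x : Additive (𝓞 K)ˣ),
      (QuotientGroup.eq_one_iff _).1 (congrArg Additive.toMul x.2)⟩ : Units.torsion K))
    fun a b h => by
      simp only [Subtype.mk.injEq, EmbeddingLike.apply_eq_iff_eq] at h
      exact Subtype.ext h
  have hC := hq_pi_int p (Units.rank K)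
  let e : (Fin (Units.rank K) → ℤ) ≃+ Additive ((𝓞 K)ˣ ⧸ Units.torsion K) :=
    (Units.basisModTorsion K).equivFun.symm.toAddEquiv
  have hC' := (PT.hq_mulHom_congr p e).1 hC.1
  have hker : FinHq (mulHom p q.ker) := ⟨AddSubgroup.FiniteIndex.index_ne_zero, Nat.card_pos.ne'⟩
  have hA : Nat.card (mulHom p (Additive (𝓞 K)ˣ)).ker ≠ 0 := by
    have : Finite (mulHom p (Additive (𝓞 K)ˣ)).ker := by
      refine Finite.of_injective (fun x => (⟨x.1, ?_⟩ : q.ker)) fun a b h =>
        Subtype.ext (congrArg Subtype.val h :)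
      have h := congrArg q (AddMonoidHom.mem_ker.1 x.2)
      rw [PT.mulHom_apply, map_nsmul, map_zero] at h
      have h0 : e.symm (q x.1) = 0 := nsmul_right_injective hp.out.ne_zero
        (show p • e.symm (q x.1) = p • 0 by rw [← map_nsmul, h, map_zero, smul_zero])
      exact e.symm.map_eq_zero_iff.1 h0
    exact Nat.card_pos.ne'
  have hfin := PT.finHq_of_exact p q hqs hA hker hC'
  refine ⟨hfin, ?_⟩
  rw [PT.hq_mulHom_mul p q hqs hfin hker hC', PT.hq_eq_one_of_finite, one_mul,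
    ← (PT.hq_mulHom_congr p e).2, hC.2]

theorem mem_sU_empty_iff {x : Kˣ} : x ∈ sU (∅ : Set (HeightOneSpectrum (𝓞 K))) ↔
    x ∈ (Units.map (algebraMap (𝓞 K) K : 𝓞 K →* K)).range := by
  constructor
  · intro hx
    have h1 : ∀ y : Kˣ, (∀ v : HeightOneSpectrum (𝓞 K), ord v y = 0) →
        ∃ a : 𝓞 K, algebraMap (𝓞 K) K a = (y : K) := fun y hy =>
      HeightOneSpectrum.mem_integers_of_valuation_le_one K _ fun v => by
        rw [valuation_eq_exp, hy v, neg_zero, exp_zero]
    obtain ⟨a, ha⟩ := h1 x fun v => hx v (Set.notMem_empty v)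
    obtain ⟨b, hb⟩ := h1 x⁻¹ fun v => by rw [ord_inv, hx v (Set.notMem_empty v), neg_zero]
    have hab : a * b = 1 := RingOfIntegers.coe_injective (by rw [map_mul, ha, hb, map_one]; simp)
    exact ⟨Units.mkOfMulEqOne a b hab, Units.ext ha⟩
  · rintro ⟨u, rfl⟩ v -
    have h : ∀ u : (𝓞 K)ˣ, 0 ≤ ord v (Units.map (algebraMap (𝓞 K) K : 𝓞 K →* K) u) :=
      fun u => (ordGE_iff v _ 0).1 (ordGE_algebraMap (u : 𝓞 K))
    have := h u⁻¹
    rw [map_inv, ord_inv] at this
    linarith [h u]

variable {p}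

theorem card_ker_sU {ζ : K} (hζ : IsPrimitiveRoot ζ p) (S : Set (HeightOneSpectrum (𝓞 K))) :
    Nat.card (mulHom p (Additive (sU S))).ker = p := by
  refine (Nat.card_congr ?_).trans hζ.card_rootsOfUnity
  refine
    { toFun := fun x => ⟨((Additive.toMul x.1 : sU S) : Kˣ),
        congrArg (fun y : Additive (sU S) => ((Additive.toMul y : sU S) : Kˣ)) x.2⟩
      invFun := fun u => ⟨Additive.ofMul ⟨(u : Kˣ), fun v _ => ?_⟩, ?_⟩
      left_inv := fun x => rfl
      right_inv := fun u => rfl }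
  · have h := congrArg (ord v) u.2
    rw [ord_pow, ord_one, mul_eq_zero] at h
    exact h.resolve_left (by exact_mod_cast hp.out.ne_zero)
  · rw [AddMonoidHom.mem_ker]
    exact congrArg Additive.ofMul (Subtype.ext u.2)

/-- The Herbrand ratio of the group of `S`-units. -/
theorem hq_sU {ζ : K} (hζ : IsPrimitiveRoot ζ p) (S : Finset (HeightOneSpectrum (𝓞 K))) :
    FinHq (mulHom p (Additive (sU (S : Set (HeightOneSpectrum (𝓞 K)))))) ∧
      hq (mulHom p (Additive (sU (S : Set (HeightOneSpectrum (𝓞 K)))))) =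
        (p : ℚ) ^ (Units.rank K + S.card) := by
  classical
  induction S using Finset.induction with
  | empty =>
    rw [Finset.coe_empty, Finset.card_empty, add_zero]
    let i : (𝓞 K)ˣ →* Kˣ := Units.map (algebraMap (𝓞 K) K : 𝓞 K →* K)
    have hi : Function.Injective i := Units.map_injective RingOfIntegers.coe_injective
    let e : Additive (𝓞 K)ˣ ≃+ Additive (sU (∅ : Set (HeightOneSpectrum (𝓞 K)))) :=
      MulEquiv.toAdditive ((MonoidHom.ofInjective hi).trans
        (MulEquiv.subgroupCongr (Subgroup.ext fun x => mem_sU_empty_iff.symm)))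
    have h := hq_units K p
    exact ⟨(PT.hq_mulHom_congr p e).1 h.1, (PT.hq_mulHom_congr p e).2 ▸ h.2⟩
  | insert v S hv ih =>
    set B := sU ((insert v S : Finset _) : Set (HeightOneSpectrum (𝓞 K)))
    let q₀ : Additive B →+ ℤ := AddMonoidHom.mk'
      (fun x => ord v ((Additive.toMul x : B) : Kˣ)) fun x y => ord_mul v _ _
    let q := q₀.rangeRestrict
    obtain ⟨π, hπ, hπ'⟩ := exists_ord_pos v
    have hπB : π ∈ B := fun u hu => hπ' u fun e => hu (by simp [e])
    obtain ⟨a, ha⟩ := Int.subgroup_cyclic q₀.range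
    rw [← AddSubgroup.zmultiples_eq_closure] at ha
    have ha0 : a ≠ 0 := fun h => by
      have : ord v π ∈ q₀.range := ⟨Additive.ofMul ⟨π, hπB⟩, rfl⟩
      rw [ha, h, AddSubgroup.zmultiples_zero_eq_bot, AddSubgroup.mem_bot] at this
      omega
    let eZ : (Fin 1 → ℤ) ≃+ q₀.range :=
      AddEquiv.ofBijective (AddMonoidHom.mk' (fun k => (⟨k 0 • a, ha ▸ ⟨k 0, rfl⟩⟩ : q₀.range))
        fun k l => Subtype.ext (add_smul (k 0) (l 0) a))
        ⟨fun k l h => by
          have := congrArg Subtype.val h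
          simp only [AddMonoidHom.mk'_apply, smul_eq_mul, mul_eq_mul_right_iff, ha0, or_false]
            at this
          exact funext fun i => by rwa [Subsingleton.elim i 0],
        fun x => by
          have hx := x.2
          simp only [ha, AddSubgroup.mem_zmultiples_iff] at hx
          obtain ⟨k, hk⟩ := hx
          exact ⟨fun _ => k, Subtype.ext hk⟩⟩
    have hZ := hq_pi_int p 1
    have hC := (PT.hq_mulHom_congr p eZ).1 hZ.1
    let eK : Additive (sU (S : Set (HeightOneSpectrum (𝓞 K)))) ≃+ q.ker :=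
      { toFun := fun x => ⟨Additive.ofMul ⟨((Additive.toMul x : sU _) : Kˣ),
          sU_mono (Finset.coe_subset.2 (Finset.subset_insert v S)) (Additive.toMul x).2⟩,
          Subtype.ext ((Additive.toMul x).2 v (by simpa using hv))⟩
        invFun := fun x => Additive.ofMul ⟨((Additive.toMul x.1 : B) : Kˣ), fun u hu => by
          by_cases h : u = v
          · subst h
            exact congrArg Subtype.val x.2
          · exact (Additive.toMul x.1).2 u (by simpa [h] using hu)⟩
        left_inv := fun x => rfl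
        right_inv := fun x => rfl
        map_add' := fun x y => rfl }
    have hK := (PT.hq_mulHom_congr p eK).1 ih.1
    have hA : Nat.card (mulHom p (Additive B)).ker ≠ 0 := by
      rw [card_ker_sU hζ]; exact hp.out.ne_zero
    have hfin := PT.finHq_of_exact p q q₀.rangeRestrict_surjective hA hK hC
    refine ⟨hfin, ?_⟩
    rw [PT.hq_mulHom_mul p q q₀.rangeRestrict_surjective hfin hK hC,
      ← (PT.hq_mulHom_congr p eK).2, ih.2, ← (PT.hq_mulHom_congr p eZ).2, hZ.2,
      Finset.card_insert_of_notMem hv, ← pow_add, add_assoc]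

/-- The index of the `p`-th powers in the `S`-units. -/
theorem sU_pow_index {ζ : K} (hζ : IsPrimitiveRoot ζ p) (S : Finset (HeightOneSpectrum (𝓞 K))) :
    ((powMonoidHom p : sU (S : Set (HeightOneSpectrum (𝓞 K))) →* _).range).index =
      p ^ (Units.rank K + S.card + 1) := by
  have h := (hq_sU hζ S).2
  rw [hq, card_ker_sU hζ, div_eq_iff (by exact_mod_cast hp.out.ne_zero), ← pow_succ] at h
  have e : (mulHom p (Additive (sU (S : Set (HeightOneSpectrum (𝓞 K)))))).range =
      ((powMonoidHom p : sU (S : Set (HeightOneSpectrum (𝓞 K))) →* _).range).toAddSubgroup := by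
    ext x
    rfl
  rw [e, Subgroup.index_toAddSubgroup] at h
  exact_mod_cast h

end Count

theorem rank_add_one [IsTotallyComplex K] :
    2 * (Units.rank K + 1) = Module.finrank ℚ K := by
  have h : 0 < Fintype.card (InfinitePlace K) := Fintype.card_pos
  rw [IsTotallyComplex.finrank, Units.rank, Nat.sub_add_cancel h,
    InfinitePlace.card_eq_nrRealPlaces_add_nrComplexPlaces,
    IsTotallyComplex.nrRealPlaces_eq_zero, zero_add]

end Fermat.Agent.CFT
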