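import Fermat.Agent.CFT.InfOn

/-!
# The first inequality and the existence of infinitely many primes with one prime above

For a good finite set `S` the `S`-units and the local norms at `S` do not fill all classes at `S`
(the first inequality); consequently there are infinitely many primes with one prime above in a
cyclic extension of degree `p`.
-/

noncomputable section

namespace Fermat.Agent.CFT

open NumberField IsDedekindDomain WithZero

variable {K L : Type} [Field K] [NumberField K] [Field L] [NumberField L] [Algebra K L]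
  [IsGalois K L] {p : ℕ} [hp : Fact p.Prime] {ζ : K}

variable (L) in
/-- The local norms at all primes of `S`. -/
def normsAt (S : Finset (HeightOneSpectrum (𝓞 K))) : Subgroup Kˣ :=
  infOn (fun v => locNorm L v) S

variable (L) in
/-- The local norms at all primes outside `S`. -/
def outNorm (S : Finset (HeightOneSpectrum (𝓞 K))) : Subgroup Kˣ :=
  ⨅ (v : HeightOneSpectrum (𝓞 K)) (_ : v ∉ S), locNorm L v

omit [IsGalois K L] hp [NumberField L] in
theorem mem_outNorm {S : Finset (HeightOneSpectrum (𝓞 K))} {x : Kˣ} :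
    x ∈ outNorm L S ↔ ∀ v ∉ S, x ∈ locNorm L v := by
  simp [outNorm, Subgroup.mem_iInf]

omit [IsGalois K L] in
theorem congr_le_locNorm (hdeg : Module.finrank K L = p) (v : HeightOneSpectrum (𝓞 K)) :
    ∃ n, congr v n ≤ locNorm L v :=
  ⟨_, (congr_le_locPow v p).trans (locPow_le_locNorm hdeg v)⟩

theorem index_normsAt (hζ : IsPrimitiveRoot ζ p) (hdeg : Module.finrank K L = p)
    (S : Finset (HeightOneSpectrum (𝓞 K))) :
    (normsAt L S).index ≠ 0 ∧ p ^ numNonsplit L S ≤ (normsAt L S).index := by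
  classical
  refine ⟨index_infOn_ne_zero _ S (fun v _ => congr_le_locNorm hdeg v)
    (fun v _ => locNorm_index_ne_zero hdeg hζ v), ?_⟩
  rw [normsAt, index_infOn _ S fun v _ => congr_le_locNorm hdeg v, numNonsplit,
    ← Finset.prod_const, Finset.prod_filter]
  refine Finset.prod_le_prod' fun v _ => ?_
  by_cases h : IsSplit L v
  · rw [if_neg (by simpa using h)]; exact Nat.pos_of_ne_zero (locNorm_index_ne_zero hdeg hζ v)
  · simpa [h] using le_locNorm_index hdeg hζ h

variable (L p) in
/-- The conditions on the finite set of exceptional primes. -/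
structure GoodSet (S : Finset (HeightOneSpectrum (𝓞 K))) : Prop where
  principal : IsPrincipalOutside (S : Set (HeightOneSpectrum (𝓞 K)))
  principal_above : IsPrincipalOutside {w : HeightOneSpectrum (𝓞 L) | below K w ∈ S}
  not_dvd : ∀ v ∉ S, (p : 𝓞 K) ∉ v.asIdeal
  unramified : ∀ w : HeightOneSpectrum (𝓞 L), below K w ∉ S → ram K w = 1

variable (K p) in
theorem finite_dvd : {v : HeightOneSpectrum (𝓞 K) | (p : 𝓞 K) ∈ v.asIdeal}.Finite :=
  (Ideal.finite_factors (I := Ideal.span {(p : 𝓞 K)})
    (by rw [Submodule.zero_eq_bot, Ne, Ideal.span_singleton_eq_bot]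
        exact_mod_cast hp.out.ne_zero)).subset fun _ hv => Ideal.dvd_span_singleton.2 hv

theorem finite_ramified (hζ : IsPrimitiveRoot ζ p) (hdeg : Module.finrank K L = p) :
    {v : HeightOneSpectrum (𝓞 K) | ∃ w : HeightOneSpectrum (𝓞 L),
      below K w = v ∧ ram K w ≠ 1}.Finite := by
  obtain ⟨a, ha⟩ := exists_isRad (L := L) hζ hdeg
  refine ((finite_dvd K p).union (finite_ord_ne_zero a)).subset ?_
  rintro v ⟨w, rfl, hw⟩
  by_contra h
  rw [Set.mem_union, not_or, Set.mem_ofPred_eq, Set.mem_ofPred_eq, not_not] at h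
  exact hw (ha.ram_eq_one h.1 (by rw [h.2]; exact dvd_zero _))

/-- Every finite set of primes is contained in a good one. -/
theorem exists_goodSet (hζ : IsPrimitiveRoot ζ p) (hdeg : Module.finrank K L = p)
    (S₀ : Finset (HeightOneSpectrum (𝓞 K))) :
    ∃ S, S₀ ⊆ S ∧ GoodSet L p S := by
  classical
  obtain ⟨T, -, hT⟩ := exists_isPrincipalOutside (K := L) ∅
  obtain ⟨S, hS, hSp⟩ := exists_isPrincipalOutside (S₀ ∪ (finite_dvd K p).toFinset ∪
    (finite_ramified hζ hdeg).toFinset ∪ T.image (below K))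
  refine ⟨S, fun v hv => hS (by simp [hv]), hSp, hT.mono fun w hw => ?_, fun v hv h => ?_,
    fun w hw => by_contra fun h => ?_⟩
  · exact hS (Finset.mem_union_right _ (Finset.mem_image.2 ⟨w, hw, rfl⟩))
  · exact hv (hS (by simp [h]))
  · exact hw (hS (Finset.mem_union_left _ (Finset.mem_union_right _
      ((finite_ramified hζ hdeg).mem_toFinset.2 ⟨w, rfl, h⟩))))

variable {S : Finset (HeightOneSpectrum (𝓞 K))}

omit [IsGalois K L] hp [NumberField L] in
theorem range_normU_le_normsAt : (normU K L).range ≤ normsAt L S := by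
  rintro _ ⟨y, rfl⟩
  exact mem_infOn.2 fun v _ => normU_mem_locNorm v y

/-- The first inequality. -/
theorem relIndex_normsAt_le [IsTotallyComplex K] (hζ : IsPrimitiveRoot ζ p)
    (hdeg : Module.finrank K L = p) (hS : IsPrincipalOutside (S : Set (HeightOneSpectrum (𝓞 K))))
    (hunr : ∀ w : HeightOneSpectrum (𝓞 L), below K w ∉ S → ram K w = 1) :
    (normsAt L S).relIndex (sU (S : Set (HeightOneSpectrum (𝓞 K)))) * p ≤ p ^ numNonsplit L S := by
  rw [← normS_index hζ hdeg hS hunr]
  refine Nat.mul_le_mul_right _ (Nat.le_of_dvd ?_ ?_)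
  · refine Nat.pos_of_ne_zero fun h => ?_
    have := normS_index hζ hdeg hS hunr
    rw [h, zero_mul] at this
    exact pow_ne_zero _ hp.out.ne_zero this.symm
  · refine Subgroup.index_dvd_of_le ?_
    rintro _ ⟨y, rfl⟩
    exact range_normU_le_normsAt ⟨y, rfl⟩

/-- The `S`-units do not represent all classes modulo local norms at `S`. -/
theorem sU_sup_normsAt_ne_top [IsTotallyComplex K] (hζ : IsPrimitiveRoot ζ p)
    (hdeg : Module.finrank K L = p) (hS : IsPrincipalOutside (S : Set (HeightOneSpectrum (𝓞 K))))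
    (hunr : ∀ w : HeightOneSpectrum (𝓞 L), below K w ∉ S → ram K w = 1) :
    sU (S : Set (HeightOneSpectrum (𝓞 K))) ⊔ normsAt L S ≠ ⊤ := by
  intro h
  have h1 : (normsAt L S).relIndex (sU (S : Set (HeightOneSpectrum (𝓞 K)))) =
      (normsAt L S).index := by
    rw [← Subgroup.relIndex_sup_right (sU (S : Set (HeightOneSpectrum (𝓞 K)))) (normsAt L S), h,
      Subgroup.relIndex_top_right]
  have h2 := relIndex_normsAt_le hζ hdeg hS hunr
  rw [h1] at h2
  have h3 := (index_normsAt (L := L) hζ hdeg S).2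
  have h4 : 0 < p ^ numNonsplit L S := pow_pos hp.out.pos _
  have := hp.out.two_le
  nlinarith

/-- A global element which is a local norm outside a good set is an `S`-unit times a norm. -/
theorem outNorm_le (hdeg : Module.finrank K L = p) (hS : GoodSet L p S) :
    outNorm L S ≤ sU (S : Set (HeightOneSpectrum (𝓞 K))) ⊔ (normU K L).range := by
  classical
  intro g hg
  choose wv hwv using fun v : HeightOneSpectrum (𝓞 K) => exists_below_eq (L := L) v
  obtain ⟨l, hl⟩ := hS.principal_above.exists_ord (fun w => if w = wv (below K w) then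
      (if IsSplit L (below K w) then ord (below K w) g else ord (below K w) g / (p : ℤ)) else 0) (by
    refine ((finite_ord_ne_zero g).image wv).subset fun w hw => ?_
    obtain ⟨-, h⟩ := hw
    by_cases e : w = wv (below K w)
    · refine ⟨below K w, fun h0 => h ?_, e.symm⟩
      rw [if_pos e, h0, Int.zero_ediv, ite_self]
    · exact absurd (if_neg e) h)
  refine Subgroup.mem_sup.2 ⟨g / normU K L l, fun v hv => ?_, normU K L l, ⟨l, rfl⟩,
    div_mul_cancel _ _⟩
  have hv' : ∀ h : L ≃ₐ[K] L, below K (smulP h (wv v)) ∉ S := fun h => by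
    rw [below_smulP, hwv]; exact hv
  have h := ord_normU (K := K) (wv v) l
  rw [hwv, hS.unramified _ (by rw [hwv]; exact hv), Nat.cast_one, one_mul] at h
  rw [ord_div, h, sub_eq_zero]
  have e : ∀ h : L ≃ₐ[K] L, ord (wv v) (conjU h l) = if smulP h⁻¹ (wv v) = wv v then
      (if IsSplit L v then ord v g else ord v g / (p : ℤ)) else 0 := fun h => by
    rw [ord_conjU, hl _ (hv' h⁻¹), below_smulP, hwv]
  rw [Finset.sum_congr rfl fun h _ => e h]
  by_cases hsp : IsSplit L v
  · rw [Finset.sum_eq_single (1 : L ≃ₐ[K] L) (fun h _ hne => if_neg fun e => hne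
      (inv_eq_one.1 (eq_one_of_smulP_eq hdeg hsp (hwv v) e)))
        (fun h => absurd (Finset.mem_univ _) h),
      inv_one, if_pos (smulP_one _), if_pos hsp]
  · simp only [smulP_eq_self_of_not_split hsp (hwv v), if_true, if_neg hsp, Finset.sum_const,
      Finset.card_univ, ← Nat.card_eq_fintype_card, IsGalois.card_aut_eq_finrank, hdeg,
      nsmul_eq_mul]
    rw [Int.mul_ediv_cancel' ((mem_locNorm_iff_dvd hdeg (hS.not_dvd v hv) hsp (hwv v)
      (hS.unramified _ (by rw [hwv]; exact hv))).1 (mem_outNorm.1 hg v hv))]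

theorem outNorm_sup_normsAt_le (hdeg : Module.finrank K L = p) (hS : GoodSet L p S) :
    outNorm L S ⊔ normsAt L S ≤ sU (S : Set (HeightOneSpectrum (𝓞 K))) ⊔ normsAt L S :=
  sup_le ((outNorm_le hdeg hS).trans (sup_le_sup_left range_normU_le_normsAt _)) le_sup_right

/-- Global elements which are norms outside `S` do not represent all classes at `S`. -/
theorem outNorm_sup_normsAt_ne_top [IsTotallyComplex K] (hζ : IsPrimitiveRoot ζ p)
    (hdeg : Module.finrank K L = p) (hS : IsPrincipalOutside (S : Set (HeightOneSpectrum (𝓞 K))))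
    (hvp : ∀ v ∉ S, (p : 𝓞 K) ∉ v.asIdeal)
    (hunr : ∀ w : HeightOneSpectrum (𝓞 L), below K w ∉ S → ram K w = 1) :
    outNorm L S ⊔ normsAt L S ≠ ⊤ := by
  classical
  intro htop
  obtain ⟨S₁, hSS, hS₁⟩ := exists_goodSet (L := L) hζ hdeg S
  refine sU_sup_normsAt_ne_top hζ hdeg hS₁.principal hS₁.unramified (eq_top_iff.2 fun q _ => ?_)
  obtain ⟨x, hx⟩ := hS.exists_ord (fun v => if v ∈ S₁ then ord v q else 0)
    (S₁.finite_toSet.subset fun v hv => by by_contra h; exact hv.2 (if_neg h))
  have hxU : x ∈ sU (S₁ : Set (HeightOneSpectrum (𝓞 K))) := fun v hv => by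
    rw [hx v fun h => hv (hSS h)]; exact if_neg hv
  obtain ⟨g, hg, m, hm, hgm⟩ := Subgroup.mem_sup.1 (htop ▸ Subgroup.mem_top (q / x) :
    q / x ∈ outNorm L S ⊔ normsAt L S)
  have hm' : m ∈ normsAt L S₁ := mem_infOn.2 fun v hv => by
    by_cases h : v ∈ S
    · exact mem_infOn.1 hm v h
    obtain ⟨w, hw⟩ := exists_below_eq (L := L) v
    have h1 : q / x ∈ locNorm L v := mem_locNorm_of_ord_eq_zero hdeg (hvp v h) hw
      (hunr w (by rw [hw]; exact h)) (by rw [ord_div, hx v h, if_pos hv, sub_self])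
    rw [← hgm] at h1
    exact (mul_mem_cancel_left (mem_outNorm.1 hg v h)).1 h1
  have hg' : g ∈ sU (S₁ : Set (HeightOneSpectrum (𝓞 K))) ⊔ normsAt L S₁ :=
    outNorm_sup_normsAt_le hdeg hS₁ (Subgroup.mem_sup_left
      (mem_outNorm.2 fun v hv => mem_outNorm.1 hg v fun h => hv (hSS h)))
  rw [← div_mul_cancel q x, ← hgm]
  exact mul_mem (mul_mem hg' (Subgroup.mem_sup_right hm')) (Subgroup.mem_sup_left hxU)

/-- There are infinitely many primes with one prime above. -/
theorem exists_not_split [IsTotallyComplex K] (hζ : IsPrimitiveRoot ζ p)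
    (hdeg : Module.finrank K L = p) (B : Finset (HeightOneSpectrum (𝓞 K))) :
    ∃ v ∉ B, ¬ IsSplit L v := by
  by_contra h
  push Not at h
  obtain ⟨S, hBS, hS⟩ := exists_goodSet (L := L) hζ hdeg B
  refine outNorm_sup_normsAt_ne_top hζ hdeg hS.principal hS.not_dvd hS.unramified
    (eq_top_iff.2 fun x _ => Subgroup.mem_sup_left (mem_outNorm.2 fun v hv => ?_))
  rw [locNorm_eq_top_of_split hdeg (h v fun h' => hv (hBS h'))]
  trivial

end Fermat.Agent.CFT
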