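import Fermat.Agent.CFT.AuxPrimes

/-!
# The second inequality and the Hasse norm theorem in degree `p`

For a radical extension of degree `p` of a field with `μ_p`: norms outside a good set give a
subgroup of index exactly `p`, the local norm index is `p`, and an element that is a local norm
everywhere is a norm.  Used for reciprocity and the duality inputs.
-/

noncomputable section

namespace Fermat.Agent.CFT

open NumberField IsDedekindDomain WithZero

variable {p : ℕ} [hp : Fact p.Prime] {K : Type} [Field K] [NumberField K] [IsTotallyComplex K]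
  {ζ : K} {S W : Finset (HeightOneSpectrum (𝓞 K))}

/-- The `S ∪ W`-units fill a large part of the local power classes at `S`. -/
theorem SurjAt.index_le [DecidableEq (HeightOneSpectrum (𝓞 K))] (h : SurjAt p S W)
    (hζ : IsPrimitiveRoot ζ p) (hS : IsPrincipalOutside (S : Set (HeightOneSpectrum (𝓞 K))))
    (hvp : ∀ v ∉ S, (p : 𝓞 K) ∉ v.asIdeal) (hW : ∀ w ∈ W, w ∉ S) :
    (sU ((S ∪ W : Finset _) : Set (HeightOneSpectrum (𝓞 K))) ⊔
        infOn (fun v => locPow v p) S).index ≠ 0 ∧
      (sU ((S ∪ W : Finset _) : Set (HeightOneSpectrum (𝓞 K))) ⊔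
          infOn (fun v => locPow v p) S).index * p ^ W.card ≤ p ^ (Units.rank K + S.card + 1) := by
  set U := sU ((S ∪ W : Finset _) : Set (HeightOneSpectrum (𝓞 K)))
  set P := infOn (fun v => locPow v p) S
  obtain ⟨P0, P1⟩ := index_infOn_locPow_le p hζ S
  have hPU : P.relIndex U * (U ⊔ P).index = P.index := by
    rw [← Subgroup.relIndex_sup_right U P]
    exact Subgroup.relIndex_mul_index le_sup_right
  rw [← hPU] at P0 P1
  refine ⟨right_ne_zero_of_mul P0, ?_⟩
  have hle : P ⊓ U ≤ (powMonoidHom p : Kˣ →* Kˣ).range := fun x hx =>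
    h.mem_pow_range hζ hS hvp hW hx.2 hx.1
  have d0 := Subgroup.relIndex_dvd_of_le_left U hle
  rw [Subgroup.inf_relIndex_right, pow_range_relIndex_sU hζ (S ∪ W),
    Finset.card_union_of_disjoint (Finset.disjoint_left.2 fun v hv hv' => hW v hv' hv)] at d0
  have d1 := Nat.le_of_dvd (Nat.pos_of_ne_zero (left_ne_zero_of_mul P0)) d0
  have h2 := (Nat.mul_le_mul_right (U ⊔ P).index d1).trans P1
  refine Nat.le_of_mul_le_mul_left ?_ (pow_pos hp.out.pos (Units.rank K + S.card + 1))
  calc p ^ (Units.rank K + S.card + 1) * ((U ⊔ P).index * p ^ W.card)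
      = p ^ (Units.rank K + (S.card + W.card) + 1) * (U ⊔ P).index := by ring
    _ ≤ p ^ (2 * (Units.rank K + S.card + 1)) := h2
    _ = p ^ (Units.rank K + S.card + 1) * p ^ (Units.rank K + S.card + 1) := by ring

variable {L : Type} [Field L] [NumberField L] [Algebra K L] [IsGalois K L] {a : Kˣ}

omit [IsTotallyComplex K] in
/-- Units outside `S`, at primes split or unramified outside `S`, are norms outside `S`. -/
theorem sU_le_outNorm (hdeg : Module.finrank K L = p) (hvp : ∀ v ∉ S, (p : 𝓞 K) ∉ v.asIdeal)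
    (hunr : ∀ w : HeightOneSpectrum (𝓞 L), below K w ∉ S → ram K w = 1)
    [DecidableEq (HeightOneSpectrum (𝓞 K))] (hW : ∀ w ∈ W, IsSplit L w) :
    sU ((S ∪ W : Finset _) : Set (HeightOneSpectrum (𝓞 K))) ≤ outNorm L S := fun x hx =>
  mem_outNorm.2 fun v hv => by
    by_cases h : v ∈ W
    · rw [locNorm_eq_top_of_split hdeg (hW v h)]; trivial
    · obtain ⟨w, hw⟩ := exists_below_eq (L := L) v
      exact mem_locNorm_of_ord_eq_zero hdeg (hvp v hv) hw (hunr w (by rwa [hw]))
        (hx v (by simp [hv, h]))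

omit [IsTotallyComplex K] in
theorem IsRad.unramified_outside (hR : IsRad L p a)
    (hvp : ∀ v ∉ S, (p : 𝓞 K) ∉ v.asIdeal) (haS : a ∈ sU (S : Set (HeightOneSpectrum (𝓞 K))))
    (w : HeightOneSpectrum (𝓞 L)) (hw : below K w ∉ S) : ram K w = 1 :=
  hR.ram_eq_one (hvp _ hw) (by rw [haS _ hw]; exact dvd_zero _)

/-- The second inequality: global elements which are norms outside `S` give a subgroup of
index `p`. -/
theorem IsRad.index_outNorm_sup (hζ : IsPrimitiveRoot ζ p) (hR : IsRad L p a)
    (hS : IsPrincipalOutside (S : Set (HeightOneSpectrum (𝓞 K))))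
    (hvp : ∀ v ∉ S, (p : 𝓞 K) ∉ v.asIdeal) (haS : a ∈ sU (S : Set (HeightOneSpectrum (𝓞 K)))) :
    (outNorm L S ⊔ normsAt L S).index = p := by
  classical
  have hunr := hR.unramified_outside hvp haS
  obtain ⟨W, hcard, hW, hsurj⟩ := exists_auxSet hζ hvp [a] (Units.rank K + S.card) (by simp)
  obtain ⟨i0, i1⟩ := hsurj.index_le hζ hS hvp fun w hw => (hW w hw).1
  rw [hcard, pow_succ'] at i1
  have hle : sU ((S ∪ W : Finset _) : Set (HeightOneSpectrum (𝓞 K))) ⊔
      infOn (fun v => locPow v p) S ≤ outNorm L S ⊔ normsAt L S :=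
    sup_le_sup (sU_le_outNorm hR.deg hvp hunr fun w hw =>
      hR.split_of_mem_locPow hζ ((hW w hw).2 a (List.mem_singleton_self a)))
      (infOn_mono fun v _ => locPow_le_locNorm hR.deg v)
  have hdvd := Subgroup.index_dvd_of_le hle
  have h0 : (outNorm L S ⊔ normsAt L S).index ≠ 0 := fun h => i0 (by
    rwa [h, zero_dvd_iff] at hdvd)
  refine le_antisymm ?_ (le_index_of_pow_mem
    (outNorm_sup_normsAt_ne_top hζ hR.deg hS hvp hunr) h0 fun x =>
      Subgroup.mem_sup_right (mem_infOn.2 fun v _ => pow_mem_locNorm hR.deg v x))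
  exact (Nat.le_of_dvd (Nat.pos_of_ne_zero i0) hdvd).trans
    (Nat.le_of_mul_le_mul_right i1 (pow_pos hp.out.pos _))

omit [IsTotallyComplex K] in
theorem exists_goodSet_isRad (hζ : IsPrimitiveRoot ζ p) (hR : IsRad L p a)
    (S₀ : Finset (HeightOneSpectrum (𝓞 K))) :
    ∃ S, S₀ ⊆ S ∧ GoodSet L p S ∧ a ∈ sU (S : Set (HeightOneSpectrum (𝓞 K))) := by
  classical
  obtain ⟨T, hT⟩ := exists_finset_mem_sU a
  obtain ⟨S, hS, hgood⟩ := exists_goodSet (L := L) hζ hR.deg (S₀ ∪ T)
  exact ⟨S, Finset.subset_union_left.trans hS, hgood,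
    sU_mono (Finset.coe_subset.2 (Finset.subset_union_right.trans hS)) hT⟩

/-- At a good set all the inequalities are equalities. -/
theorem IsRad.counts (hζ : IsPrimitiveRoot ζ p) (hR : IsRad L p a) (hS : GoodSet L p S)
    (haS : a ∈ sU (S : Set (HeightOneSpectrum (𝓞 K)))) :
    (normsAt L S).index = p ^ numNonsplit L S ∧
      (sU (S : Set (HeightOneSpectrum (𝓞 K))) ⊔ normsAt L S).index = p ∧
      (normsAt L S).relIndex (sU (S : Set (HeightOneSpectrum (𝓞 K)))) =
        (normS L S).range.index := by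
  have h1 := hR.index_outNorm_sup hζ hS.principal hS.not_dvd haS
  have hdvd := Subgroup.index_dvd_of_le (outNorm_sup_normsAt_le hR.deg hS)
  obtain ⟨n0, n1⟩ := index_normsAt (L := L) hζ hR.deg S
  have hsplit : (normsAt L S).relIndex (sU (S : Set (HeightOneSpectrum (𝓞 K)))) *
      (sU (S : Set (HeightOneSpectrum (𝓞 K))) ⊔ normsAt L S).index = (normsAt L S).index := by
    rw [← Subgroup.relIndex_sup_right (sU (S : Set (HeightOneSpectrum (𝓞 K)))) (normsAt L S)]
    exact Subgroup.relIndex_mul_index le_sup_right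
  rw [h1] at hdvd
  have h2 := relIndex_normsAt_le (L := L) hζ hR.deg hS.principal hS.unramified
  have h3 : (sU (S : Set (HeightOneSpectrum (𝓞 K))) ⊔ normsAt L S).index ≤ p :=
    Nat.le_of_dvd hp.out.pos hdvd
  have h4 := Nat.mul_le_mul_left
    ((normsAt L S).relIndex (sU (S : Set (HeightOneSpectrum (𝓞 K))))) h3
  rw [hsplit] at h4
  have e1 : (normsAt L S).index = p ^ numNonsplit L S := le_antisymm (h4.trans h2) n1
  have e2 := normS_index (L := L) hζ hR.deg hS.principal hS.unramified
  refine ⟨e1, le_antisymm h3 ?_, Nat.eq_of_mul_eq_mul_right hp.out.pos (by rw [e2]; omega)⟩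
  by_contra h
  rw [not_le] at h
  have hpos : 0 < (normsAt L S).relIndex (sU (S : Set (HeightOneSpectrum (𝓞 K)))) :=
    Nat.pos_of_ne_zero fun h0 => n0 (by rw [← hsplit, h0, zero_mul])
  nlinarith

/-- The local norm index at a prime with one prime above is exactly `p`. -/
theorem locNorm_index (hζ : IsPrimitiveRoot ζ p) (hdeg : Module.finrank K L = p)
    {v : HeightOneSpectrum (𝓞 K)} (hv : ¬ IsSplit L v) : (locNorm L v).index = p := by
  classical
  obtain ⟨a, hR⟩ := exists_isRad (L := L) hζ hdeg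
  obtain ⟨S, hvS, hS, haS⟩ := exists_goodSet_isRad hζ hR {v}
  have h := (hR.counts hζ hS haS).1
  rw [normsAt, index_infOn _ S fun u _ => congr_le_locNorm hdeg u, numNonsplit,
    ← Finset.prod_const, Finset.prod_filter] at h
  refine le_antisymm (le_of_not_gt fun hgt => ?_) (le_locNorm_index hdeg hζ hv)
  refine (Finset.prod_lt_prod (fun u _ => ?_) (fun u _ => ?_) ⟨v, hvS (by simp), ?_⟩).ne h.symm
  · split_ifs <;> first | exact hp.out.pos | exact one_pos
  · by_cases hu : IsSplit L u
    · rw [if_neg (by simpa using hu)]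
      exact Nat.pos_of_ne_zero (locNorm_index_ne_zero hdeg hζ u)
    · rw [if_pos hu]
      exact le_locNorm_index hdeg hζ hu
  · rw [if_pos hv]
    exact hgt

/-- The Hasse norm theorem in prime degree. -/
theorem exists_norm_of_locNorm (hζ : IsPrimitiveRoot ζ p) (hdeg : Module.finrank K L = p)
    {x : Kˣ} (h : ∀ v : HeightOneSpectrum (𝓞 K), x ∈ locNorm L v) :
    x ∈ (normU K L).range := by
  classical
  obtain ⟨a, hR⟩ := exists_isRad (L := L) hζ hdeg
  obtain ⟨T, hT⟩ := exists_finset_mem_sU x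
  obtain ⟨S, hTS, hS, haS⟩ := exists_goodSet_isRad hζ hR T
  obtain ⟨-, -, h3⟩ := hR.counts hζ hS haS
  set U := sU (S : Set (HeightOneSpectrum (𝓞 K)))
  have hle : (normS L S).range ≤ (normsAt L S).subgroupOf U := by
    rintro _ ⟨y, rfl⟩
    exact range_normU_le_normsAt ⟨y, rfl⟩
  have h0 : (normS L S).range.index ≠ 0 := fun h0 => by
    have := normS_index (L := L) hζ hdeg hS.principal hS.unramified
    rw [h0, zero_mul] at this
    exact pow_ne_zero _ hp.out.ne_zero this.symm
  have : (normS L S).range.FiniteIndex := ⟨h0⟩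
  have heq : (normS L S).range = (normsAt L S).subgroupOf U := by
    refine le_antisymm hle (Subgroup.relIndex_eq_one.1 ?_)
    have h4 := Subgroup.relIndex_mul_index hle
    rw [← h3] at h4
    change _ * (normsAt L S).relIndex U = _ at h4
    have hpos : 0 < (normsAt L S).relIndex U := Nat.pos_of_ne_zero (h3 ▸ h0)
    exact Nat.eq_of_mul_eq_mul_right hpos (h4.trans (one_mul _).symm)
  have hx : (⟨x, sU_mono (Finset.coe_subset.2 hTS) hT⟩ : U) ∈ (normsAt L S).subgroupOf U :=
    mem_infOn.2 fun v _ => h v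
  rw [← heq] at hx
  obtain ⟨y, hy⟩ := hx
  exact ⟨y, congrArg Subtype.val hy⟩

/-- The Hasse norm theorem with local norms given by congruences. -/
theorem exists_norm_eq_of_valuation_le (hζ : IsPrimitiveRoot ζ p)
    (hdeg : Module.finrank K L = p) (x : Kˣ)
    (h : ∀ v : HeightOneSpectrum (𝓞 K), ∀ m : ℕ,
      ∃ z : L, v.valuation K (Algebra.norm K z / (x : K) - 1) ≤ exp (-(m : ℤ))) :
    ∃ z : L, Algebra.norm K z = (x : K) := by
  suffices x ∈ (normU K L).range by
    obtain ⟨y, hy⟩ := this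
    exact ⟨y, by rw [← coe_normU, hy]⟩
  refine exists_norm_of_locNorm hζ hdeg fun v => mem_locNorm.2 fun n => ?_
  obtain ⟨z, hz⟩ := h v (n + 1)
  have hz0 : z ≠ 0 := fun h0 => by
    rw [h0, Algebra.norm_zero, zero_div, zero_sub, Valuation.map_neg, map_one,
      ← exp_zero, exp_le_exp] at hz
    omega
  have hc : normU K L (Units.mk0 z hz0) / x ∈ congr v (n + 1) :=
    mem_congr_of_pos v n.succ_pos (by
      rw [Units.val_div_eq_div_val, coe_normU, Units.val_mk0]; exact hz)
  refine ⟨Units.mk0 z hz0, congr_anti v n.le_succ ?_⟩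
  rw [← inv_div]
  exact inv_mem hc

end Fermat.Agent.CFT
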