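import Fermat.Agent.CFT.SNorm

/-!
# Finitely many local conditions; the number of local `p`-th power classes

Conditions at finitely many primes are independent, so the index of the local `p`-th powers at a
finite set is the product of the local indices; units modulo local powers away from `p` are
cyclic.
-/

set_option maxSynthPendingDepth 3

noncomputable section

namespace Fermat.Agent.CFT

open NumberField IsDedekindDomain WithZero

variable {K : Type} [Field K]

/-- The elements satisfying the local conditions `H` at all primes of `S`. -/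
def infOn (H : HeightOneSpectrum (𝓞 K) → Subgroup Kˣ) (S : Finset (HeightOneSpectrum (𝓞 K))) :
    Subgroup Kˣ :=
  ⨅ v ∈ S, H v

theorem mem_infOn {H : HeightOneSpectrum (𝓞 K) → Subgroup Kˣ}
    {S : Finset (HeightOneSpectrum (𝓞 K))} {x : Kˣ} : x ∈ infOn H S ↔ ∀ v ∈ S, x ∈ H v := by
  simp [infOn, Subgroup.mem_iInf]

theorem infOn_mono {H H' : HeightOneSpectrum (𝓞 K) → Subgroup Kˣ}
    {S : Finset (HeightOneSpectrum (𝓞 K))} (h : ∀ v ∈ S, H v ≤ H' v) : infOn H S ≤ infOn H' S :=
  fun _ hx => mem_infOn.2 fun v hv => h v hv (mem_infOn.1 hx v hv)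

theorem infOn_anti (H : HeightOneSpectrum (𝓞 K) → Subgroup Kˣ)
    {S T : Finset (HeightOneSpectrum (𝓞 K))} (h : S ⊆ T) : infOn H T ≤ infOn H S :=
  fun _ hx => mem_infOn.2 fun v hv => mem_infOn.1 hx v (h hv)

variable [NumberField K]

/-- Local conditions at different primes are independent. -/
theorem index_infOn (H : HeightOneSpectrum (𝓞 K) → Subgroup Kˣ)
    (S : Finset (HeightOneSpectrum (𝓞 K))) (hH : ∀ v ∈ S, ∃ n, congr v n ≤ H v) :
    (infOn H S).index = ∏ v ∈ S, (H v).index := by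
  classical
  let f : Kˣ →* ((v : S) → Kˣ ⧸ H v) :=
    MonoidHom.mk' (fun x v => (x : Kˣ ⧸ H v)) fun _ _ => rfl
  have hker : f.ker = infOn H S := by
    ext x
    rw [MonoidHom.mem_ker, mem_infOn, funext_iff]
    exact ⟨fun h v hv => (QuotientGroup.eq_one_iff x).1 (h ⟨v, hv⟩),
      fun h v => (QuotientGroup.eq_one_iff x).2 (h v v.2)⟩
  have hsurj : Function.Surjective f := fun q => by
    choose! n hn using hH
    choose b hb using fun v : S => QuotientGroup.mk_surjective (q v)
    obtain ⟨z, hz⟩ := exists_approx S (fun v => if h : v ∈ S then b ⟨v, h⟩ else 1) (S.sup n)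
    refine ⟨z, funext fun v => ?_⟩
    rw [← hb v]
    refine (QuotientGroup.eq.2 ?_ : (z : Kˣ ⧸ H v) = b v)
    have h := hz v v.2
    rw [dif_pos v.2] at h
    rw [← div_eq_inv_mul, ← inv_div]
    exact inv_mem (hn v v.2 (congr_anti _ (Finset.le_sup v.2) h))
  rw [← hker, Subgroup.index_ker, MonoidHom.range_eq_top.2 hsurj, Subgroup.card_top, Nat.card_pi,
    ← Finset.prod_coe_sort S (fun v => (H v).index)]
  rfl

theorem index_infOn_ne_zero (H : HeightOneSpectrum (𝓞 K) → Subgroup Kˣ)
    (S : Finset (HeightOneSpectrum (𝓞 K))) (hH : ∀ v ∈ S, ∃ n, congr v n ≤ H v)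
    (hH0 : ∀ v ∈ S, (H v).index ≠ 0) : (infOn H S).index ≠ 0 := by
  rw [index_infOn H S hH]
  exact Finset.prod_ne_zero_iff.2 hH0

variable (p : ℕ) [hp : Fact p.Prime]

theorem prod_absNorm_pow_le (S : Finset (HeightOneSpectrum (𝓞 K))) :
    ∏ v ∈ S, Ideal.absNorm v.asIdeal ^ absRam v p ≤ p ^ Module.finrank ℚ K := by
  classical
  have hdvd : ∀ v ∈ S, v.asIdeal ^ absRam v p ∣ Ideal.span {(p : 𝓞 K)} := fun v _ => by
    rw [Ideal.dvd_span_singleton, ← ordGE_algebraMap_iff, map_natCast]
    exact ordGE_p v p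
  have hprod : ∏ v ∈ S, v.asIdeal ^ absRam v p ∣ Ideal.span {(p : 𝓞 K)} := by
    refine Finset.prod_dvd_of_coprime (fun v _ u _ hne => ?_) hdvd
    refine IsCoprime.pow (Ideal.isCoprime_iff_sup_eq.2 ?_)
    exact Ideal.IsMaximal.coprime_of_ne v.isMaximal u.isMaximal
      fun e => hne (HeightOneSpectrum.ext e)
  have h := Ideal.absNorm.toMonoidHom.map_dvd hprod
  have e : Ideal.absNorm (Ideal.span {(p : 𝓞 K)}) = p ^ Module.finrank ℚ K := by
    rw [Ideal.absNorm_span_singleton, show (p : 𝓞 K) = algebraMap ℤ (𝓞 K) (p : ℤ) by simp,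
      Algebra.norm_algebraMap, RingOfIntegers.rank, Int.natAbs_pow, Int.natAbs_natCast]
  change Ideal.absNorm _ ∣ Ideal.absNorm _ at h
  rw [e, map_prod] at h
  simp only [map_pow] at h
  exact Nat.le_of_dvd (pow_pos hp.out.pos _) h

/-- A bound for the number of classes modulo local `p`-th powers at the primes of `S`. -/
theorem index_infOn_locPow_le [IsTotallyComplex K] {ζ : K} (hζ : IsPrimitiveRoot ζ p)
    (S : Finset (HeightOneSpectrum (𝓞 K))) :
    (infOn (fun v => locPow v p) S).index ≠ 0 ∧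
      (infOn (fun v => locPow v p) S).index ≤ p ^ (2 * (Units.rank K + S.card + 1)) := by
  have hH : ∀ v ∈ S, ∃ n, congr v n ≤ locPow v p := fun v _ => ⟨_, congr_le_locPow v p⟩
  refine ⟨index_infOn_ne_zero _ S hH fun v _ => (locPow_index_le v p hζ).1, ?_⟩
  rw [index_infOn _ S hH]
  calc ∏ v ∈ S, (locPow v p).index
      ≤ ∏ v ∈ S, (p ^ 2 * Ideal.absNorm v.asIdeal ^ absRam v p) :=
        Finset.prod_le_prod' fun v _ => (locPow_index_le v p hζ).2
    _ = p ^ (2 * S.card) * ∏ v ∈ S, Ideal.absNorm v.asIdeal ^ absRam v p := by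
        rw [Finset.prod_mul_distrib, Finset.prod_const, ← pow_mul]
    _ ≤ p ^ (2 * S.card) * p ^ Module.finrank ℚ K :=
        Nat.mul_le_mul_left _ (prod_absNorm_pow_le p S)
    _ = p ^ (2 * (Units.rank K + S.card + 1)) := by
        rw [← pow_add, ← rank_add_one]; congr 1; ring

variable {p}

/-- Adding a generator whose `p`-th power lies in the subgroup. -/
theorem relIndex_sup_zpowers_le {G : Type} [CommGroup G] (H : Subgroup G) {a : G}
    (ha : a ^ p ∈ H) : H.relIndex (H ⊔ Subgroup.zpowers a) ≠ 0 ∧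
      H.relIndex (H ⊔ Subgroup.zpowers a) ≤ p := by
  have hmap : (H ⊔ Subgroup.zpowers a).map (QuotientGroup.mk' H) =
      Subgroup.zpowers (a : G ⧸ H) := by
    rw [Subgroup.map_sup, MonoidHom.map_zpowers, (Subgroup.map_eq_bot_iff _).2
      (QuotientGroup.ker_mk' H).ge, bot_sup_eq]
    rfl
  have hcard : H.relIndex (H ⊔ Subgroup.zpowers a) = orderOf (a : G ⧸ H) := by
    have h := Subgroup.relIndex_ker (f := QuotientGroup.mk' H) (H ⊔ Subgroup.zpowers a)
    rw [QuotientGroup.ker_mk'] at h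
    rw [h, hmap, Nat.card_zpowers]
  have hd : orderOf (a : G ⧸ H) ∣ p := orderOf_dvd_of_pow_eq_one
    (by rw [← QuotientGroup.mk_pow, QuotientGroup.eq_one_iff]; exact ha)
  rw [hcard]
  exact ⟨fun h => hp.out.ne_zero (by rwa [h, zero_dvd_iff] at hd), Nat.le_of_dvd hp.out.pos hd⟩

/-- Away from `p`, units modulo local `p`-th powers form a cyclic group. -/
theorem exists_div_pow_mem_locPow {ζ : K} (hζ : IsPrimitiveRoot ζ p)
    {v : HeightOneSpectrum (𝓞 K)} (hv : (p : 𝓞 K) ∉ v.asIdeal) {a x : Kˣ} (ha : ord v a = 0)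
    (hx : ord v x = 0) (hna : a ∉ locPow v p) : ∃ i : ℤ, x / a ^ i ∈ locPow v p := by
  set H := locPow v p with hH
  set U := congr v 0 ⊔ H with hU
  obtain ⟨h0, h2⟩ := locPow_index_le v p hζ
  rw [absRam_eq_zero hv, pow_zero, mul_one, ← hH] at h2
  have hUp : p ≤ U.index := by
    refine le_index_of_pow_mem (fun htop => ?_) (fun h => h0 ?_) fun y =>
      Subgroup.mem_sup_right (pow_mem_locPow v p y)
    · obtain ⟨π, hπ⟩ := exists_ord_eq v 1
      obtain ⟨u, hu, t, ht, hut⟩ := Subgroup.mem_sup.1 (htop ▸ Subgroup.mem_top π : π ∈ U)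
      obtain ⟨y, hy⟩ := (mem_locPow v p).1 ht 0
      have h1 := hy.1
      rw [ord_div, ord_pow] at h1
      rw [← hut, ord_mul, hu.1, zero_add] at hπ
      have hd : (p : ℤ) ∣ 1 := ⟨ord v y, by linarith⟩
      have := Int.le_of_dvd one_pos hd
      have := hp.out.two_le
      omega
    · have := Subgroup.index_dvd_of_le (le_sup_right : H ≤ U)
      rw [h, zero_dvd_iff] at this
      exact this
  have hHU : H.relIndex U ≤ p := by
    have h := Subgroup.relIndex_mul_index (le_sup_right : H ≤ U)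
    have : H.relIndex U * p ≤ p * p := by
      calc H.relIndex U * p ≤ H.relIndex U * U.index := Nat.mul_le_mul_left _ hUp
        _ = H.index := h
        _ ≤ p * p := by rw [← pow_two]; exact h2
    exact Nat.le_of_mul_le_mul_right this hp.out.pos
  set A := H ⊔ Subgroup.zpowers a with hA
  have hAU : A ≤ U := sup_le le_sup_right (Subgroup.zpowers_le.2
    (Subgroup.mem_sup_left ((mem_congr_zero v).2 ha)))
  have hA1 : p ≤ H.relIndex A := by
    obtain ⟨hne, -⟩ := relIndex_sup_zpowers_le H (pow_mem_locPow v p a)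
    refine le_index_of_pow_mem ?_ hne fun y => pow_mem_locPow v p (y : Kˣ)
    intro htop
    exact hna (Subgroup.subgroupOf_eq_top.1 htop (Subgroup.mem_sup_right (Subgroup.mem_zpowers a)))
  have hUne : H.relIndex U ≠ 0 := fun h => h0 (by
    rw [← Subgroup.relIndex_mul_index (le_sup_right : H ≤ U), h, zero_mul])
  have hUA : U ≤ A := by
    rw [← Subgroup.relIndex_eq_one]
    have h := Subgroup.relIndex_mul_relIndex H A U le_sup_left hAU
    rcases Nat.eq_zero_or_pos (A.relIndex U) with h' | h'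
    · rw [h', mul_zero] at h; exact absurd h.symm hUne
    · nlinarith [hp.out.pos]
  obtain ⟨t, ht, z, hz, htz⟩ := Subgroup.mem_sup.1
    (hUA (Subgroup.mem_sup_left ((mem_congr_zero v).2 hx)))
  obtain ⟨i, rfl⟩ := Subgroup.mem_zpowers_iff.1 hz
  exact ⟨i, by rw [← htz, mul_div_cancel_right]; exact ht⟩

end Fermat.Agent.CFT
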