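import Mathlib.Analysis.Complex.Polynomial.Basic
import Mathlib.GroupTheory.FiniteAbelian.Duality
import Mathlib.RingTheory.RootsOfUnity.AlgebraicallyClosed
import Fermat.Agent.CFT.Inequalities

/-!
# Reciprocity for quadratic extensions of a totally complex field

For a good finite set `S` and `c` an `S`-unit let `recH S c` be the subgroup of classes at `S`
represented by elements which are norms from `K(√c)` outside `S`.  It has index two, its sign
character is multiplicative in `c`, and it is non-trivial at every prime where `c` is not a local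
square.  Hence (in `Parity`) every element fails to be a local norm at an even number of primes.
-/

set_option maxSynthPendingDepth 3

noncomputable section

namespace Fermat.Agent.CFT

open NumberField IsDedekindDomain WithZero

variable {K : Type} [Field K] [NumberField K]

section Congr

variable {L L' : Type} [Field L] [NumberField L] [Algebra K L] [Field L'] [NumberField L']
  [Algebra K L'] {p : ℕ} [hp : Fact p.Prime]

omit [NumberField L] [NumberField L'] in
theorem locNorm_congr (e : L ≃ₐ[K] L') (v : HeightOneSpectrum (𝓞 K)) :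
    locNorm L v = locNorm L' v := by
  have h : (normU K L).range = (normU K L').range := by
    ext x
    constructor
    · rintro ⟨y, rfl⟩
      exact ⟨Units.map (e : L →* L') y, Units.ext (Algebra.norm_eq_of_algEquiv e (y : L))⟩
    · rintro ⟨y, rfl⟩
      exact ⟨Units.map (e.symm : L' →* L) y,
        Units.ext (Algebra.norm_eq_of_algEquiv e.symm (y : L'))⟩
  simp only [locNorm, h]

theorem IsRad.locNorm_eq_radField {ζ : K} (hζ : IsPrimitiveRoot ζ p) {a : Kˣ}
    (h : IsRad L p a) (v : HeightOneSpectrum (𝓞 K)) :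
    locNorm L v = locNorm (RadField K p a) v := by
  obtain ⟨r, hr⟩ := h.root
  have hsplit : ((Polynomial.X ^ p - Polynomial.C (a : K)).map (algebraMap K L)).Splits := by
    rw [Polynomial.map_sub, Polynomial.map_pow, Polynomial.map_X, Polynomial.map_C]
    exact X_pow_sub_C_splits_of_isPrimitiveRoot (hζ.map_of_injective (algebraMap K L).injective) hr
  let f : RadField K p a →ₐ[K] L := Polynomial.SplittingField.lift _ hsplit
  have hf : Function.Bijective f := ⟨f.toRingHom.injective,
    (LinearMap.injective_iff_surjective_of_finrank_eq_finrank (f := f.toLinearMap)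
      ((isRad_radField hζ h.notPow).deg.trans h.deg.symm)).1 f.toRingHom.injective⟩
  exact (locNorm_congr (AlgEquiv.ofBijective f hf) v).symm

omit hp [NumberField K] [NumberField L] in
theorem IsRad.mul_powUnit {a : Kˣ} (h : IsRad L p a) (y : Kˣ) : IsRad L p (a * y ^ p) := by
  obtain ⟨r, hr⟩ := h.root
  refine ⟨h.deg, ⟨r * baseU K L y, ?_⟩, fun z hz => h.notPow (z / y) ?_⟩
  · rw [Units.val_mul, mul_pow, hr, coe_baseU, Units.val_mul, Units.val_pow_eq_pow_val, map_mul,
      map_pow]
  · rw [div_pow, hz, mul_div_cancel_right]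

end Congr

theorem isPrimitiveRoot_neg_one : IsPrimitiveRoot (-1 : K) 2 :=
  IsPrimitiveRoot.neg_one 0 (by norm_num)

/-- An ordinary finite set of exceptional primes. -/
structure BaseSet (p : ℕ) (S : Finset (HeightOneSpectrum (𝓞 K))) : Prop where
  principal : IsPrincipalOutside (S : Set (HeightOneSpectrum (𝓞 K)))
  not_dvd : ∀ v ∉ S, (p : 𝓞 K) ∉ v.asIdeal

variable {S : Finset (HeightOneSpectrum (𝓞 K))}

open scoped Classical in
/-- Classes at `S` represented by norms outside `S` from the field of a square root of `c`. -/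
def recH (S : Finset (HeightOneSpectrum (𝓞 K))) (c : Kˣ) : Subgroup Kˣ :=
  if IsSquare c then ⊤ else outNorm (RadField K 2 c) S ⊔ normsAt (RadField K 2 c) S

omit [NumberField K] in
theorem notPow_of_not_isSquare {c : Kˣ} (h : ¬ IsSquare c) : ∀ y : Kˣ, y ^ 2 ≠ c :=
  fun y hy => h ⟨y, by rw [← hy, sq]⟩

theorem recH_of_isSquare {c : Kˣ} (h : IsSquare c) : recH S c = ⊤ := if_pos h

theorem recH_of_not_isSquare {c : Kˣ} (h : ¬ IsSquare c) :
    recH S c = outNorm (RadField K 2 c) S ⊔ normsAt (RadField K 2 c) S := if_neg h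

theorem recH_mul_sq (c y : Kˣ) : recH S (c * y ^ 2) = recH S c := by
  by_cases h : IsSquare c
  · rw [recH_of_isSquare h, recH_of_isSquare]
    obtain ⟨z, rfl⟩ := h
    exact ⟨z * y, by rw [sq, mul_mul_mul_comm]⟩
  have h' : ¬ IsSquare (c * y ^ 2) := fun ⟨z, hz⟩ => h ⟨z / y, by
    rw [div_mul_div_comm, ← hz, ← sq, mul_div_cancel_right]⟩
  rw [recH_of_not_isSquare h, recH_of_not_isSquare h']
  have := isGalois_radField (p := 2) isPrimitiveRoot_neg_one (notPow_of_not_isSquare h)
  have hR := (isRad_radField (p := 2) isPrimitiveRoot_neg_one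
      (notPow_of_not_isSquare h)).mul_powUnit y
  simp only [outNorm, normsAt, hR.locNorm_eq_radField isPrimitiveRoot_neg_one]

variable [IsTotallyComplex K]

theorem index_recH (hB : BaseSet 2 S) {c : Kˣ}
    (hcS : c ∈ sU (S : Set (HeightOneSpectrum (𝓞 K)))) (hc : ¬ IsSquare c) :
    (recH S c).index = 2 := by
  rw [recH_of_not_isSquare hc]
  have := isGalois_radField (p := 2) isPrimitiveRoot_neg_one (notPow_of_not_isSquare hc)
  exact (isRad_radField (p := 2) isPrimitiveRoot_neg_one
    (notPow_of_not_isSquare hc)).index_outNorm_sup isPrimitiveRoot_neg_one hB.principal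
    hB.not_dvd hcS

omit [IsTotallyComplex K] in
theorem sU_union_le_recH (hB : BaseSet 2 S) [DecidableEq (HeightOneSpectrum (𝓞 K))] {c : Kˣ}
    (hcS : c ∈ sU (S : Set (HeightOneSpectrum (𝓞 K)))) {W : Finset (HeightOneSpectrum (𝓞 K))}
    (hW : ∀ w ∈ W, c ∈ locPow w 2) :
    sU ((S ∪ W : Finset _) : Set (HeightOneSpectrum (𝓞 K))) ⊔
      infOn (fun v => locPow v 2) S ≤ recH S c := by
  by_cases hc : IsSquare c
  · rw [recH_of_isSquare hc]; exact le_top
  rw [recH_of_not_isSquare hc]
  have := isGalois_radField (p := 2) isPrimitiveRoot_neg_one (notPow_of_not_isSquare hc)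
  have hR := isRad_radField (p := 2) isPrimitiveRoot_neg_one (notPow_of_not_isSquare hc)
  exact sup_le_sup (sU_le_outNorm hR.deg hB.not_dvd
    (hR.unramified_outside hB.not_dvd hcS)
    fun w hw => hR.split_of_mem_locPow isPrimitiveRoot_neg_one (hW w hw))
    (infOn_mono fun v _ => locPow_le_locNorm hR.deg v)

omit [IsTotallyComplex K] in
theorem sU_le_recH (hB : BaseSet 2 S) {c : Kˣ}
    (hcS : c ∈ sU (S : Set (HeightOneSpectrum (𝓞 K)))) :
    sU (S : Set (HeightOneSpectrum (𝓞 K))) ⊔ infOn (fun v => locPow v 2) S ≤ recH S c := by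
  classical
  simpa using sU_union_le_recH hB hcS (W := ∅) (by simp)

omit [NumberField K] [IsTotallyComplex K] in
theorem not_mem_closure_single {a b : Kˣ} (hb : ¬ IsSquare b) (hab : ¬ IsSquare (a * b)) :
    b ∉ Subgroup.closure {t | t ∈ [a]} ⊔ (powMonoidHom 2 : Kˣ →* Kˣ).range := fun h => by
  obtain ⟨t, ht, _, ⟨y, rfl⟩, rfl⟩ := Subgroup.mem_sup.1 h
  rw [show {t | t ∈ [a]} = ({a} : Set Kˣ) by ext; simp, ← Subgroup.zpowers_eq_closure] at ht
  obtain ⟨i, rfl⟩ := Subgroup.mem_zpowers_iff.1 ht
  obtain ⟨k, rfl⟩ | ⟨k, rfl⟩ := Int.even_or_odd i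
  · exact hb ⟨a ^ k * y, by
      rw [zpow_add, powMonoidHom_apply, sq, mul_mul_mul_comm]⟩
  · refine hab ⟨a ^ (k + 1) * y, ?_⟩
    rw [powMonoidHom_apply, sq, ← mul_assoc, ← zpow_one_add, mul_mul_mul_comm, ← zpow_add,
      show k + 1 + (k + 1) = 1 + (2 * k + 1) by ring]

/-- Two independent classes give different subgroups, meeting inside that of the product. -/
theorem recH_pair (hB : BaseSet 2 S) {a b : Kˣ}
    (haS : a ∈ sU (S : Set (HeightOneSpectrum (𝓞 K))))
    (hbS : b ∈ sU (S : Set (HeightOneSpectrum (𝓞 K))))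
    (ha : ¬ IsSquare a) (hb : ¬ IsSquare b) (hab : ¬ IsSquare (a * b)) :
    recH S a ≠ recH S b ∧ recH S a ⊓ recH S b ≤ recH S (a * b) := by
  classical
  have hζ : IsPrimitiveRoot (-1 : K) 2 := isPrimitiveRoot_neg_one
  set d := Units.rank K + S.card + 1 with hd
  have hd2 : 2 ≤ d := by
    obtain ⟨P, hP, hP2⟩ := Ideal.exists_le_maximal (Ideal.span {(2 : 𝓞 K)})
      (fun htop => by
        have h1 := congrArg Ideal.absNorm htop
        rw [Ideal.absNorm_top, Ideal.absNorm_span_singleton,
          show (2 : 𝓞 K) = algebraMap ℤ (𝓞 K) 2 by simp, Algebra.norm_algebraMap,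
          RingOfIntegers.rank, Int.natAbs_pow] at h1
        have := Module.finrank_pos (R := ℚ) (M := K)
        simp at h1
        omega)
    have hne : P ≠ ⊥ := fun hb0 => two_ne_zero (α := 𝓞 K) (by
      rw [hb0, le_bot_iff, Ideal.span_singleton_eq_bot] at hP2; exact hP2)
    have h2 : (⟨P, hP.isPrime, hne⟩ : HeightOneSpectrum (𝓞 K)) ∈ S := by
      by_contra h
      exact hB.not_dvd _ h (by exact_mod_cast hP2 (Ideal.mem_span_singleton_self _))
    have := Finset.card_pos.2 ⟨_, h2⟩
    omega
  obtain ⟨W, hcard, hW, hsurj⟩ := exists_auxSet hζ hB.not_dvd [a, b] (d - 2) (by simp; omega)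
  have hWa : ∀ w ∈ W, a ∈ locPow w 2 := fun w hw => (hW w hw).2 a (by simp)
  have hWb : ∀ w ∈ W, b ∈ locPow w 2 := fun w hw => (hW w hw).2 b (by simp)
  have hneq : recH S a ≠ recH S b := by
    intro heq
    obtain ⟨w, hw, hwa, hwb⟩ := exists_aux_prime hζ [a] (not_mem_closure_single hb hab) (S ∪ W)
    obtain ⟨u, hu, hub, hua⟩ := exists_aux_prime hζ [b]
      (not_mem_closure_single ha (by rwa [mul_comm])) (insert w (S ∪ W))
    simp only [Finset.mem_insert, Finset.mem_union, not_or] at hw hu
    have s1 := hsurj.insert hζ hw.1 (hB.not_dvd w hw.1) hbS (mem_infOn.2 hWb) hwb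
    have s2 := s1.insert hζ hu.2.1 (hB.not_dvd u hu.2.1) haS (mem_infOn.2 fun v hv => by
      rcases Finset.mem_insert.1 hv with rfl | hv
      · exact hwa a (by simp)
      · exact hWa v hv) hua
    have hWS : ∀ v ∈ insert u (insert w W), v ∉ S := fun v hv => by
      rcases Finset.mem_insert.1 hv with rfl | hv
      · exact hu.2.1
      rcases Finset.mem_insert.1 hv with rfl | hv
      · exact hw.1
      · exact (hW v hv).1
    obtain ⟨i0, i1⟩ := s2.index_le hζ hB.principal hB.not_dvd hWS
    rw [Finset.card_insert_of_notMem (by simp [hu.1, hu.2.2]),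
      Finset.card_insert_of_notMem hw.2, hcard, show d - 2 + 1 + 1 = d by omega] at i1
    have hone : (sU ((S ∪ insert u (insert w W) : Finset _) : Set (HeightOneSpectrum (𝓞 K))) ⊔
        infOn (fun v => locPow v 2) S).index = 1 := by
      have : 0 < 2 ^ d := pow_pos two_pos _
      have h1 := Nat.le_of_mul_le_mul_right (i1.trans (one_mul _).ge) this
      omega
    have hle : sU ((S ∪ insert u (insert w W) : Finset _) : Set (HeightOneSpectrum (𝓞 K))) ⊔
        infOn (fun v => locPow v 2) S ≤ recH S a := by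
      refine sup_le (fun x hx => ?_) (le_sup_right.trans (sU_le_recH hB haS))
      obtain ⟨x₁, hx₁⟩ := hB.principal.exists_ord (fun v => if v = w then ord w x else 0)
        ((Set.finite_singleton w).subset fun v hv => by
          by_contra h; exact hv.2 (if_neg h))
      have hxa : x₁ ∈ sU ((S ∪ insert w W : Finset _) : Set (HeightOneSpectrum (𝓞 K))) :=
        fun v hv => by
          simp only [Finset.coe_union, Finset.coe_insert, Set.mem_union, Finset.mem_coe,
            Set.mem_insert_iff, not_or] at hv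
          rw [hx₁ v hv.1, if_neg hv.2.1]
      have hxb : x / x₁ ∈ sU ((S ∪ insert u W : Finset _) : Set (HeightOneSpectrum (𝓞 K))) :=
        fun v hv => by
          simp only [Finset.coe_union, Finset.coe_insert, Set.mem_union, Finset.mem_coe,
            Set.mem_insert_iff, not_or] at hv
          rw [ord_div, hx₁ v hv.1]
          by_cases hvw : v = w
          · rw [if_pos hvw, hvw, sub_self]
          · rw [if_neg hvw, hx v (by simp [hv.1, hv.2.1, hv.2.2, hvw]), sub_zero]
      have h1 : x₁ ∈ recH S a := sU_union_le_recH hB haS (W := insert w W) (fun v hv => by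
        rcases Finset.mem_insert.1 hv with rfl | hv
        · exact hwa a (by simp)
        · exact hWa v hv) (Subgroup.mem_sup_left hxa)
      have h2 : x / x₁ ∈ recH S b := sU_union_le_recH hB hbS (W := insert u W) (fun v hv => by
        rcases Finset.mem_insert.1 hv with rfl | hv
        · exact hub b (by simp)
        · exact hWb v hv) (Subgroup.mem_sup_left hxb)
      rw [← heq] at h2
      simpa using mul_mem h2 h1
    rw [Subgroup.index_eq_one.1 hone, top_le_iff] at hle
    have := index_recH hB haS ha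
    rw [hle, Subgroup.index_top] at this
    omega
  refine ⟨hneq, ?_⟩
  obtain ⟨i0, i1⟩ := hsurj.index_le hζ hB.principal hB.not_dvd fun w hw => (hW w hw).1
  set V := sU ((S ∪ W : Finset _) : Set (HeightOneSpectrum (𝓞 K))) ⊔
    infOn (fun v => locPow v 2) S
  have hVa : V ≤ recH S a := sU_union_le_recH hB haS hWa
  have hVb : V ≤ recH S b := sU_union_le_recH hB hbS hWb
  have hVab : V ≤ recH S (a * b) :=
    sU_union_le_recH hB (mul_mem haS hbS) fun w hw => mul_mem (hWa w hw) (hWb w hw)
  have hV4 : V.index ≤ 4 := by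
    rw [hcard] at i1
    refine Nat.le_of_mul_le_mul_right (i1.trans (le_of_eq ?_)) (pow_pos two_pos (d - 2))
    rw [show (4 : ℕ) = 2 ^ 2 by norm_num, ← pow_add]
    congr 1
    omega
  suffices recH S a ⊓ recH S b ≤ V from this.trans hVab
  have hI0 : (recH S a ⊓ recH S b).index ≠ 0 :=
    Subgroup.index_inf_ne_zero (by rw [index_recH hB haS ha]; norm_num)
      (by rw [index_recH hB hbS hb]; norm_num)
  have hI4 : 4 ≤ (recH S a ⊓ recH S b).index := by
    have h := Subgroup.relIndex_mul_index (inf_le_left : recH S a ⊓ recH S b ≤ recH S a)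
    rw [index_recH hB haS ha] at h
    have : (recH S a ⊓ recH S b).relIndex (recH S a) ≠ 1 := fun h1 => by
      have hle := (Subgroup.relIndex_eq_one.1 h1).trans inf_le_right
      have h2 := Subgroup.relIndex_mul_index hle
      rw [index_recH hB haS ha, index_recH hB hbS hb] at h2
      exact hneq (le_antisymm hle (Subgroup.relIndex_eq_one.1 (by omega)))
    omega
  have h := Subgroup.relIndex_mul_index (le_inf hVa hVb)
  refine Subgroup.relIndex_eq_one.1 ?_
  have hpos : V.relIndex (recH S a ⊓ recH S b) ≠ 0 := fun h0 => i0 (by rw [← h, h0, zero_mul])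
  nlinarith [Nat.pos_of_ne_zero hpos]

open scoped Classical in
/-- The sign of `recH S c`. -/
def recSign (S : Finset (HeightOneSpectrum (𝓞 K))) (c x : Kˣ) : ℂˣ :=
  if x ∈ recH S c then 1 else -1

omit [IsTotallyComplex K] in
theorem recSign_eq_one_iff {c x : Kˣ} : recSign S c x = 1 ↔ x ∈ recH S c := by
  classical
  rw [recSign]
  split_ifs with h
  · simp [h]
  · refine iff_of_false (fun e => ?_) h
    have := congrArg Units.val e
    norm_num at this

theorem recSign_mul_right (hB : BaseSet 2 S) {c : Kˣ}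
    (hcS : c ∈ sU (S : Set (HeightOneSpectrum (𝓞 K)))) (x y : Kˣ) :
    recSign S c (x * y) = recSign S c x * recSign S c y := by
  classical
  have key : x * y ∈ recH S c ↔ (x ∈ recH S c ↔ y ∈ recH S c) := by
    by_cases hc : IsSquare c
    · simp [recH_of_isSquare hc]
    · exact Subgroup.mul_mem_iff_of_index_two (index_recH hB hcS hc)
  simp only [recSign, key]
  by_cases hx : x ∈ recH S c <;> by_cases hy : y ∈ recH S c <;> simp [hx, hy]

/-- The sign is multiplicative in `c`. -/
theorem recSign_mul_left (hB : BaseSet 2 S) {a b : Kˣ}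
    (haS : a ∈ sU (S : Set (HeightOneSpectrum (𝓞 K))))
    (hbS : b ∈ sU (S : Set (HeightOneSpectrum (𝓞 K)))) (x : Kˣ) :
    recSign S (a * b) x = recSign S a x * recSign S b x := by
  classical
  suffices x ∈ recH S (a * b) ↔ (x ∈ recH S a ↔ x ∈ recH S b) by
    simp only [recSign, this]
    by_cases hx : x ∈ recH S a <;> by_cases hy : x ∈ recH S b <;> simp [hx, hy]
  by_cases ha : IsSquare a
  · obtain ⟨y, rfl⟩ := ha
    rw [recH_of_isSquare ⟨y, rfl⟩, ← sq, mul_comm, recH_mul_sq]
    simp
  by_cases hb : IsSquare b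
  · obtain ⟨y, rfl⟩ := hb
    rw [recH_of_isSquare (c := y * y) ⟨y, rfl⟩, ← sq, recH_mul_sq]
    simp
  by_cases hab : IsSquare (a * b)
  · obtain ⟨y, hy⟩ := hab
    have e : b = a * (y / a) ^ 2 := by
      rw [div_pow, sq y, ← hy, sq a, mul_div_mul_left_eq_div, mul_div_cancel]
    rw [recH_of_isSquare ⟨y, hy⟩, e, recH_mul_sq]
    simp
  obtain ⟨hne, hab_le⟩ := recH_pair hB haS hbS ha hb hab
  have hne2 : ¬ IsSquare (a * (a * b)) := fun ⟨y, hy⟩ => hb ⟨y / a, by
    rw [div_mul_div_comm, ← hy, ← mul_assoc, mul_div_cancel_left]⟩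
  have hne3 : ¬ IsSquare (b * (a * b)) := fun ⟨y, hy⟩ => ha ⟨y / b, by
    rw [div_mul_div_comm, ← hy, mul_comm a b, ← mul_assoc, mul_div_cancel_left]⟩
  obtain ⟨-, hb_le⟩ := recH_pair hB haS (mul_mem haS hbS) ha hab hne2
  rw [show a * (a * b) = b * a ^ 2 by rw [sq]; ac_rfl, recH_mul_sq] at hb_le
  obtain ⟨-, ha_le⟩ := recH_pair hB hbS (mul_mem haS hbS) hb hab hne3
  rw [show b * (a * b) = a * b ^ 2 by rw [sq]; ac_rfl, recH_mul_sq] at ha_le
  refine ⟨fun h => ⟨fun hxa => hb_le ⟨hxa, h⟩, fun hxb => ha_le ⟨hxb, h⟩⟩, fun h => ?_⟩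
  by_cases hxa : x ∈ recH S a
  · exact hab_le ⟨hxa, h.1 hxa⟩
  have hxb : x ∉ recH S b := fun hxb => hxa (h.2 hxb)
  have ia := index_recH hB haS ha
  have ib := index_recH hB hbS hb
  obtain ⟨y, hya, hyb⟩ : ∃ y ∈ recH S a, y ∉ recH S b := by
    by_contra hh
    push Not at hh
    refine hne (le_antisymm hh (Subgroup.relIndex_eq_one.1 ?_))
    have h2 := Subgroup.relIndex_mul_index (show recH S a ≤ recH S b from hh)
    rw [ia, ib] at h2
    omega
  by_contra hxab
  have hxyb : x * y ∈ recH S b :=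
    (Subgroup.mul_mem_iff_of_index_two ib).2 (iff_of_false hxb hyb)
  have hxyab : x * y ∈ recH S (a * b) :=
    (Subgroup.mul_mem_iff_of_index_two (index_recH hB (mul_mem haS hbS) hab)).2
      (iff_of_false hxab fun hy => hyb (hb_le ⟨hya, hy⟩))
  exact hxa (((Subgroup.mul_mem_iff_of_index_two ia).1 (ha_le ⟨hxyb, hxyab⟩)).2 hya)

/-- The common kernel of all the signs consists of the `S`-units modulo local squares. -/
theorem mem_sup_of_forall_recH (hB : BaseSet 2 S) {x : Kˣ}
    (hx : ∀ c ∈ sU (S : Set (HeightOneSpectrum (𝓞 K))), x ∈ recH S c) :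
    x ∈ sU (S : Set (HeightOneSpectrum (𝓞 K))) ⊔ infOn (fun v => locPow v 2) S := by
  classical
  have hζ : IsPrimitiveRoot (-1 : K) 2 := isPrimitiveRoot_neg_one
  set U := sU (S : Set (HeightOneSpectrum (𝓞 K)))
  set B := U ⊔ infOn (fun v => locPow v 2) S
  set X : Subgroup Kˣ := ⨅ (c : Kˣ) (_ : c ∈ U), recH S c with hX
  have hBX : B ≤ X := le_iInf fun c => le_iInf fun hc => sU_le_recH hB hc
  obtain ⟨b0, b1⟩ : B.index ≠ 0 ∧ B.index ≤ 2 ^ (Units.rank K + S.card + 1) := by
    have h := (show SurjAt 2 S ∅ from fun y _ => Subgroup.mem_sup_right (mem_infOn.2 (by simp))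
      ).index_le hζ hB.principal hB.not_dvd (by simp)
    rw [Finset.union_empty, Finset.card_empty, pow_zero, mul_one] at h
    exact h
  have hX0 : X.index ≠ 0 := fun h => b0 (by
    have := Subgroup.index_dvd_of_le hBX
    rwa [h, zero_dvd_iff] at this)
  have : Finite (Kˣ ⧸ X) := Nat.finite_of_card_ne_zero hX0
  let g : U → Kˣ →* ℂˣ := fun c => MonoidHom.mk' (recSign S (c : Kˣ))
    (recSign_mul_right hB c.2)
  let ψ : U →* ((Kˣ ⧸ X) →* ℂˣ) := MonoidHom.mk' (fun c => QuotientGroup.lift X (g c) fun y hy =>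
      (recSign_eq_one_iff.2 ((Subgroup.mem_iInf.1 ((Subgroup.mem_iInf.1 hy) (c : Kˣ))) c.2) :))
    fun c d => MonoidHom.ext fun q => by
      obtain ⟨y, rfl⟩ := QuotientGroup.mk_surjective q
      exact recSign_mul_left hB c.2 d.2 y
  have hker : ψ.ker ≤ ((powMonoidHom 2 : Kˣ →* Kˣ).range).subgroupOf U := by
    intro c hc
    rw [Subgroup.mem_subgroupOf]
    by_contra hnc
    have hns : ¬ IsSquare (c : Kˣ) := fun ⟨y, hy⟩ => hnc ⟨y, by
      rw [powMonoidHom_apply, sq, hy]⟩
    have htop : recH S (c : Kˣ) = ⊤ := eq_top_iff.2 fun y _ => recSign_eq_one_iff.1 (by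
      have := DFunLike.congr_fun (MonoidHom.mem_ker.1 hc) (QuotientGroup.mk y)
      simpa [ψ, g] using this)
    have := index_recH hB c.2 hns
    rw [htop, Subgroup.index_top] at this
    omega
  have h1 : 2 ^ (Units.rank K + S.card + 1) ≤ X.index := by
    have hH : Finite ((Kˣ ⧸ X) →* ℂˣ) := Nat.finite_of_card_ne_zero (by
      rw [CommGroup.card_monoidHom_of_hasEnoughRootsOfUnity]; exact hX0)
    have hd := Subgroup.index_dvd_of_le hker
    rw [Subgroup.index_ker] at hd
    change ((powMonoidHom 2 : Kˣ →* Kˣ).range).relIndex U ∣ _ at hd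
    rw [pow_range_relIndex_sU (p := 2) hζ S] at hd
    refine (Nat.le_of_dvd Nat.card_pos hd).trans ?_
    calc Nat.card ψ.range ≤ Nat.card ((Kˣ ⧸ X) →* ℂˣ) :=
          Nat.card_le_card_of_injective _ Subtype.val_injective
      _ = X.index := CommGroup.card_monoidHom_of_hasEnoughRootsOfUnity _ _
  have hmul := Subgroup.relIndex_mul_index hBX
  have hXB : X ≤ B := by
    refine Subgroup.relIndex_eq_one.1 ?_
    have hpos : B.relIndex X ≠ 0 := fun h => b0 (by rw [← hmul, h, zero_mul])
    nlinarith [Nat.pos_of_ne_zero hpos, Nat.pos_of_ne_zero hX0]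
  exact hXB (Subgroup.mem_iInf.2 fun c => Subgroup.mem_iInf.2 fun hc => hx c hc)

omit [IsTotallyComplex K] in
theorem exists_local_element (S : Finset (HeightOneSpectrum (𝓞 K))) (v : HeightOneSpectrum (𝓞 K))
    (hv : v ∈ S) (p : ℕ) [Fact p.Prime] [DecidableEq (HeightOneSpectrum (𝓞 K))] (b : Kˣ) :
    ∃ z ∈ infOn (fun u => locPow u p) (S.erase v), z / b ∈ locPow v p := by
  obtain ⟨z, hz⟩ := exists_approx S (fun u => if u = v then b else 1)
    (S.sup fun u => 2 * absRam u p + 1)
  refine ⟨z, mem_infOn.2 fun u hu => ?_, ?_⟩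
  · have h := congr_le_locPow u p (congr_anti u (Finset.le_sup (Finset.mem_of_mem_erase hu))
      (hz u (Finset.mem_of_mem_erase hu)))
    simpa [if_neg (Finset.ne_of_mem_erase hu)] using h
  · have h := congr_le_locPow v p (congr_anti v (Finset.le_sup hv) (hz v hv))
    simpa using h

/-- The sign of `c` is non-trivial at every prime where `c` is not a local square. -/
theorem recH_nondeg (hB : BaseSet 2 S) {a : Kˣ}
    (haS : a ∈ sU (S : Set (HeightOneSpectrum (𝓞 K)))) [DecidableEq (HeightOneSpectrum (𝓞 K))]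
    {v : HeightOneSpectrum (𝓞 K)} (hv : v ∈ S) (hav : a ∉ locPow v 2) :
    ¬ infOn (fun u => locPow u 2) (S.erase v) ≤ recH S a := by
  intro hle
  have hζ : IsPrimitiveRoot (-1 : K) 2 := isPrimitiveRoot_neg_one
  set Pv := infOn (fun u => locPow u 2) (S.erase v)
  set U := sU (S : Set (HeightOneSpectrum (𝓞 K)))
  obtain ⟨z, hz, hza⟩ := exists_local_element S v hv 2 a
  have hneg : (-1 : Kˣ) ∈ U := fun u _ => by
    have h : ord u ((-1 : Kˣ) ^ 2) = 0 := by rw [neg_one_sq, ord_one]
    rw [ord_pow] at h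
    simpa using h
  have hloc : ∀ c, ¬ IsSquare c → ∀ b ∈ Pv, b / -c ∈ locPow v 2 → b ∈ recH S c := by
    intro c hc b hb hbc
    rw [recH_of_not_isSquare hc]
    have := isGalois_radField (p := 2) hζ (notPow_of_not_isSquare hc)
    have hR := isRad_radField (p := 2) hζ (notPow_of_not_isSquare hc)
    refine Subgroup.mem_sup_right (mem_infOn.2 fun u hu => ?_)
    by_cases h : u = v
    · subst h
      obtain ⟨y, hy⟩ := hR.neg_mem_range_normU hζ
      rw [← div_mul_cancel b (-c)]
      exact mul_mem (locPow_le_locNorm hR.deg u hbc) (hy ▸ normU_mem_locNorm u y)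
    · exact locPow_le_locNorm hR.deg u (mem_infOn.1 hb u (Finset.mem_erase.2 ⟨h, hu⟩))
  have hsign : ∀ y ∈ Pv, recSign S a y = 1 := fun y hy => recSign_eq_one_iff.2 (hle hy)
  have hzall : ∀ c ∈ U, z ∈ recH S c := by
    intro c hc
    by_cases hsq : IsSquare c
    · rw [recH_of_isSquare hsq]; trivial
    by_cases hsqa : IsSquare (c * a)
    · obtain ⟨y, hy⟩ := hsqa
      rw [show c = a * (y / a) ^ 2 by
          rw [div_pow, sq y, ← hy, sq a, mul_div_mul_right_eq_div, mul_div_cancel],
        recH_mul_sq]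
      exact hle hz
    obtain ⟨b₁, hb₁, hb₁c⟩ := exists_local_element S v hv 2 (-c)
    obtain ⟨b₂, hb₂, hb₂c⟩ := exists_local_element S v hv 2 (-(c * a))
    have h1 := hloc c hsq b₁ hb₁ hb₁c
    have h2 : b₂ ∈ recH S c := by
      have h := recSign_eq_one_iff.2 (hloc (c * a) hsqa b₂ hb₂ hb₂c)
      rw [recSign_mul_left hB hc haS, hsign b₂ hb₂, mul_one] at h
      exact recSign_eq_one_iff.1 h
    have hm : z / (b₂ / b₁) ∈ recH S c := by
      refine sU_le_recH hB hc (Subgroup.mem_sup_right (mem_infOn.2 fun u hu => ?_))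
      by_cases h : u = v
      · subst h
        have e : z / (b₂ / b₁) = (z / a) / ((b₂ / -(c * a)) / (b₁ / -c)) := by
          refine Units.ext ?_
          simp only [Units.val_div_eq_div_val, Units.val_neg, Units.val_mul]
          field_simp
        rw [e]
        exact div_mem hza (div_mem hb₂c hb₁c)
      · have hu' := Finset.mem_erase.2 ⟨h, hu⟩
        exact div_mem (mem_infOn.1 hz u hu')
          (div_mem (mem_infOn.1 hb₂ u hu') (mem_infOn.1 hb₁ u hu'))
    simpa using mul_mem hm (div_mem h2 h1)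
  obtain ⟨x, hxU, m, hm, hxm⟩ := Subgroup.mem_sup.1 (mem_sup_of_forall_recH hB hzall)
  have hxP : x ∈ Pv := mem_infOn.2 fun u hu => by
    have h1 := mem_infOn.1 hz u hu
    rw [← hxm] at h1
    exact (mul_mem_cancel_right (mem_infOn.1 hm u (Finset.mem_of_mem_erase hu))).1 h1
  have hxv : x / a ∈ locPow v 2 := by
    have e : x / a = z / a / m := by rw [← hxm, mul_div_right_comm, mul_div_cancel_right]
    rw [e]
    exact div_mem hza (mem_infOn.1 hm v hv)
  have hxns : ¬ IsSquare x := fun ⟨y, hy⟩ => hav (by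
    have e : a = y ^ 2 / (x / a) := by rw [sq, ← hy, div_div_cancel]
    rw [e]
    exact div_mem (pow_mem_locPow v 2 y) hxv)
  have hxle : Pv ≤ recH S x := by
    intro y hy
    rw [← recSign_eq_one_iff, ← div_mul_cancel x a,
      recSign_mul_left hB (div_mem hxU haS) haS, hsign y hy, mul_one, recSign_eq_one_iff]
    by_cases hsq : IsSquare (x / a)
    · rw [recH_of_isSquare hsq]; trivial
    rw [recH_of_not_isSquare hsq]
    have := isGalois_radField (p := 2) hζ (notPow_of_not_isSquare hsq)
    have hR := isRad_radField (p := 2) hζ (notPow_of_not_isSquare hsq)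
    refine Subgroup.mem_sup_right (mem_infOn.2 fun u hu => ?_)
    by_cases h : u = v
    · subst h
      rw [locNorm_eq_top_of_split hR.deg (hR.split_of_mem_locPow hζ hxv)]
      trivial
    · exact locPow_le_locNorm hR.deg u (mem_infOn.1 hy u (Finset.mem_erase.2 ⟨h, hu⟩))
  have htop : recH S x = ⊤ := by
    refine eq_top_iff.2 fun q _ => ?_
    obtain ⟨y, hy, hyq⟩ := exists_local_element S v hv 2 q
    have h2 : q / y ∈ recH S x := by
      rw [recH_of_not_isSquare hxns]
      have := isGalois_radField (p := 2) hζ (notPow_of_not_isSquare hxns)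
      have hR := isRad_radField (p := 2) hζ (notPow_of_not_isSquare hxns)
      refine Subgroup.mem_sup_right (mem_infOn.2 fun u hu => ?_)
      by_cases h : u = v
      · subst h
        refine locPow_le_locNorm hR.deg u ?_
        rw [← inv_div]
        exact inv_mem hyq
      · rw [locNorm_eq_top_of_split hR.deg (hR.split_of_mem_locPow hζ
          (mem_infOn.1 hxP u (Finset.mem_erase.2 ⟨h, hu⟩)))]
        trivial
    simpa using mul_mem h2 (hxle hy)
  have := index_recH hB hxU hxns
  rw [htop, Subgroup.index_top] at this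
  omega

end Fermat.Agent.CFT
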