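import Mathlib.Algebra.BigOperators.Finprod
import Fermat.Agent.CFT.Recip

/-!
# The reciprocity law for quadratic extensions of a totally complex field

Every element fails to be a local norm at an even number of primes; consequently the Artin
character of a quadratic extension is trivial on a ray supported at the ramified primes.
-/

noncomputable section

namespace Fermat.Agent.CFT

open NumberField IsDedekindDomain WithZero

variable {K L : Type} [Field K] [NumberField K] [Field L] [NumberField L] [Algebra K L]
  [IsGalois K L]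

/-- At an unramified prime with one prime above, the local norms are the elements of order
divisible by the degree; the prime may divide the degree. -/
theorem mem_locNorm_iff_dvd_of_unramified [IsTotallyComplex K] {p : ℕ} [hp : Fact p.Prime] {ζ : K}
    (hζ : IsPrimitiveRoot ζ p) (hdeg : Module.finrank K L = p) {v : HeightOneSpectrum (𝓞 K)}
    (hv : ¬ IsSplit L v) {w : HeightOneSpectrum (𝓞 L)} (hw : below K w = v) (hram : ram K w = 1)
    {x : Kˣ} : x ∈ locNorm L v ↔ (p : ℤ) ∣ ord v x := by
  refine ⟨dvd_ord_of_mem_locNorm hdeg hv hw hram, fun hx => ?_⟩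
  let D : Subgroup Kˣ :=
    { carrier := {y | (p : ℤ) ∣ ord v y}
      one_mem' := by simp [ord_one]
      mul_mem' := fun {a b} ha hb => by
        show (p : ℤ) ∣ ord v (a * b)
        rw [ord_mul]; exact dvd_add ha hb
      inv_mem' := fun {a} ha => by
        show (p : ℤ) ∣ ord v a⁻¹
        rw [ord_inv]; exact ha.neg_right }
  have hle : locNorm L v ≤ D := fun y hy => dvd_ord_of_mem_locNorm hdeg hv hw hram hy
  have hidx := locNorm_index (L := L) hζ hdeg hv
  have hD : p ≤ D.index := by
    refine le_index_of_pow_mem (fun htop => ?_) (fun h0 => ?_) fun y => ?_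
    · obtain ⟨π, hπ⟩ := exists_ord_eq v 1
      have hd : π ∈ D := htop ▸ Subgroup.mem_top π
      change (p : ℤ) ∣ ord v π at hd
      rw [hπ] at hd
      have := Int.le_of_dvd one_pos hd
      have := hp.out.two_le
      omega
    · have := Subgroup.index_dvd_of_le hle
      rw [h0, hidx, zero_dvd_iff] at this
      exact hp.out.ne_zero this
    · show (p : ℤ) ∣ ord v (y ^ p)
      rw [ord_pow]; exact dvd_mul_right _ _
  have hrel : (locNorm L v).relIndex D = 1 := by
    have h := Subgroup.relIndex_mul_index hle
    rw [hidx] at h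
    have hpos : (locNorm L v).relIndex D ≠ 0 := fun h0 => hp.out.ne_zero (by
      rw [← h, h0, zero_mul])
    nlinarith [Nat.pos_of_ne_zero hpos, hp.out.pos]
  exact Subgroup.relIndex_eq_one.1 hrel hx

variable [IsTotallyComplex K]

/-- A class at `S` comes from norms outside `S` exactly when it fails to be a norm at an even
number of primes of `S`. -/
theorem IsRad.mem_sup_iff_even {a : Kˣ} (hR : IsRad L 2 a)
    {S : Finset (HeightOneSpectrum (𝓞 K))} (hB : BaseSet 2 S)
    (haS : a ∈ sU (S : Set (HeightOneSpectrum (𝓞 K))))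
    (q : Kˣ)
    [DecidablePred fun v : HeightOneSpectrum (𝓞 K) => q ∉ locNorm L v] :
    q ∈ outNorm L S ⊔ normsAt L S ↔ Even (S.filter fun v => q ∉ locNorm L v).card := by
  classical
  have hζ : IsPrimitiveRoot (-1 : K) 2 := isPrimitiveRoot_neg_one
  have hnsq : ¬ IsSquare a := fun ⟨y, hy⟩ => hR.notPow y (by rw [sq, hy])
  have hrec : recH S a = outNorm L S ⊔ normsAt L S := by
    rw [recH_of_not_isSquare hnsq]
    simp only [outNorm, normsAt, hR.locNorm_eq_radField hζ]
  have hidx : (outNorm L S ⊔ normsAt L S).index = 2 := hrec ▸ index_recH hB haS hnsq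
  induction hn : (S.filter fun v => q ∉ locNorm L v).card generalizing q with
  | zero =>
    refine iff_of_true (Subgroup.mem_sup_right (mem_infOn.2 fun v hv => ?_)) (by simp)
    by_contra h
    rw [Finset.card_eq_zero, Finset.filter_eq_empty_iff] at hn
    exact hn hv h
  | succ n ih =>
    obtain ⟨v, hv⟩ : (S.filter fun v => q ∉ locNorm L v).Nonempty := by
      rw [← Finset.card_pos, hn]; exact Nat.succ_pos n
    rw [Finset.mem_filter] at hv
    have hav : a ∉ locPow v 2 := fun h => hv.2 (by
      rw [locNorm_eq_top_of_split hR.deg (hR.split_of_mem_locPow hζ h)]; trivial)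
    have hns : ¬ IsSplit L v := fun h => hv.2 (by
      rw [locNorm_eq_top_of_split hR.deg h]; trivial)
    obtain ⟨y, hy, hyH⟩ : ∃ y ∈ infOn (fun u => locPow u 2) (S.erase v),
        y ∉ outNorm L S ⊔ normsAt L S := by
      by_contra h
      push Not at h
      exact recH_nondeg hB haS hv.1 hav (hrec ▸ h)
    have hyne : ∀ u ∈ S, u ≠ v → y ∈ locNorm L u := fun u hu hne =>
      locPow_le_locNorm hR.deg u (mem_infOn.1 hy u (Finset.mem_erase.2 ⟨hne, hu⟩))
    have hyv : y ∉ locNorm L v := fun h => hyH (Subgroup.mem_sup_right (mem_infOn.2 fun u hu => by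
      by_cases e : u = v
      · exact e ▸ h
      · exact hyne u hu e))
    have hfilter : (S.filter fun u => q * y ∉ locNorm L u) =
        (S.filter fun u => q ∉ locNorm L u).erase v := by
      ext u
      simp only [Finset.mem_erase, Finset.mem_filter]
      by_cases e : u = v
      · subst e
        simp only [ne_eq, not_true, false_and, iff_false, not_and, not_not]
        exact fun _ => (Subgroup.mul_mem_iff_of_index_two (locNorm_index hζ hR.deg hns)).2
          (iff_of_false hv.2 hyv)
      · simp only [ne_eq, e, not_false_iff, true_and]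
        refine and_congr_right fun hu => not_congr ?_
        exact mul_mem_cancel_right (hyne u hu e)
    have hcard : (S.filter fun u => q * y ∉ locNorm L u).card = n := by
      rw [hfilter, Finset.card_erase_of_mem (Finset.mem_filter.2 hv), hn]; omega
    have h := ih (q * y) hcard
    rw [Subgroup.mul_mem_iff_of_index_two hidx] at h
    rw [Nat.even_add_one]
    exact ⟨fun hq he => hyH ((h.2 he).1 hq),
      fun hne => by_contra fun hq => hne (h.1 (iff_of_false hq hyH))⟩

/-- **Reciprocity**: an element fails to be a norm from a quadratic extension at an even number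
of primes. -/
theorem even_ncard_notMem_locNorm (hdeg : Module.finrank K L = 2) (x : Kˣ) :
    {v : HeightOneSpectrum (𝓞 K) | x ∉ locNorm L v}.Finite ∧
      Even {v : HeightOneSpectrum (𝓞 K) | x ∉ locNorm L v}.ncard := by
  classical
  have hζ : IsPrimitiveRoot (-1 : K) 2 := isPrimitiveRoot_neg_one
  obtain ⟨a, hR⟩ := exists_isRad (L := L) hζ hdeg
  obtain ⟨T, hT⟩ := exists_finset_mem_sU x
  obtain ⟨S, hTS, hS, haS⟩ := exists_goodSet_isRad hζ hR T
  have hxU : x ∈ sU (S : Set (HeightOneSpectrum (𝓞 K))) := sU_mono (Finset.coe_subset.2 hTS) hT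
  have hout : ∀ v ∉ S, x ∈ locNorm L v := fun v hv => by
    obtain ⟨w, hw⟩ := exists_below_eq (L := L) v
    exact mem_locNorm_of_ord_eq_zero hdeg (hS.not_dvd v hv) hw
      (hS.unramified w (by rwa [hw])) (hxU v hv)
  have hset : {v : HeightOneSpectrum (𝓞 K) | x ∉ locNorm L v} =
      ((S.filter fun v => x ∉ locNorm L v : Finset _) : Set (HeightOneSpectrum (𝓞 K))) := by
    ext v
    simp only [Set.mem_ofPred_eq, Finset.coe_filter]
    exact ⟨fun h => ⟨by_contra fun hv => h (hout v hv), h⟩, fun h => h.2⟩
  rw [hset, Set.ncard_coe_finset]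
  exact ⟨Finset.finite_toSet _, (hR.mem_sup_iff_even ⟨hS.principal, hS.not_dvd⟩ haS x).1
    (Subgroup.mem_sup_left (mem_outNorm.2 hout))⟩

/-- An element which is a local norm everywhere but at one prime is one there too. -/
theorem mem_locNorm_of_forall_ne (hdeg : Module.finrank K L = 2) (x : Kˣ)
    (v₀ : HeightOneSpectrum (𝓞 K)) (h : ∀ v ≠ v₀, x ∈ locNorm L v) : x ∈ locNorm L v₀ := by
  by_contra hx
  obtain ⟨-, heven⟩ := even_ncard_notMem_locNorm (L := L) hdeg x
  rw [show {v : HeightOneSpectrum (𝓞 K) | x ∉ locNorm L v} = {v₀} from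
    Set.eq_singleton_iff_unique_mem.2 ⟨hx, fun v hv => by_contra fun hne => hv (h v hne)⟩,
    Set.ncard_singleton] at heven
  exact Nat.not_even_one heven

variable (L) in
/-- The primes with a ramified prime above. -/
def ramified : Set (HeightOneSpectrum (𝓞 K)) :=
  {v | ∃ w : HeightOneSpectrum (𝓞 L), below K w = v ∧ ram K w ≠ 1}

variable (L) in
/-- The primes whose Frobenius is non-trivial. -/
def inert : Set (HeightOneSpectrum (𝓞 K)) := {v | ¬ IsSplit L v ∧ v ∉ ramified L}

/-- If `x` is a local norm at the ramified primes then the sum of its orders at the inert primes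
is even. -/
theorem even_sum_ord_inert (hdeg : Module.finrank K L = 2) {x : Kˣ}
    (hx : ∀ v ∈ ramified L, x ∈ locNorm L v) : Even (∑ᶠ v ∈ inert L, ord v x) := by
  classical
  obtain ⟨hfin, heven⟩ := even_ncard_notMem_locNorm (L := L) hdeg x
  have hζ : IsPrimitiveRoot (-1 : K) 2 := isPrimitiveRoot_neg_one
  have hset : {v : HeightOneSpectrum (𝓞 K) | x ∉ locNorm L v} =
      {v | v ∈ inert L ∧ Odd (ord v x)} := by
    ext v
    simp only [Set.mem_ofPred_eq]
    by_cases hr : v ∈ ramified L
    · exact iff_of_false (not_not.2 (hx v hr)) fun h => h.1.2 hr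
    by_cases hs : IsSplit L v
    · refine iff_of_false (not_not.2 ?_) fun h => h.1.1 hs
      rw [locNorm_eq_top_of_split hdeg hs]; trivial
    obtain ⟨w, hw⟩ := exists_below_eq (L := L) v
    have hram : ram K w = 1 := by_contra fun h => hr ⟨w, hw, h⟩
    rw [mem_locNorm_iff_dvd_of_unramified hζ hdeg hs hw hram,
      ← Int.not_even_iff_odd, even_iff_two_dvd]
    exact ⟨fun h => ⟨⟨hs, hr⟩, by exact_mod_cast h⟩, fun h => by exact_mod_cast h.2⟩
  set T := (finite_ord_ne_zero x).toFinset.filter fun v => v ∈ inert L with hT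
  have hsum : ∑ᶠ v ∈ inert L, ord v x = ∑ v ∈ T, ord v x :=
    finsum_mem_eq_sum_of_inter_support_eq _ (by
      ext v
      simp only [hT, Set.mem_inter_iff, Function.mem_support, Finset.coe_filter,
        Set.Finite.mem_toFinset, Set.mem_ofPred_eq]
      tauto)
  have key : ∀ U : Finset (HeightOneSpectrum (𝓞 K)),
      Even (∑ v ∈ U, ord v x) ↔ Even (U.filter fun v => Odd (ord v x)).card := fun U => by
    induction U using Finset.induction with
    | empty => simp
    | insert u U hu ih =>
      rw [Finset.sum_insert hu, Int.even_add, ih, Finset.filter_insert]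
      by_cases h : Odd (ord u x)
      · rw [if_pos h, Finset.card_insert_of_notMem (by simp [hu]), Nat.even_add_one]
        simp [Int.not_even_iff_odd.2 h]
      · rw [if_neg h]
        simp [Int.not_odd_iff_even.1 h]
  rw [hsum, key]
  rw [hset] at heven
  rw [← Set.ncard_coe_finset]
  convert heven using 2
  ext v
  simp only [hT, Finset.coe_filter, Finset.mem_filter, Set.Finite.mem_toFinset, Set.mem_ofPred_eq]
  exact ⟨fun h => ⟨h.1.2, h.2⟩, fun h => ⟨⟨fun h0 => by simp [h0] at h, h.1⟩, h.2⟩⟩

/-- The Artin character of a quadratic extension is trivial on a ray supported at the ramified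
primes. -/
theorem exists_conductor (hdeg : Module.finrank K L = 2) :
    ∃ N : ℕ, ∀ x : Kˣ, (∀ v ∈ ramified L, x ∈ congr v N) → Even (∑ᶠ v ∈ inert L, ord v x) := by
  have hζ : IsPrimitiveRoot (-1 : K) 2 := isPrimitiveRoot_neg_one
  have hfin : (ramified (K := K) L).Finite := finite_ramified hζ hdeg
  refine ⟨hfin.toFinset.sup fun v => 2 * absRam v 2 + 1, fun x hx =>
    even_sum_ord_inert hdeg fun v hv => ?_⟩
  exact locPow_le_locNorm hdeg v (congr_le_locPow v 2 (congr_anti v
    (Finset.le_sup (f := fun v => 2 * absRam v 2 + 1) (hfin.mem_toFinset.2 hv)) (hx v hv)))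

end Fermat.Agent.CFT
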