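import Fermat.Agent.CFT.SUnits

/-!
# The norm index of the `S`-units

Hilbert 90 for `S`-units in a cyclic extension of degree `p`, and the index of the norms of the
`S`-units: times `p` it is `p` to the number of primes of `S` with one prime above
(`normS_index`).
-/

noncomputable section

namespace Fermat.Agent.CFT

open NumberField IsDedekindDomain WithZero
open Fermat.Agent.PT (hq FinHq mulHom)
open scoped Pointwise

variable {K L : Type} [Field K] [NumberField K] [Field L] [NumberField L] [Algebra K L]
  [IsGalois K L] {p : ℕ} [hp : Fact p.Prime] {S : Finset (HeightOneSpectrum (𝓞 K))}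

omit [IsGalois K L] in
theorem baseU_mem_sU {x : Kˣ} (hx : x ∈ sU (S : Set (HeightOneSpectrum (𝓞 K)))) :
    baseU K L x ∈ sU {w : HeightOneSpectrum (𝓞 L) | below K w ∈ S} := fun w hw => by
  rw [ord_baseU, hx (below K w) hw, mul_zero]

omit [IsGalois K L] [NumberField K] in
theorem ord_conjU (g : L ≃ₐ[K] L) (w : HeightOneSpectrum (𝓞 L)) (y : Lˣ) :
    ord w (conjU g y) = ord (smulP g⁻¹ w) y := by
  conv_lhs => rw [← smulP_one (K := K) w, ← mul_inv_cancel g, smulP_mul, ord_smulP]

omit [IsGalois K L] in
theorem conjU_mem_sU (g : L ≃ₐ[K] L) {y : Lˣ}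
    (hy : y ∈ sU {w : HeightOneSpectrum (𝓞 L) | below K w ∈ S}) :
    conjU g y ∈ sU {w : HeightOneSpectrum (𝓞 L) | below K w ∈ S} := fun w hw => by
  rw [ord_conjU]
  refine hy _ fun h => hw ?_
  rw [Set.mem_ofPred_eq, below_smulP] at h
  exact h

theorem normU_mem_sU {y : Lˣ} (hy : y ∈ sU {w : HeightOneSpectrum (𝓞 L) | below K w ∈ S}) :
    normU K L y ∈ sU (S : Set (HeightOneSpectrum (𝓞 K))) := fun v hv => by
  obtain ⟨w, rfl⟩ := exists_below_eq (L := L) v
  have h := ord_normU (K := K) w y
  rw [Finset.sum_eq_zero fun g _ => conjU_mem_sU g hy w hv] at h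
  exact (mul_eq_zero.1 h).resolve_left (by exact_mod_cast (ram_pos (K := K) w).ne')

variable (L S) in
/-- The norm on `S`-units. -/
def normS : sU {w : HeightOneSpectrum (𝓞 L) | below K w ∈ S} →*
    sU (S : Set (HeightOneSpectrum (𝓞 K))) :=
  MonoidHom.mk' (fun y => ⟨normU K L y, normU_mem_sU y.2⟩) fun _x _y => Subtype.ext (map_mul _ _ _)

variable (L S) in
/-- The number of primes of `S` with one prime above. -/
def numNonsplit : ℕ := by classical exact (S.filter fun v => ¬ IsSplit L v).card

omit hp in
theorem finite_above (L : Type) [Field L] [NumberField L] [Algebra K L] [IsGalois K L]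
    (S : Finset (HeightOneSpectrum (𝓞 K))) :
    {w : HeightOneSpectrum (𝓞 L) | below K w ∈ S}.Finite :=
  (S.finite_toSet.biUnion fun v _ => finite_below_fibre (L := L) v).subset fun _w hw =>
    Set.mem_biUnion hw rfl

theorem ncard_fibre (hdeg : Module.finrank K L = p) (v : HeightOneSpectrum (𝓞 K)) :
    (IsSplit L v → {w : HeightOneSpectrum (𝓞 L) | below K w = v}.ncard = p) ∧
      (¬ IsSplit L v → {w : HeightOneSpectrum (𝓞 L) | below K w = v}.ncard = 1) := by
  obtain ⟨w, hw⟩ := exists_below_eq (L := L) v
  refine ⟨fun h => ?_, fun h => ?_⟩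
  · have e : {u : HeightOneSpectrum (𝓞 L) | below K u = v} =
        Set.range fun g : L ≃ₐ[K] L => smulP g w := by
      ext u
      refine ⟨fun hu => exists_smulP_eq (hw.trans (Eq.symm hu)), ?_⟩
      rintro ⟨g, rfl⟩
      show below K (smulP g w) = v
      rw [below_smulP, hw]
    rw [e, Set.ncard_range_of_injective, IsGalois.card_aut_eq_finrank, hdeg]
    intro g g' hgg
    have := eq_one_of_smulP_eq hdeg h hw (g := g'⁻¹ * g) (by
      rw [smulP_mul]; simp only at hgg; rw [hgg, ← smulP_mul, inv_mul_cancel, smulP_one])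
    exact (inv_mul_eq_one.1 this).symm
  · rw [Set.ncard_eq_one]
    refine ⟨w, Set.eq_singleton_iff_unique_mem.2 ⟨hw, fun u hu => ?_⟩⟩
    by_contra hne
    exact h ⟨u, w, hu, hw, hne⟩

theorem card_above (hdeg : Module.finrank K L = p) (S : Finset (HeightOneSpectrum (𝓞 K))) :
    (finite_above L S).toFinset.card + (p - 1) * numNonsplit L S = p * S.card := by
  classical
  induction S using Finset.induction with
  | empty => simp [numNonsplit]
  | insert v S hv ih =>
    have e : (finite_above L (insert v S)).toFinset =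
        (finite_below_fibre (L := L) v).toFinset ∪ (finite_above L S).toFinset := by
      ext w; simp
    have hd : Disjoint (finite_below_fibre (L := L) v).toFinset (finite_above L S).toFinset :=
      Finset.disjoint_left.2 fun w h1 h2 => hv (by simp at h1 h2; rwa [← h1])
    have hn : numNonsplit L (insert v S) =
        (if IsSplit L v then 0 else 1) + numNonsplit L S := by
      simp only [numNonsplit, Finset.filter_insert]
      by_cases h : IsSplit L v
      · simp [h]
      · simp [h, Finset.card_insert_of_notMem, hv, add_comm]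
    rw [e, Finset.card_union_of_disjoint hd, hn,
      ← Set.ncard_eq_toFinset_card _ (finite_below_fibre (L := L) v),
      Finset.card_insert_of_notMem hv, mul_add, mul_add, mul_one, ← ih]
    have := hp.out.one_le
    split_ifs with h
    · rw [(ncard_fibre hdeg v).1 h]; omega
    · rw [(ncard_fibre hdeg v).2 h]; omega

omit hp in
theorem rank_mul_add_one [IsTotallyComplex K] (hdeg : Module.finrank K L = p) :
    Units.rank L + 1 = p * (Units.rank K + 1) := by
  have : IsTotallyComplex L := isTotallyComplex_of_algebra K L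
  have h1 := rank_add_one (K := L)
  rw [← Module.finrank_mul_finrank ℚ K L, hdeg, ← rank_add_one (K := K)] at h1
  linarith

/-- Hilbert 90 for `S`-units. -/
theorem exists_div_conj_of_norm_eq_one (hS : IsPrincipalOutside (S : Set (HeightOneSpectrum (𝓞 K))))
    (hunr : ∀ w : HeightOneSpectrum (𝓞 L), below K w ∉ S → ram K w = 1) {σ : L ≃ₐ[K] L}
    (hσ : ∀ g : L ≃ₐ[K] L, g ∈ Subgroup.zpowers σ) {y : Lˣ}
    (hy : y ∈ sU {w : HeightOneSpectrum (𝓞 L) | below K w ∈ S}) (hN : normU K L y = 1) :
    ∃ b ∈ sU {w : HeightOneSpectrum (𝓞 L) | below K w ∈ S}, y = b / conjU σ b := by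
  classical
  have : IsCyclic (L ≃ₐ[K] L) := ⟨σ, hσ⟩
  obtain ⟨b, hb⟩ := groupCohomology.exists_div_of_norm_eq_one hσ (x := (y : L))
    (congrArg Units.val hN)
  have hb' : y = b / conjU σ b := Units.ext (by rw [Units.val_div_eq_div_val]; exact hb.symm)
  have hinv : ∀ (g : L ≃ₐ[K] L) (w : HeightOneSpectrum (𝓞 L)), below K w ∉ S →
      ord (smulP g w) b = ord w b := by
    let H : Subgroup (L ≃ₐ[K] L) :=
      { carrier := {g | ∀ w : HeightOneSpectrum (𝓞 L), below K w ∉ S →
          ord (smulP g w) b = ord w b}
        one_mem' := fun w _ => by rw [smulP_one]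
        mul_mem' := fun {g h} hg hh w hw => by
          rw [smulP_mul, hg _ (by rwa [below_smulP]), hh w hw]
        inv_mem' := fun {g} hg w hw => by
          have := hg (smulP g⁻¹ w) (by rwa [below_smulP])
          rw [← smulP_mul, mul_inv_cancel, smulP_one] at this
          exact this.symm }
    have hσH : σ ∈ H := fun w hw => by
      have h0 := hy (smulP σ w) (by show below K (smulP σ w) ∉ S; rwa [below_smulP])
      rw [hb', ord_div, ord_smulP] at h0
      omega
    intro g
    exact (Subgroup.zpowers_le.2 hσH) (hσ g)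
  choose wv hwv using fun v : HeightOneSpectrum (𝓞 K) => exists_below_eq (L := L) v
  obtain ⟨x, hx⟩ := hS.exists_ord (fun v => ord (wv v) b) (by
    refine ((finite_ord_ne_zero b).image (below K)).subset fun v hv => ?_
    exact ⟨wv v, hv.2, hwv v⟩)
  refine ⟨b / baseU K L x, fun w hw => ?_, ?_⟩
  · obtain ⟨g, hg⟩ := exists_smulP_eq (hwv (below K w))
    rw [ord_div, ord_baseU, hunr w hw, Nat.cast_one, one_mul, hx (below K w) hw]
    show ord w b - ord (wv (below K w)) b = 0
    conv_lhs => arg 1; rw [← hg]
    rw [hinv g _ (by rw [hwv]; exact hw), sub_self]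
  · rw [hb', map_div, conjU_baseU, div_div_div_cancel_right]

/-- The norm index of the `S`-units. -/
theorem normS_index [IsTotallyComplex K] {ζ : K} (hζ : IsPrimitiveRoot ζ p)
    (hdeg : Module.finrank K L = p)
    (hS : IsPrincipalOutside (S : Set (HeightOneSpectrum (𝓞 K))))
    (hunr : ∀ w : HeightOneSpectrum (𝓞 L), below K w ∉ S → ram K w = 1) :
    (normS L S).range.index * p = p ^ numNonsplit L S := by
  classical
  set T : Set (HeightOneSpectrum (𝓞 L)) := {w | below K w ∈ S} with hT
  obtain ⟨σ, hσ1⟩ := exists_aut_ne_one (K := K) (L := L) hdeg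
  have htop := zpowers_eq_top (K := K) (L := L) hdeg hσ1
  have hgen : ∀ g : L ≃ₐ[K] L, g ∈ Subgroup.zpowers σ := fun g => htop ▸ Subgroup.mem_top g
  have hbij := bijective_pow (K := K) (L := L) hdeg hσ1
  let σA : AddMonoid.End (Additive (sU T)) :=
    AddMonoidHom.mk' (fun a => Additive.ofMul ⟨conjU σ ((Additive.toMul a : sU T) : Lˣ),
      conjU_mem_sU σ (Additive.toMul a).2⟩) fun a b => congrArg Additive.ofMul
        (Subtype.ext (map_mul (conjU σ) _ _))
  have hpow : ∀ (i : ℕ) (a : Additive (sU T)),
      ((Additive.toMul ((σA ^ i) a) : sU T) : Lˣ) =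
        conjU (σ ^ i) ((Additive.toMul a : sU T) : Lˣ) := by
    intro i
    induction i with
    | zero => intro a; rw [pow_zero, pow_zero, conjU_one]; rfl
    | succ i ih => intro a; rw [pow_succ, pow_succ, conjU_mul]; exact ih (σA a)
  have hval : ∀ a b : Additive (sU T),
      ((Additive.toMul a : sU T) : Lˣ) = ((Additive.toMul b : sU T) : Lˣ) → a = b :=
    fun a b h => Additive.toMul.injective (Subtype.ext h)
  let j : Additive (sU (S : Set (HeightOneSpectrum (𝓞 K)))) →+ Additive (sU T) :=
    MonoidHom.toAdditive (((baseU K L).comp (Subgroup.subtype _)).codRestrict (sU T)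
      fun x => baseU_mem_sU x.2)
  have hj : Function.Injective j := fun a b h => Additive.toMul.injective (Subtype.ext
    (baseU_injective (congrArg (fun c : Additive (sU T) => ((Additive.toMul c : sU T) : Lˣ)) h)))
  let NA : Additive (sU T) →+ Additive (sU T) := j.comp (MonoidHom.toAdditive (normS L S))
  have hσp : σA ^ p = 1 := by
    ext a
    refine congrArg Units.val ((hpow p a).trans ?_)
    have h1 : σ ^ p = 1 := ((IsGalois.card_aut_eq_finrank K L).trans hdeg) ▸ pow_card_eq_one'
    rw [h1, conjU_one]
    rfl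
  have hfix : ∀ a, a ∈ j.range ↔ σA a = a := fun a => by
    constructor
    · rintro ⟨x, rfl⟩
      exact hval _ _ (conjU_baseU σ _)
    · intro h
      have h' : conjU σ ((Additive.toMul a : sU T) : Lˣ) = _ :=
        congrArg (fun c : Additive (sU T) => ((Additive.toMul c : sU T) : Lˣ)) h
      obtain ⟨x, hx⟩ := mem_range_baseU (K := K) (y := ((Additive.toMul a : sU T) : Lˣ)) fun g => by
        obtain ⟨i, rfl⟩ := hbij.2 g
        show conjU (σ ^ (i : ℕ)) _ = _
        induction (i : ℕ) with
        | zero => rw [pow_zero, conjU_one]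
        | succ k ih => rw [pow_succ', conjU_mul, ih]; exact h'
      refine ⟨Additive.ofMul ⟨x, fun v hv => ?_⟩, hval _ _ hx⟩
      obtain ⟨w, rfl⟩ := exists_below_eq (L := L) v
      have h0 := (Additive.toMul a).2 w hv
      rw [← hx, ord_baseU, hunr w hv, Nat.cast_one, one_mul] at h0
      exact h0
  have hN : ∀ a, NA a = ∑ i ∈ Finset.range p, (σA ^ i) a := fun a => by
    refine hval _ _ ?_
    rw [toMul_sum, Subgroup.val_finsetProd]
    show baseU K L (normU K L _) = _
    rw [baseU_normU, ← Fintype.prod_bijective _ hbij (fun i : Fin p => conjU (σ ^ (i : ℕ)) _)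
      (fun g => conjU g _) (fun i => rfl),
      Fin.prod_univ_eq_prod_range fun i => conjU (σ ^ i) ((Additive.toMul a : sU T) : Lˣ)]
    exact Finset.prod_congr rfl fun i _ => (hpow i a).symm
  have h90 : ∀ a, NA a = 0 → ∃ b, a = b - σA b := fun a ha => by
    have h1 : MonoidHom.toAdditive (normS L S) a = 0 := hj (by rw [map_zero]; exact ha)
    obtain ⟨b, hbT, hb⟩ := exists_div_conj_of_norm_eq_one hS hunr hgen (Additive.toMul a).2
      (congrArg (fun c : Additive (sU (S : Set (HeightOneSpectrum (𝓞 K)))) =>
        ((Additive.toMul c : sU _) : Kˣ)) h1)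
    exact ⟨Additive.ofMul ⟨b, hbT⟩, hval _ _ (by rw [hb]; rfl)⟩
  have hA := hq_sU (hζ.map_of_injective (algebraMap K L).injective) (finite_above L S).toFinset
  rw [Set.Finite.coe_toFinset] at hA
  let eG := AddMonoidHom.ofInjective hj
  have hK := hq_sU hζ S
  have hG := (PT.hq_mulHom_congr p eG).1 hK.1
  obtain ⟨-, key⟩ := PT.herbrand (σ := σA) hσp j.range hfix NA hN h90 hA.1 hG
  rw [← (PT.hq_mulHom_congr p eG).2, hA.2, hK.2] at key
  have hidx : NA.range.relIndex j.range = (normS L S).range.index := by
    rw [show NA.range = (MonoidHom.toAdditive (normS L S)).range.map j from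
        AddMonoidHom.range_comp _ _, AddMonoidHom.range_eq_map j,
      AddSubgroup.relIndex_map_map_of_injective _ _ hj, AddSubgroup.relIndex_top_right,
      ← Subgroup.index_toAddSubgroup]
    rfl
  rw [hidx] at key
  have key' : (normS L S).range.index ^ (p - 1) *
      p ^ (Units.rank L + (finite_above L S).toFinset.card)
      = (p ^ (Units.rank K + S.card)) ^ p := by exact_mod_cast key
  have h1 := card_above (L := L) hdeg S
  have h2 := rank_mul_add_one (L := L) hdeg
  have hp1 := hp.out.one_le
  have hexp : Units.rank L + (finite_above L S).toFinset.card + (p - 1) * numNonsplit L S =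
      (Units.rank K + S.card) * p + (p - 1) := by
    have : (Units.rank K + S.card) * p + p = p * (Units.rank K + 1) + p * S.card := by ring
    omega
  have h3 : ((normS L S).range.index * p) ^ (p - 1) = (p ^ numNonsplit L S) ^ (p - 1) := by
    refine Nat.eq_of_mul_eq_mul_right
      (pow_pos hp.out.pos (Units.rank L + (finite_above L S).toFinset.card)) ?_
    rw [mul_pow, mul_right_comm, key', ← pow_mul, ← pow_add, ← pow_mul, ← pow_add]
    congr 1
    rw [mul_comm (numNonsplit L S)]
    omega
  exact Nat.pow_left_injective (by have := hp.out.two_le; omega) h3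

end Fermat.Agent.CFT
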